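import Fermat.Agent.Roth.Multi
import Mathlib.Algebra.MvPolynomial.NoZeroDivisors
import Mathlib.Analysis.Complex.Basic

/-!
# Length and degree of integer polynomials in several variables

The length `FA.Roth.len` (the sum of the absolute values of the coefficients) and the total degree
bound the values of a polynomial, its variation and its substitutions.
-/

set_option autoImplicit false

noncomputable section

namespace FA.Nesterenko

open MvPolynomial Finset
open FA.Roth (len)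

variable {σ τ : Type*}

theorem len_C (a : ℤ) : len (C a : MvPolynomial σ ℤ) = |(a : ℝ)| := by
  classical
  rw [FA.Roth.len_eq_sum (P := C a) (t := {0}) support_monomial_subset, sum_singleton,
    coeff_zero_C]

theorem len_one : len (1 : MvPolynomial σ ℤ) = 1 := by
  rw [← map_one C, len_C]; simp

theorem len_X (i : σ) : len (X i : MvPolynomial σ ℤ) = 1 := by
  classical
  rw [FA.Roth.len_eq_sum (P := X i) (t := {Finsupp.single i 1}) support_monomial_subset,
    sum_singleton,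
    coeff_X]
  simp

theorem len_sub_le (P Q : MvPolynomial σ ℤ) : len (P - Q) ≤ len P + len Q := by
  rw [sub_eq_add_neg]
  exact (FA.Roth.len_add_le _ _).trans (by rw [FA.Roth.len_neg])

theorem len_pow_le (P : MvPolynomial σ ℤ) (n : ℕ) : len (P ^ n) ≤ len P ^ n := by
  induction n with
  | zero => simp [len_one]
  | succ n ih =>
    rw [pow_succ, pow_succ]
    exact (FA.Roth.len_mul_le _ _).trans (mul_le_mul_of_nonneg_right ih (FA.Roth.len_nonneg _))

theorem len_C_mul_le (a : ℤ) (P : MvPolynomial σ ℤ) : len (C a * P) ≤ |(a : ℝ)| * len P := by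
  rw [← len_C (σ := σ) a]
  exact FA.Roth.len_mul_le _ _

/-- A polynomial of bounded total degree with bounded coefficients. -/
theorem len_le_of_abs_coeff_le [Fintype σ] [DecidableEq σ] {P : MvPolynomial σ ℤ} {D : ℕ} {b : ℝ}
    (hb : 0 ≤ b) (hD : P.totalDegree ≤ D) (h : ∀ s, |((coeff s P : ℤ) : ℝ)| ≤ b) :
    len P ≤ (D + 1 : ℕ) ^ Fintype.card σ * b := by
  refine (sum_le_card_nsmul _ _ b fun s _ => h s).trans ?_
  rw [nsmul_eq_mul]
  refine mul_le_mul_of_nonneg_right ?_ hb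
  rw [← Nat.cast_pow, Nat.cast_le]
  calc P.support.card ≤ (Fintype.piFinset fun _ : σ => range (D + 1)).card := by
        refine card_le_card_of_injOn (fun s => (s : σ → ℕ)) (fun s hs => ?_)
          DFunLike.coe_injective.injOn
        simp only [mem_coe, Fintype.mem_piFinset, mem_range, Nat.lt_succ_iff]
        intro i
        exact (Finsupp.le_degree i s).trans (((Finsupp.degree_apply s).trans_le
          (le_totalDegree (mem_coe.1 hs))).trans hD)
    _ = (D + 1) ^ Fintype.card σ := by simp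

theorem sum_exponents_le {P : MvPolynomial σ ℤ} {D : ℕ} (hD : P.totalDegree ≤ D) {d : σ →₀ ℕ}
    (hd : d ∈ P.support) : ∑ i ∈ d.support, d i ≤ D :=
  (le_totalDegree hd).trans hD

theorem totalDegree_aeval_le {P : MvPolynomial σ ℤ} {D e : ℕ} (hD : P.totalDegree ≤ D)
    {g : σ → MvPolynomial τ ℤ} (hg : ∀ i, (g i).totalDegree ≤ e) :
    (aeval g P).totalDegree ≤ e * D := by
  rw [aeval_def, eval₂_eq]
  refine totalDegree_finsetSum_le fun d hd => ?_
  refine (totalDegree_mul _ _).trans ?_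
  rw [show (algebraMap ℤ (MvPolynomial τ ℤ)) (coeff d P) = C (coeff d P) from rfl,
    totalDegree_C, zero_add]
  refine (totalDegree_finsetProd _ _).trans ?_
  refine (sum_le_sum (g := fun i => e * d i) fun i _ => ?_).trans ?_
  · exact (totalDegree_pow _ _).trans (by rw [mul_comm]; exact Nat.mul_le_mul_right _ (hg i))
  · rw [← mul_sum]
    exact Nat.mul_le_mul_left _ (sum_exponents_le hD hd)

theorem len_aeval_le {P : MvPolynomial σ ℤ} {D : ℕ} (hD : P.totalDegree ≤ D)
    {g : σ → MvPolynomial τ ℤ} {L : ℝ} (hL : 1 ≤ L) (hg : ∀ i, len (g i) ≤ L) :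
    len (aeval g P) ≤ len P * L ^ D := by
  rw [aeval_def, eval₂_eq]
  conv_rhs => rw [FA.Roth.len, sum_mul]
  refine (FA.Roth.len_sum_le _ _).trans (sum_le_sum fun d hd => ?_)
  refine (len_C_mul_le _ _).trans (mul_le_mul_of_nonneg_left ?_ (abs_nonneg _))
  refine (FA.Roth.len_prod_le _ _).trans ?_
  refine (prod_le_prod (fun i _ => FA.Roth.len_nonneg _) (g := fun i => L ^ d i)
    fun i _ => ?_).trans ?_
  · exact (len_pow_le _ _).trans (pow_le_pow_left₀ (FA.Roth.len_nonneg _) (hg i) _)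
  · rw [prod_pow_eq_pow_sum]
    exact pow_le_pow_right₀ hL (sum_exponents_le hD hd)

theorem norm_aeval_le {P : MvPolynomial σ ℤ} {D : ℕ} (hD : P.totalDegree ≤ D) {v : σ → ℂ} {B : ℝ}
    (hB : 1 ≤ B) (hv : ∀ i, ‖v i‖ ≤ B) : ‖aeval v P‖ ≤ len P * B ^ D := by
  rw [aeval_def, eval₂_eq]
  conv_rhs => rw [FA.Roth.len, sum_mul]
  refine (norm_sum_le _ _).trans (sum_le_sum fun d hd => ?_)
  rw [norm_mul, algebraMap_int_eq, eq_intCast, Complex.norm_intCast]
  refine mul_le_mul_of_nonneg_left ?_ (abs_nonneg _)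
  rw [norm_prod]
  refine (prod_le_prod (fun i _ => norm_nonneg _) (g := fun i => B ^ d i) fun i _ => ?_).trans ?_
  · rw [norm_pow]
    exact pow_le_pow_left₀ (norm_nonneg _) (hv i) _
  · rw [prod_pow_eq_pow_sum]
    exact pow_le_pow_right₀ hB (sum_exponents_le hD hd)

theorem norm_pow_sub_pow_le {a b : ℂ} {B δ : ℝ} (hB : 1 ≤ B) (ha : ‖a‖ ≤ B) (hb : ‖b‖ ≤ B)
    (hab : ‖a - b‖ ≤ δ) (n : ℕ) : ‖a ^ n - b ^ n‖ ≤ n * B ^ n * δ := by
  have hδ : 0 ≤ δ := (norm_nonneg _).trans hab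
  induction n with
  | zero => simp
  | succ n ih =>
    rw [show a ^ (n + 1) - b ^ (n + 1) = (a ^ n - b ^ n) * a + b ^ n * (a - b) by ring]
    refine (norm_add_le _ _).trans ?_
    rw [norm_mul, norm_mul, norm_pow]
    have h1 : ‖a ^ n - b ^ n‖ * ‖a‖ ≤ (n * B ^ n * δ) * B :=
      mul_le_mul ih ha (norm_nonneg _) (by positivity)
    have h2 : ‖b‖ ^ n * ‖a - b‖ ≤ B ^ (n + 1) * δ :=
      mul_le_mul ((pow_le_pow_left₀ (norm_nonneg _) hb n).trans
        (pow_le_pow_right₀ hB n.le_succ)) hab (norm_nonneg _) (by positivity)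
    refine (add_le_add h1 h2).trans (le_of_eq ?_)
    push_cast
    ring

theorem norm_prod_pow_sub_le {v w : σ → ℂ} {B δ : ℝ} (hB : 1 ≤ B) (hδ : 0 ≤ δ)
    (hv : ∀ i, ‖v i‖ ≤ B) (hw : ∀ i, ‖w i‖ ≤ B) (hvw : ∀ i, ‖v i - w i‖ ≤ δ) (s : Finset σ)
    (d : σ → ℕ) :
    ‖(∏ i ∈ s, v i ^ d i) - ∏ i ∈ s, w i ^ d i‖ ≤
      (∑ i ∈ s, d i : ℕ) * B ^ (∑ i ∈ s, d i) * δ := by
  classical
  induction s using Finset.induction with
  | empty => simp
  | insert a s ha ih =>
    rw [prod_insert ha, prod_insert ha, sum_insert ha,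
      show v a ^ d a * (∏ i ∈ s, v i ^ d i) - w a ^ d a * (∏ i ∈ s, w i ^ d i) =
        (v a ^ d a - w a ^ d a) * (∏ i ∈ s, v i ^ d i) +
          w a ^ d a * ((∏ i ∈ s, v i ^ d i) - ∏ i ∈ s, w i ^ d i) by ring]
    refine (norm_add_le _ _).trans ?_
    rw [norm_mul, norm_mul, norm_pow]
    have hp : ‖∏ i ∈ s, v i ^ d i‖ ≤ B ^ (∑ i ∈ s, d i) := by
      rw [norm_prod, ← prod_pow_eq_pow_sum]
      exact prod_le_prod (fun i _ => norm_nonneg _) fun i _ => by
        rw [norm_pow]; exact pow_le_pow_left₀ (norm_nonneg _) (hv i) _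
    refine (add_le_add (mul_le_mul (norm_pow_sub_pow_le hB (hv a) (hw a) (hvw a) (d a)) hp
      (norm_nonneg _) (by positivity)) (mul_le_mul (pow_le_pow_left₀ (norm_nonneg _) (hw a) _) ih
      (norm_nonneg _) (by positivity))).trans (le_of_eq ?_)
    push_cast
    rw [pow_add]
    ring

theorem norm_aeval_sub_le {P : MvPolynomial σ ℤ} {D : ℕ} (hD : P.totalDegree ≤ D) {v w : σ → ℂ}
    {B δ : ℝ} (hB : 1 ≤ B) (hδ : 0 ≤ δ) (hv : ∀ i, ‖v i‖ ≤ B) (hw : ∀ i, ‖w i‖ ≤ B)
    (hvw : ∀ i, ‖v i - w i‖ ≤ δ) :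
    ‖aeval v P - aeval w P‖ ≤ len P * (D * B ^ D * δ) := by
  rw [aeval_def, aeval_def, eval₂_eq, eval₂_eq, FA.Roth.len, sum_mul, ← sum_sub_distrib]
  refine (norm_sum_le _ _).trans (sum_le_sum fun d hd => ?_)
  rw [← mul_sub, norm_mul, algebraMap_int_eq, eq_intCast, Complex.norm_intCast]
  refine mul_le_mul_of_nonneg_left ((norm_prod_pow_sub_le hB hδ hv hw hvw _ _).trans ?_)
    (abs_nonneg _)
  have h := sum_exponents_le hD hd
  exact mul_le_mul_of_nonneg_right (mul_le_mul (Nat.cast_le.2 h) (pow_le_pow_right₀ hB h)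
    (by positivity) (by positivity)) hδ

end FA.Nesterenko

end
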