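import Fermat.Agent.Nesterenko.Series
import Mathlib.NumberTheory.SiegelsLemma
import Mathlib.Analysis.SpecialFunctions.Pow.Asymptotics

/-!
# The auxiliary polynomial

Siegel's lemma gives a polynomial of degree `≤ N` in each of `R, Q, P, z` and length
`exp (N ^ (1 + ε))` whose series vanishes to order `(N + 1) ^ 4 / 2`.
-/

set_option autoImplicit false

noncomputable section

namespace FA.Nesterenko

open MvPolynomial Finset Filter
open FA.Roth (len)
open scoped Matrix.Norms.Elementwise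

/-- The monomials of the auxiliary polynomial. -/
def boxExp {N : ℕ} (x : Fin 4 → Fin (N + 1)) : Fin 4 →₀ ℕ :=
  Finsupp.equivFunOnFinite.symm fun i => (x i : ℕ)

theorem boxExp_injective {N : ℕ} : Function.Injective (boxExp (N := N)) := fun _ _ h =>
  funext fun i => Fin.ext (DFunLike.congr_fun h i)

theorem degree_boxExp_le {N : ℕ} (x : Fin 4 → Fin (N + 1)) : (boxExp x).degree ≤ 4 * N := by
  rw [Finsupp.degree_eq_sum]
  refine (Finset.sum_le_card_nsmul _ _ N fun i _ => Nat.lt_succ_iff.1 (x i).2).trans ?_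
  simp

theorem abs_coeff_ser_le (A : MvPolynomial (Fin 4) ℤ) {D : ℕ} (hD : A.totalDegree ≤ D) {n m : ℕ}
    (hn : n ≤ m) (hm : 1 ≤ m) : |((PowerSeries.coeff n (ser A) : ℤ) : ℝ)| ≤
      4 * (len A * (362880 * ((m + 1 : ℕ) : ℝ) ^ 7) ^ D) := by
  have hmR : (1 : ℝ) ≤ m := Nat.one_le_cast.2 hm
  set r := (m : ℝ) / (m + 1) with hr
  have hr0 : 0 ≤ r := by positivity
  have hr1 : r < 1 := by rw [hr, div_lt_one (by positivity)]; linarith
  have h := maj_ser A hD hr0 hr1
  have hterm : |((PowerSeries.coeff n (ser A) : ℤ) : ℝ)| * r ^ n ≤ len A * growth r ^ D :=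
    (h.1.le_tsum n fun k _ => by positivity).trans h.2
  have hg : growth r = 362880 * ((m + 1 : ℕ) : ℝ) ^ 7 := by
    rw [growth, hr, one_sub_div (by positivity)]
    push_cast
    rw [add_sub_cancel_left, one_div, inv_pow, div_inv_eq_mul]
  have hrn : 1 ≤ 4 * r ^ n := by
    have h1 : r ^ m ≤ r ^ n := pow_le_pow_of_le_one hr0 hr1.le hn
    have h2 : ((m : ℝ) + 1) ^ m ≤ 4 * (m : ℝ) ^ m := by
      have h3 : ((m : ℝ) + 1) ^ m = (1 + 1 / (m : ℝ)) ^ m * (m : ℝ) ^ m := by
        rw [← mul_pow, add_mul, one_div_mul_cancel (by positivity)]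
        ring
      rw [h3]
      refine mul_le_mul_of_nonneg_right ?_ (by positivity)
      calc (1 + 1 / (m : ℝ)) ^ m ≤ Real.exp (1 / (m : ℝ)) ^ m :=
            pow_le_pow_left₀ (by positivity) (by linarith [Real.add_one_le_exp (1 / (m : ℝ))]) _
        _ = Real.exp 1 := by rw [← Real.exp_nat_mul, mul_one_div_cancel (by positivity)]
        _ ≤ 4 := by linarith [Real.exp_one_lt_d9]
    have h4 : 1 ≤ 4 * r ^ m := by
      rw [hr, div_pow, mul_div_assoc', le_div_iff₀ (by positivity), one_mul]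
      exact h2
    linarith
  rw [← hg]
  calc |((PowerSeries.coeff n (ser A) : ℤ) : ℝ)|
      ≤ |((PowerSeries.coeff n (ser A) : ℤ) : ℝ)| * (4 * r ^ n) :=
        le_mul_of_one_le_right (abs_nonneg _) hrn
    _ = 4 * (|((PowerSeries.coeff n (ser A) : ℤ) : ℝ)| * r ^ n) := by ring
    _ ≤ 4 * (len A * growth r ^ D) := mul_le_mul_of_nonneg_left hterm (by norm_num)

theorem exists_auxiliary {N : ℕ} (hN : 1 ≤ N) :
    ∃ A : MvPolynomial (Fin 4) ℤ, A ≠ 0 ∧ A.totalDegree ≤ 4 * N ∧
      len A ≤ 4 * ((N + 1 : ℕ) : ℝ) ^ 8 *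
        (362880 * (((N + 1) ^ 4 : ℕ) : ℝ) ^ 7) ^ (4 * N) ∧
      PowerSeries.X ^ ((N + 1) ^ 4 / 2) ∣ ser A := by
  classical
  set n := (N + 1) ^ 4 with hn
  set m := n / 2 with hm
  have hn2 : 16 ≤ n := by
    rw [hn]
    calc 16 = (1 + 1) ^ 4 := by norm_num
      _ ≤ (N + 1) ^ 4 := Nat.pow_le_pow_left (by omega) 4
  set B : ℝ := 4 * (362880 * (n : ℝ) ^ 7) ^ (4 * N) with hB
  set Mx : Matrix (Fin m) (Fin 4 → Fin (N + 1)) ℤ :=
    Matrix.of fun k x => PowerSeries.coeff (k : ℕ) (ser (monomial (boxExp x) 1)) with hMx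
  obtain ⟨t, ht0, htM, htn⟩ := Int.Matrix.exists_ne_zero_int_vec_norm_le Mx
    (by simp only [Fintype.card_fin, Fintype.card_pi, prod_const, card_univ, ← hn]; omega)
    (by simp only [Fintype.card_fin]; omega)
  have hnR : (1 : ℝ) ≤ n := by exact_mod_cast (show 1 ≤ n by omega)
  have hB1 : 1 ≤ B := by
    rw [hB]
    have : (1 : ℝ) ≤ (362880 * (n : ℝ) ^ 7) ^ (4 * N) :=
      one_le_pow₀ (one_le_mul_of_one_le_of_one_le (by norm_num) (one_le_pow₀ hnR))
    linarith
  have hmax : max 1 ‖Mx‖ ≤ B := by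
    refine max_le hB1 ((Matrix.norm_le_iff (by linarith)).2 fun k x => ?_)
    rw [hMx, Matrix.of_apply, Int.norm_eq_abs]
    refine (abs_coeff_ser_le (m := n - 1) _ (D := 4 * N) ?_ (by omega) (by omega)).trans ?_
    · refine Finset.sup_le fun s hs => ?_
      rw [Finset.mem_singleton.1 (support_monomial_subset hs)]
      exact (Finsupp.degree_apply _).symm.trans_le (degree_boxExp_le x)
    · rw [hB, Nat.sub_add_cancel (by omega)]
      refine mul_le_mul_of_nonneg_left (mul_le_of_le_one_left (by positivity) ?_) (by norm_num)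
      simpa using FA.Roth.len_monomial_le (σ := Fin 4) (boxExp x) 1
  have ht : ∀ x, |((t x : ℤ) : ℝ)| ≤ n * B := fun x => by
    rw [← Int.norm_eq_abs]
    refine (norm_le_pi_norm t x).trans (htn.trans ?_)
    simp only [Fintype.card_fin, Fintype.card_pi, prod_const, card_univ, ← hn]
    refine le_trans (Real.rpow_le_rpow_of_exponent_le ?_ (show (m : ℝ) / ((n : ℝ) - m) ≤ 1 by
      have h2 : (2 : ℝ) * m ≤ n := by exact_mod_cast (show 2 * m ≤ n by omega)
      rw [div_le_one (by linarith)]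
      linarith)) ?_
    · exact one_le_mul_of_one_le_of_one_le hnR (le_max_left _ _)
    · rw [Real.rpow_one]
      exact mul_le_mul_of_nonneg_left hmax (Nat.cast_nonneg _)
  set A : MvPolynomial (Fin 4) ℤ := ∑ x, monomial (boxExp x) (t x) with hA
  refine ⟨A, fun h0 => ht0 (funext fun x => ?_), ?_, ?_, ?_⟩
  · have := congrArg (coeff (boxExp x)) h0
    rw [hA, coeff_sum, sum_eq_single x (fun y _ hy => by
      rw [coeff_monomial, if_neg fun e => hy (boxExp_injective e)])
      (fun h => absurd (mem_univ x) h), coeff_monomial, if_pos rfl, coeff_zero] at this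
    exact this
  · refine totalDegree_finsetSum_le fun x _ => Finset.sup_le fun s hs => ?_
    rw [Finset.mem_singleton.1 (support_monomial_subset hs)]
    exact (Finsupp.degree_apply _).symm.trans_le (degree_boxExp_le x)
  · refine (FA.Roth.len_sum_le _ _).trans ((sum_le_card_nsmul _ _ _ fun x _ =>
      (FA.Roth.len_monomial_le _ _).trans (ht x)).trans (le_of_eq ?_))
    rw [card_univ, nsmul_eq_mul, Fintype.card_fun, Fintype.card_fin, Fintype.card_fin, ← hn, hB,
      show ((N + 1 : ℕ) : ℝ) ^ 8 = (n : ℝ) * n by rw [hn]; push_cast; ring]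
    ring
  · refine PowerSeries.X_pow_dvd_iff.2 fun k hk => ?_
    have h := congrFun htM ⟨k, hk⟩
    simp only [Matrix.mulVec, dotProduct, hMx, Matrix.of_apply, Pi.zero_apply] at h
    rw [hA, ser, map_sum, map_sum, ← h]
    refine sum_congr rfl fun x _ => ?_
    rw [show monomial (boxExp x) (t x) = C (t x) * monomial (boxExp x) 1 by
      rw [C_mul_monomial, mul_one], map_mul, aeval_C, ← PowerSeries.C_eq_algebraMap,
      PowerSeries.coeff_C_mul, mul_comm, ser]

/-- `N (1 + log N)` is below `N ^ (1 + ε)`. -/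
theorem eventually_mul_log_le {ε : ℝ} (hε : 0 < ε) (K : ℝ) :
    ∀ᶠ N : ℕ in atTop, K * ((N : ℝ) * (1 + Real.log N)) ≤ (N : ℝ) ^ (1 + ε) := by
  have h1 := ((tendsto_rpow_atTop (show 0 < ε / 2 by linarith)).comp
    tendsto_natCast_atTop_atTop).eventually_ge_atTop (|K| * (1 + 2 / ε))
  filter_upwards [h1, eventually_ge_atTop 1] with N hN hN1
  simp only [Function.comp_apply] at hN
  have hNR : (1 : ℝ) ≤ N := Nat.one_le_cast.2 hN1
  set p := (N : ℝ) ^ (ε / 2) with hp
  have hp1 : 1 ≤ p := Real.one_le_rpow hNR (by linarith)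
  have hx : (N : ℝ) ^ (1 + ε) = N * (p * p) := by
    rw [hp, ← Real.rpow_add (by linarith), Real.rpow_add (by linarith), Real.rpow_one]
    ring_nf
  have h2 : 1 + Real.log N ≤ (1 + 2 / ε) * p := by
    have h := Real.log_le_rpow_div (x := (N : ℝ)) (by linarith) (show 0 < ε / 2 by linarith)
    rw [← hp] at h
    have e : p / (ε / 2) = 2 / ε * p := by field_simp
    linarith
  rw [hx]
  calc K * ((N : ℝ) * (1 + Real.log N)) ≤ |K| * ((N : ℝ) * ((1 + 2 / ε) * p)) :=
        mul_le_mul (le_abs_self K) (mul_le_mul_of_nonneg_left h2 (by linarith))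
          (mul_nonneg (by linarith) (by linarith [Real.log_nonneg hNR])) (abs_nonneg K)
    _ = N * ((|K| * (1 + 2 / ε)) * p) := by ring
    _ ≤ N * (p * p) :=
        mul_le_mul_of_nonneg_left (mul_le_mul_of_nonneg_right hN (by linarith)) (by linarith)

theorem eventually_exists_auxiliary {ε : ℝ} (hε : 0 < ε) :
    ∀ᶠ N : ℕ in atTop, ∃ A : MvPolynomial (Fin 4) ℤ, A ≠ 0 ∧ A.totalDegree ≤ 4 * N ∧
      Real.log (len A) ≤ (N : ℝ) ^ (1 + ε) ∧
      PowerSeries.X ^ ((N + 1) ^ 4 / 2) ∣ ser A := by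
  filter_upwards [eventually_mul_log_le hε 300, eventually_ge_atTop 1] with N hlog hN1
  obtain ⟨A, hA0, hdeg, hlen, hdvd⟩ := exists_auxiliary hN1
  refine ⟨A, hA0, hdeg, le_trans ?_ hlog, hdvd⟩
  refine (Real.log_le_log (zero_lt_one.trans_le (FA.Roth.one_le_len hA0)) hlen).trans ?_
  have hNR : (1 : ℝ) ≤ N := Nat.one_le_cast.2 hN1
  have hl0 := Real.log_nonneg hNR
  have h4 : Real.log 4 ≤ 3 := (Real.log_le_sub_one_of_pos (by norm_num)).trans (by norm_num)
  have h36 : Real.log 362880 ≤ 20 := by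
    rw [Real.log_le_iff_le_exp (by norm_num)]
    refine le_trans ?_ (Real.sum_le_exp_of_nonneg (by norm_num) 12)
    norm_num [Finset.sum_range_succ, Nat.factorial]
  have hlN : Real.log ((N : ℝ) + 1) ≤ 1 + Real.log N := by
    have h2 : Real.log ((N : ℝ) + 1) ≤ Real.log (2 * N) :=
      Real.log_le_log (by linarith) (by linarith)
    rw [Real.log_mul two_ne_zero (by linarith)] at h2
    linarith [Real.log_two_lt_d9]
  push_cast
  rw [Real.log_mul (by positivity) (by positivity), Real.log_mul (by norm_num) (by positivity),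
    Real.log_pow, Real.log_pow, Real.log_mul (by norm_num) (by positivity), Real.log_pow,
    Real.log_pow]
  push_cast
  nlinarith

end FA.Nesterenko

end
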