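import Fermat.Agent.Nesterenko.Basic
import Fermat.Agent.GelfondCubic.Length
import Mathlib.Algebra.Polynomial.Basic

/-!
# Changes of coordinates in two variables

`shear l` substitutes `x - l y` for `x`; `toXY` reads a polynomial in two variables as one in `y`
over `ℤ[x]`. Outside finitely many `l` the leading coefficient in `y` of a sheared polynomial is a
non-zero integer.
-/

set_option autoImplicit false

noncomputable section

namespace FA.Nesterenko

open MvPolynomial Finset
open FA.Roth (len)

/-- A monomial in two variables. -/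
def pair (i j : ℕ) : Fin 2 →₀ ℕ := Finsupp.equivFunOnFinite.symm ![i, j]

theorem pair_zero (i j : ℕ) : pair i j 0 = i := rfl

theorem pair_one (i j : ℕ) : pair i j 1 = j := rfl

theorem pair_eta (s : Fin 2 →₀ ℕ) : pair (s 0) (s 1) = s := by
  ext l
  fin_cases l <;> rfl

theorem degree_eq_add (s : Fin 2 →₀ ℕ) : s.degree = s 0 + s 1 := by
  rw [Finsupp.degree_eq_sum, Fin.sum_univ_two]

theorem eq_pair_iff (s : Fin 2 →₀ ℕ) (i j : ℕ) : s = pair i j ↔ s 0 = i ∧ s 1 = j := by
  constructor
  · rintro rfl
    exact ⟨rfl, rfl⟩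
  · rintro ⟨rfl, rfl⟩
    exact (pair_eta s).symm

theorem add_le_totalDegree {P : MvPolynomial (Fin 2) ℤ} {s : Fin 2 →₀ ℕ} (h : s ∈ P.support) :
    s 0 + s 1 ≤ P.totalDegree := by
  rw [← degree_eq_add, Finsupp.degree_apply]
  exact le_totalDegree h

theorem coeff_eq_zero_of_lt {P : MvPolynomial (Fin 2) ℤ} {i j : ℕ}
    (h : P.totalDegree < i + j) : coeff (pair i j) P = 0 := by
  by_contra hne
  have := add_le_totalDegree (mem_support_iff.2 hne)
  rw [pair_zero, pair_one] at this
  omega

/-- Reading a polynomial in `x, y` in `ℤ[x][y]`. -/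
def toXYHom : MvPolynomial (Fin 2) ℤ →ₐ[ℤ] Polynomial (Polynomial ℤ) :=
  aeval ![Polynomial.C Polynomial.X, Polynomial.X]

/-- The inverse reading. -/
def ofXYHom : Polynomial (Polynomial ℤ) →+* MvPolynomial (Fin 2) ℤ :=
  Polynomial.eval₂RingHom (Polynomial.aeval (X 0 : MvPolynomial (Fin 2) ℤ)).toRingHom (X 1)

/-- `ℤ[x, y] = ℤ[x][y]`. -/
def toXY : MvPolynomial (Fin 2) ℤ ≃+* Polynomial (Polynomial ℤ) :=
  RingEquiv.ofRingHom toXYHom.toRingHom ofXYHom
    (by
      refine Polynomial.ringHom_ext (fun a => ?_) ?_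
      · refine RingHom.congr_fun (show ((toXYHom.toRingHom.comp ofXYHom).comp Polynomial.C) =
          ((RingHom.id _).comp Polynomial.C) from ?_) a
        refine Polynomial.ringHom_ext (fun c => ?_) ?_
        · simp [toXYHom, ofXYHom]
        · simp [toXYHom, ofXYHom]
      · simp [toXYHom, ofXYHom])
    (by
      refine MvPolynomial.ringHom_ext (fun c => ?_) fun i => ?_
      · simp [toXYHom, ofXYHom]
      · fin_cases i <;> simp [toXYHom, ofXYHom])

theorem coeff_toXY (P : MvPolynomial (Fin 2) ℤ) (i j : ℕ) :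
    ((toXY P).coeff j).coeff i = coeff (pair i j) P := by
  classical
  show ((toXYHom P).coeff j).coeff i = _
  induction P using MvPolynomial.induction_on' with
  | monomial s c =>
    have e : toXYHom (monomial s c) =
        Polynomial.monomial (s 1) (Polynomial.monomial (s 0) c) := by
      rw [toXYHom, aeval_monomial, Finsupp.prod_fintype _ _ (fun _ => pow_zero _),
        Fin.prod_univ_two]
      simp only [Matrix.cons_val_zero, Matrix.cons_val_one, eq_intCast]
      rw [← Polynomial.C_mul_X_pow_eq_monomial, ← Polynomial.C_mul_X_pow_eq_monomial, map_mul,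
        map_pow, eq_intCast, map_intCast]
      ring
    rw [e, coeff_monomial, Polynomial.coeff_monomial]
    by_cases h1 : s 1 = j
    · rw [if_pos h1, Polynomial.coeff_monomial]
      refine if_congr ?_ rfl rfl
      rw [eq_pair_iff, and_iff_left h1]
    · rw [if_neg h1, Polynomial.coeff_zero, if_neg]
      exact fun h => h1 ((eq_pair_iff _ _ _).1 h).2
  | add p q hp hq =>
    rw [map_add, Polynomial.coeff_add, Polynomial.coeff_add, hp, hq, coeff_add]

theorem natDegree_toXY_le (P : MvPolynomial (Fin 2) ℤ) :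
    (toXY P).natDegree ≤ P.totalDegree := by
  refine Polynomial.natDegree_le_iff_coeff_eq_zero.2 fun j hj => ?_
  ext i
  rw [coeff_toXY, Polynomial.coeff_zero, coeff_eq_zero_of_lt (by omega)]

theorem natDegree_coeff_toXY_le (P : MvPolynomial (Fin 2) ℤ) (j : ℕ) :
    ((toXY P).coeff j).natDegree ≤ P.totalDegree - j := by
  refine Polynomial.natDegree_le_iff_coeff_eq_zero.2 fun i hi => ?_
  rw [coeff_toXY, coeff_eq_zero_of_lt (by omega)]

theorem coeff_totalDegree_toXY (P : MvPolynomial (Fin 2) ℤ) :
    (toXY P).coeff P.totalDegree = Polynomial.C (coeff (pair 0 P.totalDegree) P) := by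
  rw [Polynomial.eq_C_of_natDegree_eq_zero (p := (toXY P).coeff P.totalDegree)
    (Nat.le_zero.1 ((natDegree_coeff_toXY_le P _).trans (Nat.sub_self _).le)), coeff_toXY]

theorem sum_len_coeff_toXY_le (P : MvPolynomial (Fin 2) ℤ) (J : Finset ℕ) :
    ∑ j ∈ J, GelfondCubic.len ((toXY P).coeff j) ≤ len P := by
  classical
  set K := range (P.totalDegree + 1)
  have h : ∀ j, GelfondCubic.len ((toXY P).coeff j) =
      ∑ i ∈ K, |((coeff (pair i j) P : ℤ) : ℝ)| := fun j => by
    rw [GelfondCubic.len_eq_sum_range (N := P.totalDegree + 1)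
      (Nat.lt_succ_of_le ((natDegree_coeff_toXY_le P j).trans (Nat.sub_le _ _)))]
    simp only [coeff_toXY, K]
  simp only [h]
  rw [← sum_product', ← sum_image (f := fun s => |((coeff s P : ℤ) : ℝ)|)
    (g := fun p : ℕ × ℕ => pair p.2 p.1) (fun p _ q _ e => ?_)]
  · rw [FA.Roth.len_eq_sum (subset_union_left (s₂ := (J ×ˢ K).image fun p => pair p.2 p.1))]
    exact sum_le_sum_of_subset_of_nonneg subset_union_right fun _ _ _ => abs_nonneg _
  · have h0 := DFunLike.congr_fun e 0
    have h1 := DFunLike.congr_fun e 1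
    simp only [pair_zero, pair_one] at h0 h1
    exact Prod.ext h1 h0

/-- The images of `x, y` under a shear. -/
def shearImage (l : ℤ) : Fin 2 → MvPolynomial (Fin 2) ℤ := ![X 0 - C l * X 1, X 1]

/-- Substituting `x - l y` for `x`. -/
def shear (l : ℤ) : MvPolynomial (Fin 2) ℤ →ₐ[ℤ] MvPolynomial (Fin 2) ℤ := aeval (shearImage l)

theorem shear_shear_neg (l : ℤ) (P : MvPolynomial (Fin 2) ℤ) : shear (-l) (shear l P) = P := by
  rw [shear, shear, ← AlgHom.comp_apply, comp_aeval]
  refine (congrArg (fun f => aeval f P) ?_).trans (aeval_X_left_apply P)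
  funext i
  fin_cases i <;> simp [shearImage]

/-- The shear as an automorphism. -/
def shearEquiv (l : ℤ) : MvPolynomial (Fin 2) ℤ ≃+* MvPolynomial (Fin 2) ℤ :=
  RingEquiv.ofRingHom (shear l).toRingHom (shear (-l)).toRingHom
    (RingHom.ext fun P => by simpa using shear_shear_neg (-l) P)
    (RingHom.ext fun P => shear_shear_neg l P)

theorem shearEquiv_apply (l : ℤ) (P : MvPolynomial (Fin 2) ℤ) : shearEquiv l P = shear l P := rfl

theorem aeval_shear (l : ℤ) (P : MvPolynomial (Fin 2) ℤ) (v : Fin 2 → ℂ) :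
    aeval v (shear l P) = aeval ![v 0 - l * v 1, v 1] P := by
  rw [shear, comp_aeval_apply]
  congr 1
  ext i
  fin_cases i <;> simp [shearImage]

theorem len_shear_le (l : ℤ) (P : MvPolynomial (Fin 2) ℤ) {D : ℕ} (hD : P.totalDegree ≤ D) :
    len (shear l P) ≤ len P * (1 + |(l : ℝ)|) ^ D := by
  have hl : (1 : ℝ) ≤ 1 + |(l : ℝ)| := le_add_of_nonneg_right (abs_nonneg _)
  refine len_aeval_le hD hl fun i => ?_
  fin_cases i
  · simp only [shearImage, Fin.zero_eta, Matrix.cons_val_zero]
    refine (len_sub_le _ _).trans (add_le_add (len_X (σ := Fin 2) 0).le ?_)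
    exact (len_C_mul_le _ _).trans (by rw [len_X, mul_one])
  · simp [shearImage, len_X]

theorem totalDegree_shear (l : ℤ) (P : MvPolynomial (Fin 2) ℤ) :
    (shear l P).totalDegree = P.totalDegree := by
  have h : ∀ (l : ℤ) (P : MvPolynomial (Fin 2) ℤ), (shear l P).totalDegree ≤ P.totalDegree := by
    intro l P
    refine (totalDegree_aeval_le le_rfl (e := 1) fun i => ?_).trans (by rw [one_mul])
    fin_cases i
    · simp only [shearImage, Fin.zero_eta, Matrix.cons_val_zero]
      refine (totalDegree_sub _ _).trans (max_le (by simp) ((totalDegree_mul _ _).trans ?_))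
      rw [totalDegree_C, zero_add, totalDegree_X]
    · simp [shearImage]
  refine le_antisymm (h l P) ?_
  conv_lhs => rw [← shear_shear_neg l P]
  exact h _ _

/-- The value of the top homogeneous part at `(t, 1)`, as a polynomial in `t`. -/
def topPoly (P : MvPolynomial (Fin 2) ℤ) : Polynomial ℤ :=
  ∑ i ∈ range (P.totalDegree + 1),
    Polynomial.monomial i (coeff (pair i (P.totalDegree - i)) P)

theorem natDegree_topPoly_le (P : MvPolynomial (Fin 2) ℤ) :
    (topPoly P).natDegree ≤ P.totalDegree :=
  Polynomial.natDegree_sum_le_of_forall_le _ _ fun _ hi =>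
    (Polynomial.natDegree_monomial_le _).trans (Nat.lt_succ_iff.1 (mem_range.1 hi))

theorem topPoly_ne_zero {P : MvPolynomial (Fin 2) ℤ} (hP : P ≠ 0) : topPoly P ≠ 0 := by
  classical
  obtain ⟨s, hs, hmax⟩ : ∃ s ∈ P.support, s.degree = P.totalDegree := by
    obtain ⟨s, hs, hmax⟩ := exists_mem_eq_sup P.support
      (support_nonempty.2 hP) (fun s => s.sum fun _ e => e)
    exact ⟨s, hs, by rw [Finsupp.degree_apply]; exact hmax.symm⟩
  rw [degree_eq_add] at hmax
  intro h
  have := congrArg (fun p => Polynomial.coeff p (s 0)) h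
  simp only [topPoly, Polynomial.finsetSum_coeff, Polynomial.coeff_monomial,
    Polynomial.coeff_zero, sum_ite_eq', mem_range] at this
  rw [if_pos (by omega), show P.totalDegree - s 0 = s 1 by omega, pair_eta] at this
  exact (mem_support_iff.1 hs) this

theorem coeff_pair_shear (l : ℤ) (P : MvPolynomial (Fin 2) ℤ) :
    coeff (pair 0 P.totalDegree) (shear l P) = (topPoly P).eval (-l) := by
  classical
  set T := P.totalDegree with hT
  have h0 : ∀ (Q : MvPolynomial (Fin 2) ℤ) (k : ℕ),
      (aeval ![0, Polynomial.X] Q : Polynomial ℤ).coeff k = coeff (pair 0 k) Q := by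
    intro Q k
    induction Q using MvPolynomial.induction_on' with
    | monomial s c =>
      rw [aeval_monomial, Finsupp.prod_fintype _ _ (fun _ => pow_zero _), Fin.prod_univ_two,
        coeff_monomial]
      simp only [Matrix.cons_val_zero, Matrix.cons_val_one, eq_intCast]
      rcases Nat.eq_zero_or_pos (s 0) with hs | hs
      · rw [hs, pow_zero, one_mul, ← Polynomial.C_eq_intCast, Polynomial.coeff_C_mul,
          Polynomial.coeff_X_pow]
        simp only [mul_ite, mul_one, mul_zero]
        refine if_congr ?_ rfl rfl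
        rw [eq_pair_iff, hs]
        exact ⟨fun h => ⟨rfl, h.symm⟩, fun h => h.2.symm⟩
      · rw [zero_pow hs.ne', zero_mul, mul_zero, Polynomial.coeff_zero, if_neg]
        intro h
        rw [eq_pair_iff] at h
        omega
    | add p q hp hq => rw [map_add, Polynomial.coeff_add, hp, hq, coeff_add]
  rw [← h0, shear, comp_aeval_apply, aeval_def, eval₂_eq', Polynomial.finsetSum_coeff, topPoly,
    Polynomial.eval_finsetSum]
  have hterm : ∀ s ∈ P.support, (algebraMap ℤ (Polynomial ℤ) (coeff s P) * ∏ i,
      (aeval ![0, Polynomial.X] (shearImage l i) : Polynomial ℤ) ^ s i).coeff T =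
      if s 0 + s 1 = T then coeff s P * (-l) ^ s 0 else 0 := fun s _ => by
    rw [Fin.prod_univ_two]
    simp only [shearImage, Matrix.cons_val_zero, Matrix.cons_val_one, map_sub, map_mul, aeval_X,
      eq_intCast, map_intCast, zero_sub]
    rw [neg_mul_eq_neg_mul, mul_pow, mul_assoc, ← pow_add, ← mul_assoc, ← Polynomial.C_eq_intCast,
      ← Polynomial.C_eq_intCast, ← map_neg, ← map_pow, ← map_mul, Polynomial.coeff_C_mul,
      Polynomial.coeff_X_pow]
    simp only [mul_ite, mul_one, mul_zero]
    exact if_congr eq_comm rfl rfl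
  rw [sum_congr rfl hterm, ← sum_filter]
  refine sum_bij_ne_zero (fun s _ _ => s 0) (fun s hs _ => ?_) (fun s hs _ s' hs' _ e => ?_)
    (fun i hi hne => ?_) (fun s hs _ => ?_)
  · rw [mem_filter] at hs
    exact mem_range.2 (by omega)
  · rw [mem_filter] at hs hs'
    rw [← pair_eta s, ← pair_eta s', e, show s 1 = s' 1 by omega]
  · have hi' := Nat.lt_succ_iff.1 (mem_range.1 hi)
    rw [← hT, Polynomial.eval_monomial] at hne
    refine ⟨pair i (T - i), mem_filter.2 ⟨mem_support_iff.2 (left_ne_zero_of_mul hne), ?_⟩, ?_, rfl⟩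
    · rw [pair_zero, pair_one]
      omega
    · rwa [pair_zero]
  · rw [mem_filter] at hs
    rw [← hT, Polynomial.eval_monomial, show T - s 0 = s 1 by omega, pair_eta]

/-- For these `l` the sheared polynomial is, up to a non-zero integer, monic in `y`. -/
theorem toXY_shear_lead {P : MvPolynomial (Fin 2) ℤ} {l : ℤ} (hl : (topPoly P).eval (-l) ≠ 0) :
    (toXY (shear l P)).natDegree = P.totalDegree ∧
      (toXY (shear l P)).leadingCoeff = Polynomial.C ((topPoly P).eval (-l)) := by
  have hc := coeff_totalDegree_toXY (shear l P)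
  rw [totalDegree_shear, coeff_pair_shear] at hc
  have hd : (toXY (shear l P)).natDegree = P.totalDegree := by
    refine le_antisymm ((natDegree_toXY_le _).trans (totalDegree_shear l P).le) ?_
    refine Polynomial.le_natDegree_of_ne_zero ?_
    rw [hc]
    simpa using hl
  exact ⟨hd, by rw [Polynomial.leadingCoeff, hd, hc]⟩

end FA.Nesterenko

end
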