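import Mathlib.Analysis.Complex.Basic
import Mathlib.FieldTheory.IntermediateField.Algebraic
import Mathlib.FieldTheory.IntermediateField.Adjoin.Algebra
import Mathlib.FieldTheory.IntermediateField.Adjoin.Basic
import Mathlib.RingTheory.AlgebraicIndependent.Defs
import Mathlib.RingTheory.Algebraic.Integral
import Mathlib.Algebra.MvPolynomial.NoZeroDivisors

/-!
# Multiplication matrices over `ℤ[θ₁, θ₂]`

Finitely many numbers algebraic over `ℚ (θ)`, `θ` a finite family, have a common eigenvector for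
matrices with entries in `ℤ[θ]`, the eigenvalues being the numbers times one denominator.
-/

set_option autoImplicit false

noncomputable section

namespace FA.Nesterenko

open MvPolynomial Finset Matrix

variable {σ : Type*}

/-- Clearing the denominators. -/
theorem exists_int_multiple (r : MvPolynomial σ ℚ) :
    ∃ (a : ℤ) (r' : MvPolynomial σ ℤ), a ≠ 0 ∧ map (Int.castRingHom ℚ) r' = C (a : ℚ) * r := by
  induction r using MvPolynomial.induction_on' with
  | monomial s c =>
    refine ⟨(c.den : ℤ), monomial s c.num, by exact_mod_cast c.den_nz, ?_⟩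
    rw [map_monomial, C_mul_monomial, eq_intCast, Int.cast_natCast, mul_comm]
    exact congrArg (monomial s) (Rat.mul_den_eq_num c).symm
  | add p q hp hq =>
    obtain ⟨a, p', ha, hp'⟩ := hp
    obtain ⟨b, q', hb, hq'⟩ := hq
    refine ⟨a * b, C b * p' + C a * q', mul_ne_zero ha hb, ?_⟩
    rw [map_add, map_mul, map_mul, map_C, map_C, hp', hq', Int.cast_mul, map_mul]
    simp only [eq_intCast]
    ring

theorem aeval_map_int (θ : σ → ℂ) (r : MvPolynomial σ ℤ) :
    aeval θ (map (Int.castRingHom ℚ) r) = aeval θ r := by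
  rw [aeval_def, aeval_def, eval₂_map]
  exact congrArg (fun f => eval₂ f θ r) (RingHom.ext_int _ _)

theorem exists_int_num {θ : σ → ℂ} {x : ℂ}
    (hx : x ∈ IntermediateField.adjoin ℚ (Set.range θ)) :
    ∃ h f : MvPolynomial σ ℤ, aeval θ h ≠ 0 ∧ x * aeval θ h = aeval θ f := by
  obtain ⟨r, s, rfl⟩ := (IntermediateField.mem_adjoin_range_iff ℚ θ x).1 hx
  by_cases hs : aeval θ s = 0
  · exact ⟨1, 0, by simp, by simp [hs]⟩
  obtain ⟨a, r', ha, hr'⟩ := exists_int_multiple r
  obtain ⟨b, s', hb, hs'⟩ := exists_int_multiple s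
  have hr : aeval θ r' = (a : ℂ) * aeval θ r := by
    rw [← aeval_map_int, hr', map_mul, aeval_C, eq_ratCast, Rat.cast_intCast]
  have hs0 : aeval θ s' = (b : ℂ) * aeval θ s := by
    rw [← aeval_map_int, hs', map_mul, aeval_C, eq_ratCast, Rat.cast_intCast]
  refine ⟨C a * s', C b * r', ?_, ?_⟩
  · rw [map_mul, aeval_C, eq_intCast, hs0]
    exact mul_ne_zero (Int.cast_ne_zero.2 ha) (mul_ne_zero (Int.cast_ne_zero.2 hb) hs)
  · simp only [map_mul, eq_intCast, map_intCast, hr, hs0]
    field_simp

/-- **A common eigenvector.** -/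
theorem exists_matrices {θ : σ → ℂ} {ι : Type*} [Fintype ι] (g : ι → ℂ)
    (hg : ∀ i, IsIntegral (IntermediateField.adjoin ℚ (Set.range θ)) (g i)) :
    ∃ (ν : ℕ) (w : Fin ν → ℂ) (den : MvPolynomial σ ℤ)
      (M : ι → Matrix (Fin ν) (Fin ν) (MvPolynomial σ ℤ)),
      w ≠ 0 ∧ aeval θ den ≠ 0 ∧
      ∀ x, (M x).map (aeval θ) *ᵥ w = (aeval θ den * g x) • w := by
  classical
  set k := IntermediateField.adjoin ℚ (Set.range θ) with hk
  set K := IntermediateField.adjoin k (Set.range g) with hK
  have : FiniteDimensional k K := IntermediateField.finiteDimensional_adjoin fun x hx => by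
    obtain ⟨i, rfl⟩ := hx
    exact hg i
  set b := Module.finBasis k K
  set ν := Module.finrank k K
  have hgK : ∀ x, g x ∈ K := fun x => IntermediateField.subset_adjoin _ _ ⟨x, rfl⟩
  set e : ι × Fin ν × Fin ν → ℂ := fun p =>
    ((b.repr (⟨g p.1, hgK p.1⟩ * b p.2.1) p.2.2 : k) : ℂ) with he
  choose h f hh hf using fun p => exists_int_num (θ := θ) (x := e p) (SetLike.coe_mem _)
  refine ⟨ν, fun i => (b i : ℂ), ∏ p, h p,
    fun x => Matrix.of fun i l => f (x, i, l) * ∏ p ∈ univ.erase (x, i, l), h p,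
    fun hw => ?_, by rw [map_prod]; exact prod_ne_zero_iff.2 fun p _ => hh p,
    fun x => funext fun i => ?_⟩
  · obtain ⟨i⟩ : Nonempty (Fin ν) := ⟨⟨0, Module.finrank_pos⟩⟩
    exact b.ne_zero i (Subtype.ext (congrFun hw i))
  · simp only [mulVec, dotProduct, Matrix.map_apply, Matrix.of_apply, Pi.smul_apply, smul_eq_mul,
      map_mul, ← hf]
    have hrepr := congrArg (fun y : K => (y : ℂ)) (b.sum_repr (⟨g x, hgK x⟩ * b i))
    simp only [IntermediateField.coe_sum, IntermediateField.coe_mul, IntermediateField.coe_smul,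
      IntermediateField.smul_def, smul_eq_mul] at hrepr
    rw [mul_assoc, ← hrepr, mul_sum]
    refine sum_congr rfl fun l _ => ?_
    rw [mul_assoc (e _), ← map_mul, mul_prod_erase _ h (mem_univ _)]
    simp only [he]
    ring

end FA.Nesterenko

end
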