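import Fermat.Agent.Nesterenko.Basic
import Fermat.Agent.Nesterenko.Field
import Mathlib.LinearAlgebra.Matrix.Charpoly.Coeff
import Mathlib.LinearAlgebra.Matrix.ToLinearEquiv
import Mathlib.Analysis.SpecialFunctions.Pow.Asymptotics

/-!
# Polynomials in two variables from small values at four algebraic numbers

If `ω` is algebraic over `ℚ (θ)`, a small value `B (ω)` is, up to a power of a denominator, a root
of the characteristic polynomial of a matrix over `ℤ[θ]` whose coefficients have controlled size.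
-/

set_option autoImplicit false

noncomputable section

namespace FA.Nesterenko

open MvPolynomial Finset Matrix Filter
open FA.Roth (len)

variable {σ : Type*} {ν : ℕ}

/-- The entries have total degree at most `d` and length at most `b`. -/
def SmallEntries (M : Matrix (Fin ν) (Fin ν) (MvPolynomial σ ℤ)) (d : ℕ) (b : ℝ) : Prop :=
  ∀ i j, (M i j).totalDegree ≤ d ∧ len (M i j) ≤ b

theorem SmallEntries.mono {M : Matrix (Fin ν) (Fin ν) (MvPolynomial σ ℤ)} {d d' : ℕ} {b b' : ℝ}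
    (h : SmallEntries M d b) (hd : d ≤ d') (hb : b ≤ b') : SmallEntries M d' b' :=
  fun i j => ⟨(h i j).1.trans hd, (h i j).2.trans hb⟩

theorem smallEntries_one : SmallEntries (1 : Matrix (Fin ν) (Fin ν) (MvPolynomial σ ℤ)) 0 1 :=
  fun i j => by
    rcases eq_or_ne i j with rfl | h
    · simp [len_one]
    · simp [Matrix.one_apply_ne h, FA.Roth.len_zero]

theorem SmallEntries.mul {M N : Matrix (Fin ν) (Fin ν) (MvPolynomial σ ℤ)} {d d' : ℕ} {b b' : ℝ}
    (h : SmallEntries M d b) (h' : SmallEntries N d' b') :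
    SmallEntries (M * N) (d + d') ((ν : ℝ) * (b * b')) := fun i j => by
  rw [Matrix.mul_apply]
  refine ⟨totalDegree_finsetSum_le fun k _ => (totalDegree_mul _ _).trans
    (Nat.add_le_add (h i k).1 (h' k j).1), ?_⟩
  refine (FA.Roth.len_sum_le _ _).trans ((sum_le_card_nsmul _ _ _ fun k _ =>
    (FA.Roth.len_mul_le _ _).trans (mul_le_mul (h i k).2 (h' k j).2 (FA.Roth.len_nonneg _)
      ((FA.Roth.len_nonneg _).trans (h i k).2))).trans_eq ?_)
  rw [card_univ, Fintype.card_fin, nsmul_eq_mul]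

theorem SmallEntries.pow {M : Matrix (Fin ν) (Fin ν) (MvPolynomial σ ℤ)} {d : ℕ} {b : ℝ}
    (h : SmallEntries M d b) : ∀ k, SmallEntries (M ^ k) (k * d) (((ν : ℝ) * b) ^ k)
  | 0 => by simpa using smallEntries_one
  | k + 1 => by
    rw [pow_succ, Nat.succ_mul]
    refine ((h.pow k).mul h).mono le_rfl (le_of_eq ?_)
    rw [pow_succ]
    ring

theorem SmallEntries.smul {M : Matrix (Fin ν) (Fin ν) (MvPolynomial σ ℤ)} {d d' : ℕ} {b b' : ℝ}
    (p : MvPolynomial σ ℤ) (hp : p.totalDegree ≤ d') (hp' : len p ≤ b') (h : SmallEntries M d b) :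
    SmallEntries (p • M) (d' + d) (b' * b) := fun i j => by
  rw [Matrix.smul_apply, smul_eq_mul]
  exact ⟨(totalDegree_mul _ _).trans (Nat.add_le_add hp (h i j).1),
    (FA.Roth.len_mul_le _ _).trans (mul_le_mul hp' (h i j).2 (FA.Roth.len_nonneg _)
      ((FA.Roth.len_nonneg _).trans hp'))⟩

theorem smallEntries_sum {ι : Type*} (s : Finset ι)
    (M : ι → Matrix (Fin ν) (Fin ν) (MvPolynomial σ ℤ)) {d : ℕ} {b : ι → ℝ}
    (h : ∀ x ∈ s, SmallEntries (M x) d (b x)) :
    SmallEntries (∑ x ∈ s, M x) d (∑ x ∈ s, b x) := fun i j => by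
  rw [Matrix.sum_apply]
  exact ⟨totalDegree_finsetSum_le fun x hx => (h x hx i j).1,
    (FA.Roth.len_sum_le _ _).trans (sum_le_sum fun x hx => (h x hx i j).2)⟩

/-- At `θ` the matrix multiplies `w` by `s`. -/
def ActsAs (θ : σ → ℂ) (w : Fin ν → ℂ) (M : Matrix (Fin ν) (Fin ν) (MvPolynomial σ ℤ))
    (s : ℂ) : Prop :=
  (aeval θ).toRingHom.mapMatrix M *ᵥ w = s • w

variable {θ : σ → ℂ} {w : Fin ν → ℂ}

theorem actsAs_one : ActsAs θ w 1 1 := by rw [ActsAs, map_one, one_mulVec, one_smul]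

theorem ActsAs.mul {M N : Matrix (Fin ν) (Fin ν) (MvPolynomial σ ℤ)} {s t : ℂ}
    (h : ActsAs θ w M s) (h' : ActsAs θ w N t) : ActsAs θ w (M * N) (s * t) := by
  rw [ActsAs, map_mul, ← mulVec_mulVec, h', mulVec_smul, h, smul_smul, mul_comm t]

theorem ActsAs.pow {M : Matrix (Fin ν) (Fin ν) (MvPolynomial σ ℤ)} {s : ℂ}
    (h : ActsAs θ w M s) : ∀ k, ActsAs θ w (M ^ k) (s ^ k)
  | 0 => by simpa using actsAs_one
  | k + 1 => by rw [pow_succ, pow_succ]; exact (h.pow k).mul h

theorem ActsAs.smul {M : Matrix (Fin ν) (Fin ν) (MvPolynomial σ ℤ)} {s : ℂ}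
    (p : MvPolynomial σ ℤ) (h : ActsAs θ w M s) : ActsAs θ w (p • M) (aeval θ p * s) := by
  have e : (aeval θ).toRingHom.mapMatrix (p • M) =
      aeval θ p • (aeval θ).toRingHom.mapMatrix M := by
    ext i j
    simp
  rw [ActsAs, e, smul_mulVec, h, smul_smul]

theorem actsAs_sum {ι : Type*} (s : Finset ι)
    (M : ι → Matrix (Fin ν) (Fin ν) (MvPolynomial σ ℤ)) (c : ι → ℂ)
    (h : ∀ x ∈ s, ActsAs θ w (M x) (c x)) : ActsAs θ w (∑ x ∈ s, M x) (∑ x ∈ s, c x) := by
  rw [ActsAs, map_sum, sum_mulVec, sum_smul]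
  exact sum_congr rfl h

/-- The coefficients of a product of linear factors. -/
theorem coeff_prod_bound {ι : Type*} (s : Finset ι)
    (P : ι → Polynomial (MvPolynomial σ ℤ)) {d : ℕ} {b : ℝ} (hb : 0 ≤ b)
    (h0 : ∀ i ∈ s, (P i).natDegree ≤ 1)
    (h : ∀ i ∈ s, ∀ k, ((P i).coeff k).totalDegree ≤ d ∧ len ((P i).coeff k) ≤ b) (k : ℕ) :
    ((∏ i ∈ s, P i).coeff k).totalDegree ≤ s.card * d ∧
      len ((∏ i ∈ s, P i).coeff k) ≤ (2 * b) ^ s.card := by
  classical
  induction s using Finset.induction generalizing k with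
  | empty =>
    rw [prod_empty, Polynomial.coeff_one]
    split_ifs <;> simp [len_one, FA.Roth.len_zero]
  | insert a s ha ih =>
    have ih' := fun k => ih (fun i hi => h0 i (mem_insert_of_mem hi))
      (fun i hi => h i (mem_insert_of_mem hi)) k
    have ha' := h a (mem_insert_self a s)
    set Q := ∏ i ∈ s, P i
    rw [prod_insert ha, card_insert_of_notMem ha,
      show P a = Polynomial.C ((P a).coeff 1) * Polynomial.X + Polynomial.C ((P a).coeff 0) from
        Polynomial.eq_X_add_C_of_natDegree_le_one (h0 a (mem_insert_self a s)),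
      add_mul, mul_assoc, Polynomial.coeff_add, Polynomial.coeff_C_mul, Polynomial.coeff_C_mul]
    have hX : ((Polynomial.X * Q).coeff k).totalDegree ≤ s.card * d ∧
        len ((Polynomial.X * Q).coeff k) ≤ (2 * b) ^ s.card := by
      rcases k with _ | k
      · rw [Polynomial.coeff_X_mul_zero]
        simp only [totalDegree_zero, zero_le, FA.Roth.len_zero, true_and]
        positivity
      · rw [Polynomial.coeff_X_mul]
        exact ih' k
    refine ⟨(totalDegree_add _ _).trans (max_le ?_ ?_), ?_⟩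
    · refine (totalDegree_mul _ _).trans ?_
      rw [Nat.succ_mul, Nat.add_comm (s.card * d)]
      exact Nat.add_le_add (ha' 1).1 hX.1
    · refine (totalDegree_mul _ _).trans ?_
      rw [Nat.succ_mul, Nat.add_comm (s.card * d)]
      exact Nat.add_le_add (ha' 0).1 (ih' k).1
    · refine (FA.Roth.len_add_le _ _).trans ?_
      refine (add_le_add
        ((FA.Roth.len_mul_le _ _).trans (mul_le_mul (ha' 1).2 hX.2 (FA.Roth.len_nonneg _) hb))
        ((FA.Roth.len_mul_le _ _).trans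
          (mul_le_mul (ha' 0).2 (ih' k).2 (FA.Roth.len_nonneg _) hb))).trans (le_of_eq ?_)
      ring

/-- The coefficients of the characteristic polynomial. -/
theorem charpoly_coeff_bound {M : Matrix (Fin ν) (Fin ν) (MvPolynomial σ ℤ)} {d : ℕ} {b : ℝ}
    (hb : 1 ≤ b) (hM : SmallEntries M d b) (k : ℕ) :
    (M.charpoly.coeff k).totalDegree ≤ ν * d ∧
      len (M.charpoly.coeff k) ≤ ν.factorial * (2 * b) ^ ν := by
  classical
  have hfac : ∀ i j, (charmatrix M i j).natDegree ≤ 1 ∧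
      ∀ k, ((charmatrix M i j).coeff k).totalDegree ≤ d ∧ len ((charmatrix M i j).coeff k) ≤ b := by
    intro i j
    rcases eq_or_ne i j with rfl | h
    · rw [charmatrix_apply_eq]
      refine ⟨(Polynomial.natDegree_X_sub_C _).le, fun k => ?_⟩
      rw [Polynomial.coeff_sub, Polynomial.coeff_X, Polynomial.coeff_C]
      rcases k with _ | _ | k
      · simpa [FA.Roth.len_neg] using hM i i
      · simp [len_one, hb]
      · simp [FA.Roth.len_zero]
        linarith
    · rw [charmatrix_apply_ne _ _ _ h]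
      refine ⟨by simp, fun k => ?_⟩
      rw [Polynomial.coeff_neg, Polynomial.coeff_C]
      rcases k with _ | k
      · simpa [FA.Roth.len_neg] using hM i j
      · simp [FA.Roth.len_zero]
        linarith
  rw [Matrix.charpoly, det_apply, Polynomial.finsetSum_coeff]
  have hp : ∀ p : Equiv.Perm (Fin ν),
      ((Equiv.Perm.sign p • ∏ i, charmatrix M (p i) i).coeff k).totalDegree ≤ ν * d ∧
        len ((Equiv.Perm.sign p • ∏ i, charmatrix M (p i) i).coeff k) ≤ (2 * b) ^ ν := fun p => by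
    have h := coeff_prod_bound univ (fun i => charmatrix M (p i) i) (show 0 ≤ b by linarith)
      (fun i _ => (hfac _ _).1) (fun i _ k => (hfac _ _).2 k) k
    rw [card_univ, Fintype.card_fin] at h
    rcases Int.units_eq_one_or (Equiv.Perm.sign p) with hs | hs <;> rw [hs]
    · simpa using h
    · simpa [FA.Roth.len_neg] using h
  refine ⟨totalDegree_finsetSum_le fun p _ => (hp p).1, ?_⟩
  refine (FA.Roth.len_sum_le _ _).trans ((sum_le_card_nsmul _ _ _ fun p _ => (hp p).2).trans_eq ?_)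
  rw [card_univ, Fintype.card_perm, Fintype.card_fin, nsmul_eq_mul]

/-- The eigenvalue is a root of the characteristic polynomial. -/
theorem sum_charpoly_eq_zero {M : Matrix (Fin ν) (Fin ν) (MvPolynomial σ ℤ)} {s : ℂ}
    (hw : w ≠ 0) (h : ActsAs θ w M s) :
    ∑ i ∈ range (ν + 1), aeval θ (M.charpoly.coeff i) * s ^ i = 0 := by
  classical
  set Mc := (aeval θ).toRingHom.mapMatrix M
  have hdet : Mc.charpoly.eval s = 0 := by
    rw [Matrix.eval_charpoly]
    refine Matrix.exists_mulVec_eq_zero_iff.1 ⟨w, hw, ?_⟩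
    rw [sub_mulVec, Matrix.scalar_apply, h]
    ext i
    simp
  rw [show Mc = M.map (aeval θ).toRingHom from rfl, Matrix.charpoly_map,
    Polynomial.eval_map, Polynomial.eval₂_eq_sum_range' _ (n := ν + 1)] at hdet
  · exact hdet
  · rw [Matrix.charpoly_natDegree_eq_dim, Fintype.card_fin]
    exact Nat.lt_succ_self ν

/-- **The families of coefficients.** -/
theorem exists_families {θ : σ → ℂ} {ω : Fin 4 → ℂ}
    (halg : ∀ i, IsIntegral (IntermediateField.adjoin ℚ (Set.range θ)) (ω i))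
    (h : ∀ ε : ℝ, 0 < ε → ε ≤ 1 → ∀ᶠ N : ℕ in atTop, ∃ B : MvPolynomial (Fin 4) ℤ,
      (B.totalDegree : ℝ) ≤ (N : ℝ) ^ (1 + ε) ∧ Real.log (len B) ≤ (N : ℝ) ^ (1 + ε) ∧
      Real.exp (-(N : ℝ) ^ (4 + ε)) ≤ ‖aeval ω B‖ ∧
      ‖aeval ω B‖ ≤ Real.exp (-(N : ℝ) ^ (4 - ε))) :
    ∃ ν : ℕ, ∀ ε : ℝ, 0 < ε → ε ≤ 1 → ∀ᶠ N : ℕ in atTop,
      ∃ (e : ℕ → MvPolynomial σ ℤ) (lam : ℂ), e ν = 1 ∧
        (∀ i, ((e i).totalDegree : ℝ) ≤ (N : ℝ) ^ (1 + ε) ∧
          len (e i) ≤ Real.exp ((N : ℝ) ^ (1 + ε))) ∧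
        ∑ i ∈ range (ν + 1), aeval θ (e i) * lam ^ i = 0 ∧
        Real.exp (-(N : ℝ) ^ (4 + ε)) ≤ ‖lam‖ ∧ ‖lam‖ ≤ Real.exp (-(N : ℝ) ^ (4 - ε)) := by
  obtain ⟨ν, w, den, M, hw, hden, hact⟩ := exists_matrices ω halg
  refine ⟨ν, fun ε hε hε1 => ?_⟩
  set d₀ := den.totalDegree + ∑ x, ∑ i, ∑ j, (M x i j).totalDegree with hd₀
  set b₀ : ℝ := 1 + len den + ∑ x, ∑ i, ∑ j, len (M x i j) with hb₀
  have hb₀1 : 1 ≤ b₀ := by
    have h1 : 0 ≤ ∑ x, ∑ i, ∑ j, len (M x i j) :=
      sum_nonneg fun _ _ => sum_nonneg fun _ _ => sum_nonneg fun _ _ => FA.Roth.len_nonneg _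
    linarith [FA.Roth.len_nonneg den]
  have hM : ∀ x, SmallEntries (M x) d₀ b₀ := fun x i j => by
    constructor
    · refine le_trans ?_ (Nat.le_add_left _ _)
      exact ((single_le_sum (f := fun j => (M x i j).totalDegree) (fun _ _ => Nat.zero_le _)
        (mem_univ j)).trans (single_le_sum (f := fun i => ∑ j, (M x i j).totalDegree)
        (fun _ _ => Nat.zero_le _) (mem_univ i))).trans
        (single_le_sum (f := fun x => ∑ i, ∑ j, (M x i j).totalDegree)
        (fun _ _ => Nat.zero_le _) (mem_univ x))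
    · have h1 := ((single_le_sum (f := fun j => len (M x i j)) (fun _ _ => FA.Roth.len_nonneg _)
        (mem_univ j)).trans (single_le_sum (f := fun i => ∑ j, len (M x i j))
        (fun _ _ => sum_nonneg fun _ _ => FA.Roth.len_nonneg _) (mem_univ i))).trans
        (single_le_sum (f := fun x => ∑ i, ∑ j, len (M x i j))
        (fun _ _ => sum_nonneg fun _ _ => sum_nonneg fun _ _ => FA.Roth.len_nonneg _) (mem_univ x))
      linarith [FA.Roth.len_nonneg den]
  have hν : 1 ≤ ν := by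
    rcases Nat.eq_zero_or_pos ν with h0 | h0
    · subst h0
      exact absurd (funext fun i => i.elim0) hw
    · exact h0
  have hνR : (1 : ℝ) ≤ ν := Nat.one_le_cast.2 hν
  set c := (ν : ℝ) * (Real.log (ν * b₀) + Real.log ν * 3 + Real.log 2 + 1) +
    Real.log ν.factorial + |Real.log ‖aeval θ den‖| + ν * d₀ + 2 with hc
  have hcpieces : 0 ≤ Real.log (ν * b₀) ∧ 0 ≤ Real.log ν ∧ 0 ≤ Real.log ν.factorial :=
    ⟨Real.log_nonneg (one_le_mul_of_one_le_of_one_le hνR hb₀1), Real.log_nonneg hνR,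
      Real.log_nonneg (Nat.one_le_cast.2 ν.factorial_pos)⟩
  filter_upwards [h (ε / 2) (by positivity) (by linarith),
    ((tendsto_rpow_atTop (show 0 < ε / 2 by linarith)).comp
      tendsto_natCast_atTop_atTop).eventually_ge_atTop (c + 2), eventually_ge_atTop 1]
    with N hB hp hN1
  simp only [Function.comp_apply] at hp
  obtain ⟨B, hdeg, hlen, hlo, hhi⟩ := hB
  have hNR : (1 : ℝ) ≤ N := Nat.one_le_cast.2 hN1
  set D := B.totalDegree with hD
  set Mt := ∑ s ∈ B.support, (C (coeff s B) * den ^ (D - ∑ i, s i)) •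
    (M 0 ^ s 0 * M 1 ^ s 1 * M 2 ^ s 2 * M 3 ^ s 3) with hMt
  have hsle : ∀ s ∈ B.support, ∑ i, s i ≤ D := fun s hs => by
    refine le_trans (le_of_eq ?_) (le_totalDegree hs)
    exact ((sum_subset (subset_univ _) fun i _ hi => by simpa using hi).symm)
  have hB0 : B ≠ 0 := fun e => by
    rw [e, map_zero, norm_zero] at hlo
    exact absurd hlo (not_le.2 (Real.exp_pos _))
  have hlenB := FA.Roth.one_le_len hB0
  set b := len B * ((ν : ℝ) ^ 3 * ((ν : ℝ) * b₀) ^ D) with hb
  have hb1 : 1 ≤ b :=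
    one_le_mul_of_one_le_of_one_le hlenB (one_le_mul_of_one_le_of_one_le (one_le_pow₀ hνR)
      (one_le_pow₀ (one_le_mul_of_one_le_of_one_le hνR hb₀1)))
  have hsmall : SmallEntries Mt (D * d₀) b := by
    rw [hMt, hb, FA.Roth.len, sum_mul]
    refine smallEntries_sum _ _ fun s hs => ?_
    have h1 := (((((hM 0).pow (s 0)).mul ((hM 1).pow (s 1))).mul ((hM 2).pow (s 2))).mul
      ((hM 3).pow (s 3)))
    have hS := hsle s hs
    rw [Fin.sum_univ_four] at hS ⊢
    refine (h1.smul _ (d' := (D - (s 0 + s 1 + s 2 + s 3)) * d₀)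
      (b' := |((coeff s B : ℤ) : ℝ)| * ((ν : ℝ) * b₀) ^ (D - (s 0 + s 1 + s 2 + s 3))) ?_ ?_).mono
      (le_of_eq ?_) (le_of_eq ?_)
    · refine (totalDegree_mul _ _).trans ?_
      rw [totalDegree_C, zero_add]
      exact (totalDegree_pow _ _).trans (Nat.mul_le_mul_left _ (Nat.le_add_right _ _))
    · refine (len_C_mul_le _ _).trans (mul_le_mul_of_nonneg_left ((len_pow_le _ _).trans
        (pow_le_pow_left₀ (FA.Roth.len_nonneg _) ?_ _)) (abs_nonneg _))
      have h2 : len den ≤ b₀ := by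
        have : 0 ≤ ∑ x, ∑ i, ∑ j, len (M x i j) :=
          sum_nonneg fun _ _ => sum_nonneg fun _ _ => sum_nonneg fun _ _ => FA.Roth.len_nonneg _
        linarith
      exact h2.trans (le_mul_of_one_le_left (by linarith) hνR)
    · rw [← Nat.add_mul, ← Nat.add_mul, ← Nat.add_mul, ← Nat.add_mul, Nat.sub_add_cancel hS]
    · rw [← pow_mul_pow_sub ((ν : ℝ) * b₀) hS]
      ring
  have hacts : ActsAs θ w Mt (aeval θ den ^ D * aeval ω B) := by
    have e : aeval θ den ^ D * aeval ω B = ∑ s ∈ B.support,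
        aeval θ (C (coeff s B) * den ^ (D - ∑ i, s i)) *
          ((aeval θ den * ω 0) ^ s 0 * (aeval θ den * ω 1) ^ s 1 * (aeval θ den * ω 2) ^ s 2 *
            (aeval θ den * ω 3) ^ s 3) := by
      have e4 : aeval ω B = ∑ s ∈ B.support, (algebraMap ℤ ℂ) (coeff s B) * ∏ i, ω i ^ s i := by
        rw [aeval_def, eval₂_eq']
      rw [e4, mul_sum]
      refine sum_congr rfl fun s hs => ?_
      rw [map_mul, map_pow, aeval_C, Fin.prod_univ_four, ← Nat.add_sub_cancel' (hsle s hs),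
        pow_add, Nat.add_sub_cancel_left, Fin.sum_univ_four, pow_add, pow_add, pow_add]
      ring
    rw [e]
    exact actsAs_sum _ _ _ fun s _ =>
      ((((show ActsAs θ w (M 0) _ from hact 0).pow (s 0)).mul
        ((show ActsAs θ w (M 1) _ from hact 1).pow (s 1))).mul
        ((show ActsAs θ w (M 2) _ from hact 2).pow (s 2))).mul
        ((show ActsAs θ w (M 3) _ from hact 3).pow (s 3)) |>.smul _
  refine ⟨fun i => Mt.charpoly.coeff i, _, ?_, fun i => ?_, sum_charpoly_eq_zero hw hacts, ?_⟩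
  · have h1 := (Matrix.charpoly_monic Mt).coeff_natDegree
    rwa [Matrix.charpoly_natDegree_eq_dim, Fintype.card_fin] at h1
  · obtain ⟨h1, h2⟩ := charpoly_coeff_bound hb1 hsmall i
    set Q := (N : ℝ) ^ (1 + ε / 2) with hQ
    have hQ1 : 1 ≤ Q := Real.one_le_rpow hNR (by linarith)
    have hQε : c * Q ≤ (N : ℝ) ^ (1 + ε) := by
      rw [show 1 + ε = (1 + ε / 2) + ε / 2 by ring, Real.rpow_add (by linarith), mul_comm c]
      exact mul_le_mul_of_nonneg_left (by linarith) (by linarith)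
    obtain ⟨hc1, hc2, hc3⟩ := hcpieces
    have hl2 : (0 : ℝ) ≤ Real.log 2 := Real.log_nonneg one_le_two
    have hνd : (0 : ℝ) ≤ (ν : ℝ) * d₀ := by positivity
    have hmain : (0 : ℝ) ≤ (ν : ℝ) * (Real.log (ν * b₀) + Real.log ν * 3 + Real.log 2 + 1) := by
      positivity
    constructor
    · refine le_trans (Nat.cast_le.2 h1) ?_
      refine le_trans ?_ hQε
      push_cast
      calc (ν : ℝ) * ((D : ℝ) * d₀) = ν * d₀ * D := by ring
        _ ≤ c * Q := mul_le_mul (by linarith [abs_nonneg (Real.log ‖aeval θ den‖)]) hdeg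
            (Nat.cast_nonneg _) (by linarith [abs_nonneg (Real.log ‖aeval θ den‖)])
    · refine h2.trans ?_
      rw [← Real.exp_log (show 0 < (ν.factorial : ℝ) * (2 * b) ^ ν by positivity),
        Real.exp_le_exp]
      refine le_trans ?_ hQε
      rw [Real.log_mul (by positivity) (by positivity), Real.log_pow,
        Real.log_mul two_ne_zero (by positivity), hb, Real.log_mul (by positivity) (by positivity),
        Real.log_mul (by positivity) (by positivity), Real.log_pow, Real.log_pow]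
      push_cast
      have h3 : (ν : ℝ) * ((D : ℝ) * Real.log (ν * b₀)) ≤ ν * (Q * Real.log (ν * b₀)) :=
        mul_le_mul_of_nonneg_left (mul_le_mul_of_nonneg_right hdeg hc1) (by linarith)
      have h4 : (ν : ℝ) * Real.log (len B) ≤ ν * Q := mul_le_mul_of_nonneg_left hlen (by linarith)
      have h5 : (ν : ℝ) * (Real.log 2 + 3 * Real.log ν) ≤
          ν * (Real.log 2 + 3 * Real.log ν) * Q := le_mul_of_one_le_right (by positivity) hQ1
      have h6 : Real.log ν.factorial ≤ Real.log ν.factorial * Q := le_mul_of_one_le_right hc3 hQ1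
      nlinarith [abs_nonneg (Real.log ‖aeval θ den‖)]
  · have hden0 : 0 < ‖aeval θ den‖ := norm_pos_iff.2 hden
    have hcD : |(D : ℝ) * Real.log ‖aeval θ den‖| ≤ (N : ℝ) ^ (1 + ε) := by
      rw [abs_mul, Nat.abs_cast, show 1 + ε = (1 + ε / 2) + ε / 2 by ring,
        Real.rpow_add (by linarith) (1 + ε / 2)]
      refine mul_le_mul hdeg ?_ (abs_nonneg _) (by positivity)
      obtain ⟨hc1, hc2, hc3⟩ := hcpieces
      have : (0 : ℝ) ≤ (ν : ℝ) * d₀ := by positivity
      have : (0 : ℝ) ≤ Real.log 2 := Real.log_nonneg one_le_two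
      have : (0 : ℝ) ≤ (ν : ℝ) * (Real.log (ν * b₀) + Real.log ν * 3 + Real.log 2 + 1) := by
        positivity
      linarith
    rw [norm_mul, norm_pow, ← Real.exp_log hden0, ← Real.exp_nat_mul]
    have hsum : 2 ≤ (N : ℝ) ^ (ε / 2) := by
      linarith [show 0 ≤ c by
        obtain ⟨hc1, hc2, hc3⟩ := hcpieces
        have : (0 : ℝ) ≤ Real.log 2 := Real.log_nonneg one_le_two
        positivity]
    have hmono : (N : ℝ) ^ (1 + ε) ≤ (N : ℝ) ^ (4 - ε) :=
      Real.rpow_le_rpow_of_exponent_le hNR (by linarith)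
    have hmono' : (N : ℝ) ^ (1 + ε) ≤ (N : ℝ) ^ (4 + ε / 2) :=
      Real.rpow_le_rpow_of_exponent_le hNR (by linarith)
    have htwo : ∀ x : ℝ, 2 * (N : ℝ) ^ x ≤ (N : ℝ) ^ (x + ε / 2) := fun x => by
      rw [Real.rpow_add (by linarith), mul_comm]
      exact mul_le_mul_of_nonneg_left hsum (by positivity)
    have hU := htwo (4 + ε / 2)
    have hL := htwo (4 - ε)
    rw [show 4 + ε / 2 + ε / 2 = 4 + ε by ring] at hU
    rw [show 4 - ε + ε / 2 = 4 - ε / 2 by ring] at hL
    constructor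
    · refine le_trans ?_ (mul_le_mul_of_nonneg_left hlo (Real.exp_pos _).le)
      rw [← Real.exp_add, Real.exp_le_exp]
      linarith [(abs_le.1 hcD).1]
    · refine (mul_le_mul_of_nonneg_left hhi (Real.exp_pos _).le).trans ?_
      rw [← Real.exp_add, Real.exp_le_exp]
      linarith [(abs_le.1 hcD).2]

end FA.Nesterenko

end
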