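import Fermat.Agent.Nesterenko.Divisor
import Mathlib.Analysis.SpecialFunctions.Pow.Asymptotics

/-!
# Two small polynomials without a common factor

From families of polynomials with a small root at an algebraically independent pair `θ`: an
irreducible `f` and a `g` it does not divide, both small at `θ`, and families of every scale.
-/

set_option autoImplicit false

noncomputable section

namespace FA.Nesterenko

open MvPolynomial Finset Filter
open FA.Roth (len)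

/-- Families with a small root at `θ`, of the shape given by `exists_families`. -/
def HasFamilies (θ : Fin 2 → ℂ) (ν : ℕ) : Prop :=
  ∀ ε : ℝ, 0 < ε → ε ≤ 1 → ∀ᶠ N : ℕ in atTop,
    ∃ (e : ℕ → MvPolynomial (Fin 2) ℤ) (lam : ℂ), e ν = 1 ∧
      (∀ i, ((e i).totalDegree : ℝ) ≤ (N : ℝ) ^ (1 + ε) ∧
        len (e i) ≤ Real.exp ((N : ℝ) ^ (1 + ε))) ∧
      ∑ i ∈ range (ν + 1), aeval θ (e i) * lam ^ i = 0 ∧
      Real.exp (-(N : ℝ) ^ (4 + ε)) ≤ ‖lam‖ ∧ ‖lam‖ ≤ Real.exp (-(N : ℝ) ^ (4 - ε))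

/-- A smaller power wins. -/
theorem eventually_mul_rpow_le {a b : ℝ} (h : a < b) (C : ℝ) :
    ∀ᶠ x : ℝ in atTop, C * x ^ a ≤ x ^ b := by
  filter_upwards [(tendsto_rpow_atTop (sub_pos.2 h)).eventually_ge_atTop C,
    eventually_gt_atTop 0] with x hx hx0
  calc C * x ^ a ≤ x ^ (b - a) * x ^ a :=
        mul_le_mul_of_nonneg_right hx (Real.rpow_nonneg hx0.le _)
    _ = x ^ b := by rw [← Real.rpow_add hx0, sub_add_cancel]

/-- The first coefficient that is not small is small when the root is. -/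
theorem norm_coeff_le_exp {ν r : ℕ} (hr : r ≤ ν) (c : ℕ → ℂ) {lam : ℂ} {a b e d T : ℝ}
    (hlo : Real.exp (-a) ≤ ‖lam‖) (hhi : ‖lam‖ ≤ Real.exp (-b)) (hb : 0 ≤ b)
    (hE : ∀ i ≤ ν, ‖c i‖ ≤ Real.exp e) (hδ : ∀ i < r, ‖c i‖ ≤ Real.exp (-d))
    (hρ : ‖∑ i ∈ range (ν + 1), c i * lam ^ i‖ ≤ Real.exp (-d))
    (h1 : T + (2 * ν + 3) ≤ b - e) (h2 : T + (2 * ν + 3) ≤ d - ν * a) :
    ‖c r‖ ≤ Real.exp (-T) := by
  classical
  set η := Real.exp (-(T + (2 * ν + 3))) with hη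
  have hl1 : ‖lam‖ ≤ 1 := hhi.trans (Real.exp_le_one_iff.2 (neg_nonpos.2 hb))
  have hlν : Real.exp (-(ν * a)) ≤ ‖lam‖ ^ ν := by
    rw [← mul_neg, Real.exp_nat_mul]
    exact pow_le_pow_left₀ (Real.exp_pos _).le hlo ν
  have hl0 : 0 < ‖lam‖ := (Real.exp_pos _).trans_le hlo
  have hνr : ‖lam‖ ^ ν ≤ ‖lam‖ ^ r := pow_le_pow_of_le_one hl0.le hl1 hr
  have hsmall : Real.exp (-d) ≤ η * ‖lam‖ ^ r := by
    refine le_trans ?_ (mul_le_mul_of_nonneg_left (hlν.trans hνr) (Real.exp_pos _).le)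
    rw [hη, ← Real.exp_add, Real.exp_le_exp]
    linarith
  have hbig : Real.exp e * ‖lam‖ ≤ η := by
    refine (mul_le_mul_of_nonneg_left hhi (Real.exp_pos _).le).trans ?_
    rw [hη, ← Real.exp_add, Real.exp_le_exp]
    linarith
  have hterm : ∀ i ∈ (range (ν + 1)).erase r, ‖c i * lam ^ i‖ ≤ η * ‖lam‖ ^ r := by
    intro i hi
    rw [mem_erase, mem_range, Nat.lt_succ_iff] at hi
    rw [norm_mul, norm_pow]
    rcases lt_or_gt_of_ne hi.1 with h | h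
    · exact ((mul_le_of_le_one_right (norm_nonneg _) (pow_le_one₀ hl0.le hl1)).trans
        (hδ i h)).trans hsmall
    · calc ‖c i‖ * ‖lam‖ ^ i ≤ Real.exp e * (‖lam‖ * ‖lam‖ ^ r) := by
            rw [← pow_succ']
            exact mul_le_mul (hE i hi.2) (pow_le_pow_of_le_one hl0.le hl1 (by omega))
              (by positivity) (Real.exp_pos _).le
        _ = Real.exp e * ‖lam‖ * ‖lam‖ ^ r := by ring
        _ ≤ η * ‖lam‖ ^ r := mul_le_mul_of_nonneg_right hbig (by positivity)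
  have hmain : ‖c r‖ * ‖lam‖ ^ r ≤ ((ν : ℝ) + 1) * (η * ‖lam‖ ^ r) + η * ‖lam‖ ^ r := by
    have e1 := add_sum_erase (range (ν + 1)) (fun i => c i * lam ^ i)
      (mem_range.2 (Nat.lt_succ_of_le hr))
    rw [← norm_pow, ← norm_mul, eq_sub_of_add_eq e1, norm_pow, add_comm (((ν : ℝ) + 1) * _)]
    refine (norm_sub_le _ _).trans (add_le_add (hρ.trans hsmall) ?_)
    refine (norm_sum_le _ _).trans ((sum_le_card_nsmul _ _ _ hterm).trans ?_)
    rw [nsmul_eq_mul]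
    refine mul_le_mul_of_nonneg_right ?_ (by positivity)
    exact_mod_cast (card_erase_le).trans_eq (card_range _)
  have hcr : ‖c r‖ ≤ ((ν : ℝ) + 2) * η := by
    refine le_of_mul_le_mul_right (hmain.trans (le_of_eq ?_)) (pow_pos hl0 r)
    ring
  refine hcr.trans ?_
  have h3 : (ν : ℝ) + 2 ≤ Real.exp (2 * ν + 3) := by
    linarith [Real.add_one_le_exp (2 * (ν : ℝ) + 3), Nat.cast_nonneg (α := ℝ) ν]
  refine (mul_le_mul_of_nonneg_right h3 (Real.exp_pos _).le).trans (le_of_eq ?_)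
  rw [← Real.exp_add]
  ring_nf

theorem norm_aeval_le_exp {P : MvPolynomial (Fin 2) ℤ} {v : Fin 2 → ℂ} {M l d : ℝ} (hM : 1 ≤ M)
    (hv : ∀ i, ‖v i‖ ≤ M) (hd : (P.totalDegree : ℝ) ≤ d) (hl : len P ≤ Real.exp l) :
    ‖aeval v P‖ ≤ Real.exp (l + d * Real.log M) := by
  refine (norm_aeval_le le_rfl hM hv).trans ?_
  rw [Real.exp_add]
  refine mul_le_mul hl ?_ (by positivity) (Real.exp_pos _).le
  rw [mul_comm d, ← Real.rpow_def_of_pos (by linarith : (0 : ℝ) < M), ← Real.rpow_natCast]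
  exact Real.rpow_le_rpow_of_exponent_le hM hd

theorem len_le_exp_of_dvd {n g : MvPolynomial (Fin 2) ℤ} (hn : n ≠ 0) (hg : g ∣ n) {P ε : ℝ}
    (hε : 0 < ε) (hε1 : ε ≤ 1) (hP : 1 ≤ P) (hd : (n.totalDegree : ℝ) ≤ P)
    (hl : len n ≤ Real.exp P) : len g ≤ Real.exp ((1 + 32 / ε) * P ^ (1 + ε)) := by
  set t := n.totalDegree
  refine (len_le_of_dvd hn hg le_rfl).trans ?_
  have h2 : (0 : ℝ) < ((2 * t + 2 : ℕ) : ℝ) := by positivity
  refine (mul_le_mul_of_nonneg_right hl (by positivity)).trans ?_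
  rw [← Real.exp_log (pow_pos h2 (4 * t + 4)), ← Real.exp_add, Real.exp_le_exp, Real.log_pow]
  push_cast at h2 ⊢
  have hlog : Real.log (2 * (t : ℝ) + 2) ≤ 4 / ε * P ^ ε := by
    refine (Real.log_le_rpow_div h2.le hε).trans ?_
    rw [div_mul_eq_mul_div]
    refine div_le_div_of_nonneg_right ?_ hε.le
    refine (Real.rpow_le_rpow h2.le (by linarith : 2 * (t : ℝ) + 2 ≤ 4 * P) hε.le).trans ?_
    rw [Real.mul_rpow (by norm_num) (by linarith)]
    refine mul_le_mul_of_nonneg_right ?_ (by positivity)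
    exact (Real.rpow_le_rpow_of_exponent_le (by norm_num) hε1).trans_eq (Real.rpow_one _)
  have h4 : (4 * (t : ℝ) + 4) * Real.log (2 * (t : ℝ) + 2) ≤ 8 * P * (4 / ε * P ^ ε) :=
    mul_le_mul (by linarith) hlog (Real.log_nonneg (by linarith [Nat.cast_nonneg (α := ℝ) t]))
      (by linarith)
  have h5 : P ≤ P ^ (1 + ε) := Real.self_le_rpow_of_one_le hP (by linarith)
  have h6 : P ^ (1 + ε) = P * P ^ ε := by rw [Real.rpow_add (by linarith), Real.rpow_one]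
  rw [h6] at h5 ⊢
  refine (add_le_add h5 h4).trans (le_of_eq ?_)
  field_simp
  ring

variable {θ : Fin 2 → ℂ} {ν : ℕ}

theorem exists_first {α : Type*} (e : ℕ → α) (Q : α → Prop) (hν : Q (e ν)) :
    ∃ r ≤ ν, Q (e r) ∧ ∀ i < r, ¬Q (e i) := by
  classical
  have h : ∃ i, Q (e i) := ⟨ν, hν⟩
  exact ⟨Nat.find h, Nat.find_le hν, Nat.find_spec h, fun i hi => Nat.find_min h hi⟩

/-- **A pair.** -/
theorem eventually_exists_pair (hF : HasFamilies θ ν) :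
    ∀ᶠ N : ℕ in atTop, ∃ f g : MvPolynomial (Fin 2) ℤ, Irreducible f ∧ 0 < f.totalDegree ∧
      ¬f ∣ g ∧
      (f.totalDegree : ℝ) ≤ (N : ℝ) ^ (51 / 50 : ℝ) ∧
      len f ≤ Real.exp ((N : ℝ) ^ (51 / 50 : ℝ)) ∧
      (g.totalDegree : ℝ) ≤ (N : ℝ) ^ (103 / 150 : ℝ) ∧
      len g ≤ Real.exp ((N : ℝ) ^ (103 / 150 : ℝ)) ∧
      ‖aeval θ f‖ ≤ Real.exp (-(N : ℝ) ^ (197 / 75 : ℝ)) ∧
      ‖aeval θ g‖ ≤ Real.exp (-(N : ℝ) ^ (197 / 75 : ℝ)) := by
  obtain ⟨ε, hεdef⟩ : ∃ ε : ℝ, ε = 1 / 200 := ⟨_, rfl⟩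
  have hε0 : 0 < ε := by norm_num [hεdef]
  have hε1 : ε ≤ 1 := by norm_num [hεdef]
  set M := 1 + ‖θ 0‖ + ‖θ 1‖
  have hM1 : 1 ≤ M := by linarith [norm_nonneg (θ 0), norm_nonneg (θ 1)]
  have hMv : ∀ i, ‖θ i‖ ≤ M := fun i => by
    fin_cases i <;> simp only [M, Fin.zero_eta, Fin.mk_one] <;>
      linarith [norm_nonneg (θ 0), norm_nonneg (θ 1)]
  set m := Real.log M with hm
  have hm0 : 0 ≤ m := Real.log_nonneg hM1
  obtain ⟨cν, hcν'⟩ : ∃ cν : ℝ, cν = 2 * ν + 3 := ⟨_, rfl⟩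
  have hcν : 0 ≤ cν := by rw [hcν']; positivity
  have hνR : (0 : ℝ) ≤ ν := Nat.cast_nonneg _
  have hK : Tendsto (fun N : ℕ => ⌊(N : ℝ) ^ (2 / 3 : ℝ)⌋₊) atTop atTop :=
    tendsto_nat_floor_atTop.comp
      ((tendsto_rpow_atTop (by norm_num)).comp tendsto_natCast_atTop_atTop)
  have ev : ∀ {a b : ℝ}, a < b → ∀ C : ℝ,
      ∀ᶠ N : ℕ in atTop, C * (N : ℝ) ^ a ≤ (N : ℝ) ^ b := fun h C =>
    tendsto_natCast_atTop_atTop.eventually (eventually_mul_rpow_le h C)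
  filter_upwards [hF ε hε0 hε1, hK.eventually (hF ε hε0 hε1),
    ev (show (1 + ε : ℝ) < 4 - ε by norm_num [hεdef]) (2 * (cν + 1 + m)),
    ev (show (4 - 2 * ε : ℝ) < 4 - ε by norm_num [hεdef]) 2,
    ev (show (4 - 3 * ε : ℝ) < 4 - 2 * ε by norm_num [hεdef]) 2,
    ev (show ((1 + ε) * (1 + ε) : ℝ) < 51 / 50 by norm_num [hεdef]) (1 + 32 / ε),
    ev (show (2 / 3 * (1 + ε) * (1 + ε) : ℝ) < 103 / 150 by norm_num [hεdef]) (1 + 32 / ε),
    ev (show (103 / 150 : ℝ) < 3 - 4 * ε by norm_num [hεdef]) (4 * (cν + 1 + m)),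
    ev (show (197 / 75 : ℝ) < 3 - 4 * ε by norm_num [hεdef]) 4,
    ev (show (2 / 3 * (4 + ε) : ℝ) < 3 - 4 * ε by norm_num [hεdef]) (4 * ν),
    ev (show (197 / 75 : ℝ) < 2 / 3 * (4 - ε) by norm_num [hεdef]) 32,
    ev (show (103 / 150 : ℝ) < 197 / 75 by norm_num) (cν + 1 + m),
    (tendsto_rpow_atTop (show (0 : ℝ) < 2 / 3 by norm_num)).comp tendsto_natCast_atTop_atTop
      |>.eventually_ge_atTop 4,
    eventually_ge_atTop 2] with N hN hK' hT hT2 hS hdf hdg hg1 hg2 hg3 hg4 hg5 h23 hN2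
  simp only [Function.comp_apply] at h23
  obtain ⟨e, lam, heν, hsz, hsum, hlo, hhi⟩ := hN
  obtain ⟨e', lam', heν', hsz', hsum', hlo', hhi'⟩ := hK'
  set x := (N : ℝ) with hx
  have hx2 : (2 : ℝ) ≤ x := Nat.ofNat_le_cast.2 hN2
  have hx1 : (1 : ℝ) ≤ x := by linarith
  have hx0 : (0 : ℝ) ≤ x := by linarith
  have mono : ∀ {a b : ℝ}, a ≤ b → x ^ a ≤ x ^ b := fun h =>
    Real.rpow_le_rpow_of_exponent_le hx1 h
  set P := x ^ (1 + ε)
  have hP1 : 1 ≤ P := Real.one_le_rpow hx1 (by linarith)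
  -- the small irreducible polynomial
  obtain ⟨r, hr, hr0, hrlt⟩ := exists_first (ν := ν) e (· ≠ 0) (by rw [heν]; exact one_ne_zero)
  have hn : ‖aeval θ (e r)‖ ≤ Real.exp (-x ^ (4 - 2 * ε)) := by
    refine norm_coeff_le_exp hr (fun i => aeval θ (e i)) (e := P + P * m)
      (d := x ^ (4 - 2 * ε) + cν + ν * x ^ (4 + ε)) hlo hhi (Real.rpow_nonneg hx0 _)
      (fun i _ => norm_aeval_le_exp hM1 hMv (hsz i).1 (hsz i).2) (fun i hi => ?_) ?_ ?_
      (le_of_eq (by rw [hcν']; ring))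
    · rw [not_not.1 (hrlt i hi), map_zero, norm_zero]
      exact (Real.exp_pos _).le
    · rw [hsum, norm_zero]
      exact (Real.exp_pos _).le
    · rw [← hcν']
      have := le_mul_of_one_le_right hcν hP1
      linarith [mul_comm P m]
  have hS' : x ^ (3 - 4 * ε) * P = x ^ (4 - 3 * ε) := by
    rw [← Real.rpow_add (by linarith)]
    ring_nf
  have hlt : x ^ (4 - 3 * ε) < x ^ (4 - 2 * ε) := by
    have : (0 : ℝ) < x ^ (4 - 3 * ε) := Real.rpow_pos_of_pos (by linarith) _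
    linarith
  obtain ⟨f, hfirr, hfd, hfdvd, hfθ⟩ := exists_small_factor hr0 θ
    (S := x ^ (3 - 4 * ε)) (Real.rpow_nonneg hx0 _) (hsz r).1
    (hn.trans_lt (Real.exp_lt_exp.2 (by rw [hS']; linarith)))
  have hfdeg : (f.totalDegree : ℝ) ≤ P := by
    refine le_trans (Nat.cast_le.2 ?_) (hsz r).1
    obtain ⟨q, hq⟩ := hfdvd
    rw [hq]
    rw [hq] at hr0
    exact (Nat.le.intro
      (totalDegree_mul_of_isDomain (left_ne_zero_of_mul hr0) (right_ne_zero_of_mul hr0)).symm)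
  have hflen := len_le_exp_of_dvd hr0 hfdvd hε0 hε1 hP1 (hsz r).1 (hsz r).2
  rw [← Real.rpow_mul hx0] at hflen
  -- the second polynomial
  set K := ⌊x ^ (2 / 3 : ℝ)⌋₊
  have hKle : (K : ℝ) ≤ x ^ (2 / 3 : ℝ) := Nat.floor_le (Real.rpow_nonneg hx0 _)
  have hKge : x ^ (2 / 3 : ℝ) / 2 ≤ K := by linarith [Nat.sub_one_lt_floor (x ^ (2 / 3 : ℝ))]
  have hK0 : (0 : ℝ) ≤ K := Nat.cast_nonneg _
  set Q := x ^ (2 / 3 * (1 + ε)) with hQ
  have hQ1 : 1 ≤ Q := Real.one_le_rpow hx1 (by positivity)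
  have hKQ : (K : ℝ) ^ (1 + ε) ≤ Q := by
    rw [hQ, Real.rpow_mul hx0]
    exact Real.rpow_le_rpow hK0 hKle (by linarith)
  have hQG : Q ≤ x ^ (103 / 150 : ℝ) := mono (by norm_num [hεdef])
  set G := x ^ (103 / 150 : ℝ)
  have hG1 : 1 ≤ G := hQ1.trans hQG
  obtain ⟨j, hj, hj0, hjlt⟩ := exists_first (ν := ν) e' (fun q => ¬f ∣ q)
    (by rw [heν']; exact fun h => hfirr.not_isUnit (isUnit_of_dvd_one h))
  have hlenQ : ∀ i, len (e' i) ≤ Real.exp Q := fun i =>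
    (hsz' i).2.trans (Real.exp_le_exp.2 hKQ)
  refine ⟨f, e' j, hfirr, hfd, hj0, hfdeg.trans (mono (by norm_num [hεdef])),
    hflen.trans (Real.exp_le_exp.2 hdf), ((hsz' j).1.trans hKQ).trans hQG,
    (hlenQ j).trans (Real.exp_le_exp.2 hQG),
    hfθ.trans (Real.exp_le_exp.2 (neg_le_neg (mono (by norm_num [hεdef])))), ?_⟩
  refine norm_coeff_le_exp hj (fun i => aeval θ (e' i)) (e := G + G * m)
    (d := x ^ (3 - 4 * ε) - (G + G * m)) hlo' hhi' (Real.rpow_nonneg hK0 _)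
    (fun i _ => norm_aeval_le_exp hM1 hMv (((hsz' i).1.trans hKQ).trans hQG)
      ((hlenQ i).trans (Real.exp_le_exp.2 hQG))) (fun i hi => ?_) ?_ ?_ ?_
  · obtain ⟨q, hq⟩ := not_not.1 (hjlt i hi)
    rcases eq_or_ne (e' i) 0 with h0 | h0
    · rw [h0, map_zero, norm_zero]
      exact (Real.exp_pos _).le
    rw [hq] at h0
    have hql := len_le_exp_of_dvd (g := q) (hq ▸ h0 : e' i ≠ 0) ⟨f, by rw [hq, mul_comm]⟩ hε0 hε1
      hQ1 ((hsz' i).1.trans hKQ) (hlenQ i)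
    rw [← Real.rpow_mul hx0] at hql
    have hqd : (q.totalDegree : ℝ) ≤ G := by
      refine le_trans (Nat.cast_le.2 ?_) (((hsz' i).1.trans hKQ).trans hQG)
      rw [hq, totalDegree_mul_of_isDomain (left_ne_zero_of_mul h0) (right_ne_zero_of_mul h0)]
      exact Nat.le_add_left _ _
    rw [hq, map_mul, norm_mul, neg_sub, sub_eq_neg_add, Real.exp_add]
    exact mul_le_mul hfθ
      (norm_aeval_le_exp hM1 hMv hqd (hql.trans (Real.exp_le_exp.2 hdg)))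
      (norm_nonneg _) (Real.exp_pos _).le
  · rw [hsum', norm_zero]
    exact (Real.exp_pos _).le
  · rw [← hcν']
    have h1 : x ^ (2 / 3 * (4 - ε)) / 16 ≤ (K : ℝ) ^ (4 - ε) := by
      refine le_trans ?_ (Real.rpow_le_rpow (by positivity) hKge (by linarith))
      rw [Real.div_rpow (by positivity) (by norm_num), ← Real.rpow_mul hx0]
      refine div_le_div_of_nonneg_left (by positivity) (by positivity) ?_
      calc (2 : ℝ) ^ (4 - ε) ≤ 2 ^ (4 : ℝ) :=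
            Real.rpow_le_rpow_of_exponent_le one_le_two (by linarith)
        _ = 16 := by norm_num
    have := le_mul_of_one_le_right hcν hG1
    linarith [mul_comm G m]
  · rw [← hcν']
    have h1 : (ν : ℝ) * (K : ℝ) ^ (4 + ε) ≤ ν * x ^ (2 / 3 * (4 + ε)) := by
      rw [Real.rpow_mul hx0]
      exact mul_le_mul_of_nonneg_left (Real.rpow_le_rpow hK0 hKle (by linarith)) hνR
    have := le_mul_of_one_le_right hcν hG1
    have : 0 ≤ x ^ (3 - 4 * ε) := Real.rpow_nonneg hx0 _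
    have e1 : cν + (G + G * m) ≤ (cν + 1 + m) * G := by
      rw [add_mul, add_mul]
      linarith [mul_comm G m]
    have e2 : x ^ (197 / 75 : ℝ) + ν * (K : ℝ) ^ (4 + ε) ≤ x ^ (3 - 4 * ε) / 2 := by linarith
    linarith

/-- **A family at every scale.** At a point within `exp (-s)` of `θ` the first coefficient that
does not vanish is at most `exp (-s ^ (24 / 25))`. -/
theorem eventually_exists_family (hF : HasFamilies θ ν) :
    ∀ᶠ s : ℝ in atTop, ∃ (e : ℕ → MvPolynomial (Fin 2) ℤ) (D : ℕ), e ν = 1 ∧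
      (D : ℝ) ≤ s ^ (1 / 4 : ℝ) ∧
      (∀ i, (e i).totalDegree ≤ D ∧ len (e i) ≤ Real.exp (s ^ (1 / 4 : ℝ))) ∧
      ∀ p : Fin 2 → ℂ, (∀ i, ‖p i - θ i‖ ≤ Real.exp (-s)) → ∀ r ≤ ν,
        (∀ i < r, aeval p (e i) = 0) → ‖aeval p (e r)‖ ≤ Real.exp (-s ^ (24 / 25 : ℝ)) := by
  obtain ⟨ε, hεdef⟩ : ∃ ε : ℝ, ε = 1 / 200 := ⟨_, rfl⟩
  have hε0 : 0 < ε := by norm_num [hεdef]
  set M := 2 + ‖θ 0‖ + ‖θ 1‖
  have hM1 : 1 ≤ M := by linarith [norm_nonneg (θ 0), norm_nonneg (θ 1)]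
  have hMv : ∀ i, ‖θ i‖ + 1 ≤ M := fun i => by
    fin_cases i <;> simp only [M, Fin.zero_eta, Fin.mk_one] <;>
      linarith [norm_nonneg (θ 0), norm_nonneg (θ 1)]
  set m := Real.log M
  have hm0 : 0 ≤ m := Real.log_nonneg hM1
  obtain ⟨cν, hcν'⟩ : ∃ cν : ℝ, cν = 2 * ν + 3 := ⟨_, rfl⟩
  have hcν : 0 ≤ cν := by rw [hcν']; positivity
  have hνR : (0 : ℝ) ≤ ν := Nat.cast_nonneg _
  obtain ⟨γ, hγ⟩ : ∃ γ : ℝ, γ = (1 - 2 * ε) / 4 := ⟨_, rfl⟩
  have hK : Tendsto (fun s : ℝ => ⌊s ^ γ⌋₊) atTop atTop :=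
    tendsto_nat_floor_atTop.comp (tendsto_rpow_atTop (by norm_num [hγ, hεdef]))
  filter_upwards [hK.eventually (hF ε hε0 (by norm_num [hεdef])),
    eventually_mul_rpow_le (show (1 / 4 : ℝ) < 24 / 25 by norm_num) (cν + 1 + m),
    eventually_mul_rpow_le (show (24 / 25 : ℝ) < γ * (4 - ε) by norm_num [hγ, hεdef]) 32,
    eventually_mul_rpow_le (show (24 / 25 : ℝ) < 1 by norm_num) (2 * (cν + ν + 3 + m)),
    eventually_mul_rpow_le (show (γ * (4 + ε) : ℝ) < 1 by norm_num [hγ, hεdef]) (2 * ν),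
    eventually_ge_atTop 1,
    (tendsto_rpow_atTop (show (0 : ℝ) < γ by norm_num [hγ, hεdef])).eventually_ge_atTop 4]
    with s hK' h1 h2 h3 h4 hs hsγ
  obtain ⟨e, lam, heν, hsz, hsum, hlo, hhi⟩ := hK'
  have hs0 : (0 : ℝ) ≤ s := by linarith
  set K := ⌊s ^ γ⌋₊
  have hKle : (K : ℝ) ≤ s ^ γ := Nat.floor_le (Real.rpow_nonneg hs0 _)
  have hKge : s ^ γ / 2 ≤ K := by
    have : s ^ γ - 1 < (K : ℝ) := Nat.sub_one_lt_floor _
    linarith
  have hK0 : (0 : ℝ) ≤ K := Nat.cast_nonneg _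
  set Q := s ^ (1 / 4 : ℝ)
  have hQ1 : 1 ≤ Q := Real.one_le_rpow hs (by norm_num)
  have hQ : Q ≤ s ^ (24 / 25 : ℝ) := Real.rpow_le_rpow_of_exponent_le hs (by norm_num)
  have hKQ : (K : ℝ) ^ (1 + ε) ≤ Q := by
    refine (Real.rpow_le_rpow hK0 hKle (by linarith)).trans ?_
    rw [← Real.rpow_mul hs0]
    exact Real.rpow_le_rpow_of_exponent_le hs (by norm_num [hγ, hεdef])
  set D := ⌊Q⌋₊
  have hDQ : (D : ℝ) ≤ Q := Nat.floor_le (by linarith)
  have hdeg : ∀ i, (e i).totalDegree ≤ D := fun i => Nat.le_floor ((hsz i).1.trans hKQ)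
  have hlen : ∀ i, len (e i) ≤ Real.exp Q := fun i =>
    (hsz i).2.trans (Real.exp_le_exp.2 hKQ)
  refine ⟨e, D, heν, hDQ, fun i => ⟨hdeg i, hlen i⟩, fun p hp r hr hlt => ?_⟩
  have hθM : ∀ i, ‖θ i‖ ≤ M := fun i => by linarith [hMv i]
  have hpM : ∀ i, ‖p i‖ ≤ M := fun i => by
    have h5 : Real.exp (-s) ≤ 1 := Real.exp_le_one_iff.2 (by linarith)
    linarith [norm_le_norm_add_norm_sub' (p i) (θ i), hp i, hMv i]
  have hl1 : ‖lam‖ ≤ 1 :=
    hhi.trans (Real.exp_le_one_iff.2 (neg_nonpos.2 (Real.rpow_nonneg hK0 _)))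
  refine norm_coeff_le_exp hr (fun i => aeval p (e i)) (e := Q + Q * m)
    (d := s - (ν + 2 * Q + Q * m)) hlo hhi (Real.rpow_nonneg hK0 _)
    (fun i _ => norm_aeval_le_exp hM1 hpM ((hsz i).1.trans hKQ) (hlen i))
    (fun i hi => by rw [hlt i hi, norm_zero]; exact (Real.exp_pos _).le) ?_ ?_ ?_
  · have hterm : ∀ i ∈ range (ν + 1), ‖(aeval p (e i) - aeval θ (e i)) * lam ^ i‖ ≤
        Real.exp Q * (Real.exp Q * Real.exp (Q * m) * Real.exp (-s)) := fun i _ => by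
      rw [norm_mul, norm_pow]
      refine (mul_le_of_le_one_right (norm_nonneg _) (pow_le_one₀ (norm_nonneg _) hl1)).trans ?_
      refine (norm_aeval_sub_le (hdeg i) hM1 (Real.exp_pos _).le hpM hθM hp).trans ?_
      refine mul_le_mul (hlen i) (mul_le_mul_of_nonneg_right (mul_le_mul ?_ ?_ (by positivity)
        (Real.exp_pos _).le) (Real.exp_pos _).le) (by positivity) (Real.exp_pos _).le
      · linarith [Real.add_one_le_exp Q]
      · rw [mul_comm Q, ← Real.rpow_def_of_pos (by linarith : (0 : ℝ) < M), ← Real.rpow_natCast]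
        exact Real.rpow_le_rpow_of_exponent_le hM1 hDQ
    have e0 : ∑ i ∈ range (ν + 1), aeval p (e i) * lam ^ i =
        ∑ i ∈ range (ν + 1), (aeval p (e i) - aeval θ (e i)) * lam ^ i := by
      simp only [sub_mul, sum_sub_distrib, hsum, sub_zero]
    rw [e0]
    refine (norm_sum_le _ _).trans ((sum_le_card_nsmul _ _ _ hterm).trans ?_)
    rw [nsmul_eq_mul, card_range, ← Real.exp_add, ← Real.exp_add, ← Real.exp_add]
    refine (mul_le_mul_of_nonneg_right (show ((ν + 1 : ℕ) : ℝ) ≤ Real.exp ν by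
      push_cast; exact Real.add_one_le_exp _) (Real.exp_pos _).le).trans (le_of_eq ?_)
    rw [← Real.exp_add]
    ring_nf
  · rw [← hcν']
    have h5 : s ^ (γ * (4 - ε)) / 16 ≤ (K : ℝ) ^ (4 - ε) := by
      refine le_trans ?_ (Real.rpow_le_rpow (by positivity) hKge (by linarith))
      rw [Real.div_rpow (by positivity) (by norm_num), ← Real.rpow_mul hs0]
      refine div_le_div_of_nonneg_left (by positivity) (by positivity) ?_
      calc (2 : ℝ) ^ (4 - ε) ≤ 2 ^ (4 : ℝ) :=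
            Real.rpow_le_rpow_of_exponent_le one_le_two (by linarith)
        _ = 16 := by norm_num
    have := le_mul_of_one_le_right hcν hQ1
    linarith [mul_comm Q m]
  · rw [← hcν']
    have h6 : (ν : ℝ) * (K : ℝ) ^ (4 + ε) ≤ ν * s ^ (γ * (4 + ε)) := by
      rw [Real.rpow_mul hs0]
      exact mul_le_mul_of_nonneg_left (Real.rpow_le_rpow hK0 hKle (by linarith)) hνR
    rw [Real.rpow_one] at h3 h4
    have h7 : (cν + ν + 3 + m) * 1 ≤ (cν + ν + 3 + m) * s ^ (24 / 25 : ℝ) :=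
      mul_le_mul_of_nonneg_left (hQ1.trans hQ) (by positivity)
    have h8 := mul_le_mul_of_nonneg_right hQ hm0
    have h9 : (cν + (ν : ℝ)) * 1 ≤ (cν + ν) * s ^ (24 / 25 : ℝ) :=
      mul_le_mul_of_nonneg_left (hQ1.trans hQ) (by positivity)
    linarith [mul_comm m (s ^ (24 / 25 : ℝ))]

end FA.Nesterenko

end
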