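import Fermat.Agent.Nesterenko.CycleWeight
import Fermat.Agent.Nesterenko.SmallPair
import Fermat.Agent.Nesterenko.Families

/-!
# Algebraic independence from a dense sequence of small values

No two algebraically independent numbers can have families of polynomials with small roots at every
scale. So four numbers with such a sequence of small values span transcendence degree at least
three.
-/

set_option autoImplicit false

noncomputable section

namespace FA.Nesterenko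

open MvPolynomial Finset Filter
open FA.Roth (len)

/-- **No families at two algebraically independent numbers.** -/
theorem no_families {θ : Fin 2 → ℂ} (hθ : AlgebraicIndependent ℤ θ) {ν : ℕ}
    (hF : HasFamilies θ ν) : False := by
  classical
  obtain ⟨s₀, hs₀⟩ := eventually_atTop.1 (eventually_exists_family hF)
  obtain ⟨s₁, hs₁, hs₀₁⟩ : ∃ s₁ : ℝ, 1 ≤ s₁ ∧ s₀ ≤ s₁ :=
    ⟨max 1 s₀, le_max_left _ _, le_max_right _ _⟩
  have ev : ∀ {a b : ℝ}, a < b → ∀ C : ℝ,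
      ∀ᶠ N : ℕ in atTop, C * (N : ℝ) ^ a ≤ (N : ℝ) ^ b := fun h C =>
    tendsto_natCast_atTop_atTop.eventually (eventually_mul_rpow_le h C)
  -- the exponents: `ab` 128/75, `c` 1/300, `U` 787/300
  obtain ⟨N, ⟨f, g, hfirr, hfd, hfg, hfa, hfl, hga, hgl, hfθ, hgθ⟩, hN2, hL, hc1, hc2, hU₁, hU₂,
      hbig, hfin⟩ := ((eventually_exists_pair hF).and ((eventually_ge_atTop 2).and
    ((ev (show (2 * (128 / 75) : ℝ) < 4 by norm_num) 8).and
    ((ev (show (0 : ℝ) < 1 / 300 by norm_num) (6 + ‖θ 0‖ + ‖θ 1‖)).and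
    ((ev (show (1 / 600 : ℝ) < 1 / 300 by norm_num) 4800).and
    ((ev (show (128 / 75 + 2 / 300 : ℝ) < 197 / 75 by norm_num) 64).and
    ((ev (show (787 / 300 : ℝ) < 197 / 75 by norm_num) 2).and
    ((ev (show (128 / 75 + 1 / 300 : ℝ) < 787 / 300 * (3 / 4) by norm_num) (128 * s₁)).and
    (ev (show (128 / 75 + 2 / 300 + 787 / 300 * (1 / 25) : ℝ) < 787 / 300 * (3 / 4) by
      norm_num) 2048))))))))).exists
  set x : ℝ := (N : ℝ) with hx
  have hx2 : (2 : ℝ) ≤ x := Nat.ofNat_le_cast.2 hN2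
  have hx1 : (1 : ℝ) ≤ x := by linarith
  have hx0 : (0 : ℝ) < x := by linarith
  have mul : ∀ a b : ℝ, x ^ a * x ^ b = x ^ (a + b) := fun a b => (Real.rpow_add hx0 a b).symm
  rw [Real.rpow_zero, mul_one] at hc1
  set c := x ^ (1 / 300 : ℝ)
  set a := x ^ (51 / 50 : ℝ)
  set b := x ^ (103 / 150 : ℝ)
  set U := x ^ (787 / 300 : ℝ)
  have hc : 1 ≤ c := Real.one_le_rpow hx1 (by norm_num)
  have ha : 1 ≤ a := Real.one_le_rpow hx1 (by norm_num)
  have hb : 1 ≤ b := Real.one_le_rpow hx1 (by norm_num)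
  have hU0 : 0 < U := Real.rpow_pos_of_pos hx0 _
  have hab : a * b = x ^ (128 / 75 : ℝ) := by rw [mul]; norm_num
  have habc : a * b * c = x ^ (128 / 75 + 1 / 300 : ℝ) := by rw [hab, mul]
  have hN4 : x ^ (4 : ℝ) = ((N ^ 4 : ℕ) : ℝ) := by
    rw [Nat.cast_pow, ← hx, ← Real.rpow_natCast x 4, Nat.cast_ofNat]
  have hcL : 2 * ((N ^ 4 : ℕ) : ℝ) + 2 ≤ Real.exp c := by
    rw [← hN4]
    have h1 : Real.log x ≤ 600 * x ^ (1 / 600 : ℝ) := by
      refine (Real.log_le_rpow_div hx0.le (show (0 : ℝ) < 1 / 600 by norm_num)).trans (le_of_eq ?_)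
      ring
    have h4 : (1 : ℝ) ≤ x ^ (4 : ℝ) := Real.one_le_rpow hx1 (by norm_num)
    have h6 : (6 : ℝ) ≤ c := by linarith [norm_nonneg (θ 0), norm_nonneg (θ 1)]
    have h7 : x ^ (4 : ℝ) ≤ Real.exp (c / 2) := by
      rw [Real.rpow_def_of_pos hx0, Real.exp_le_exp]
      linarith
    have h8 : (4 : ℝ) ≤ Real.exp (c / 2) := by linarith [Real.add_one_le_exp (c / 2)]
    calc 2 * x ^ (4 : ℝ) + 2 ≤ 4 * x ^ (4 : ℝ) := by linarith
      _ ≤ Real.exp (c / 2) * Real.exp (c / 2) := mul_le_mul h8 h7 (by linarith) (Real.exp_pos _).le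
      _ = Real.exp c := by rw [← Real.exp_add]; ring_nf
  obtain ⟨S, μ, hcyc, l₁, l₂, hg1, hg2, hne, hl₁, hl₁', hl₂, hl₂', hA₁, hA₂, hμA, T, s, hT, hs,
      hsU, hW, hnear⟩ := exists_heavy_point (θ := θ) hfirr hfd hfg
    (fun h => hfirr.ne_zero (hθ.eq_zero_of_aeval_eq_zero _ h)) ha hb hc hfa hfl hga hgl
    (L := N ^ 4) (U := U) (U₀ := x ^ (197 / 75 : ℝ))
    (by rw [hab, ← Real.rpow_natCast (x ^ (128 / 75 : ℝ)), ← Real.rpow_mul hx0.le, ← hN4]
        refine le_trans (le_of_eq ?_) hL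
        norm_num)
    hcL (by linarith [Real.add_one_le_exp c]) hfθ hgθ hU0
    (by
      have : a * b * c * c = x ^ (128 / 75 + 2 / 300 : ℝ) := by rw [habc, mul]; norm_num
      linarith)
  set A := 16 * (a * b * c) with hA
  have hTA : ((∑ p ∈ T, μ p : ℕ) : ℝ) ≤ A :=
    (Nat.cast_le.2 (sum_le_sum_of_subset hT)).trans hμA
  have hU34 : U ^ (3 / 4 : ℝ) = x ^ (787 / 300 * (3 / 4) : ℝ) := (Real.rpow_mul hx0.le _ _).symm
  have hs34 : (0 : ℝ) ≤ s ^ (3 / 4 : ℝ) := Real.rpow_nonneg hs.le _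
  have hsbig : s₁ ≤ s := by
    have h1 : A * s₁ ≤ A * s ^ (3 / 4 : ℝ) := by
      have h2 := mul_le_mul_of_nonneg_right hTA hs34
      rw [hU34] at hW
      rw [hA, habc]
      rw [hA, habc] at h2
      linarith
    have h3 : s₁ ≤ s ^ (3 / 4 : ℝ) := le_of_mul_le_mul_left h1 (by positivity)
    refine h3.trans ?_
    rcases le_total 1 s with h | h
    · exact (Real.rpow_le_rpow_of_exponent_le h (by norm_num)).trans_eq (Real.rpow_one s)
    · have h4 : s ^ (3 / 4 : ℝ) ≤ 1 := Real.rpow_le_one hs.le h (by norm_num)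
      rcases h4.eq_or_lt with h5 | h5
      · rcases h.eq_or_lt with h6 | h6
        · rw [h5, h6]
        · exact absurd h5 (Real.rpow_lt_one hs.le h6 (by norm_num)).ne
      · linarith
  obtain ⟨e, D, heν, hDs, hsz, hfam⟩ := hs₀ s (hs₀₁.trans hsbig)
  have hex : ∀ p : Fin 2 → ℂ, ∃ i, aeval p (e i) ≠ 0 := fun p => ⟨ν, by rw [heν, map_one]; simp⟩
  have hwt := weight_mul_le hcyc hfirr hfd hfg hg1 hg2 hne (L := N ^ 4) hl₁ hl₁' hl₂ hl₂'
    (E := s ^ (1 / 4 : ℝ)) (R := s ^ (24 / 25 : ℝ)) hcL (Real.rpow_nonneg hs.le _) hA₁ hA₂ hμA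
    (fun p => e (Nat.find (hex p)))
    (fun p _ q _ hpq => by
      show e (Nat.find (hex p)) = e (Nat.find (hex q))
      exact congrArg e (Nat.find_congr' fun {i} => not_congr (hpq (e i))))
    (fun p _ => (hsz _).1) (fun p _ => (hsz _).2) (fun p _ => Nat.find_spec (hex p)) hT
    (fun p hp => hfam p (hnear p hp) _
      (Nat.find_le (by rw [heν, map_one]; exact one_ne_zero))
      (fun i hi => not_not.1 (Nat.find_min (hex p) hi)))
  -- comparison
  set q := s ^ (1 / 4 : ℝ)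
  have hq : 0 < q := Real.rpow_pos_of_pos hs _
  have hR : s ^ (3 / 4 : ℝ) * q = s ^ (24 / 25 : ℝ) * s ^ (1 / 25 : ℝ) := by
    rw [← Real.rpow_add hs, ← Real.rpow_add hs]
    norm_num
  have hlow : U ^ (3 / 4 : ℝ) / 8 * q ≤
      ((∑ p ∈ T, μ p : ℕ) : ℝ) * s ^ (24 / 25 : ℝ) * U ^ (1 / 25 : ℝ) := by
    refine (mul_le_mul_of_nonneg_right hW hq.le).trans ?_
    rw [mul_assoc, hR, ← mul_assoc]
    exact mul_le_mul_of_nonneg_left (Real.rpow_le_rpow hs.le hsU (by norm_num)) (by positivity)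
  have hA0 : 0 ≤ A := by positivity
  have hup : 2 * (D : ℝ) * A + A * (q + 2 * D * c) ≤ 5 * (A * c) * q := by
    have h1 := mul_le_mul_of_nonneg_left hDs hA0
    have h2 := mul_le_mul_of_nonneg_left hDs (mul_nonneg hA0 (by linarith : (0 : ℝ) ≤ c))
    have h3 : A * q ≤ A * q * c := le_mul_of_one_le_right (by positivity) hc
    linarith
  have hfinal : U ^ (3 / 4 : ℝ) / 8 * q ≤ 5 * (A * c) * U ^ (1 / 25 : ℝ) * q := by
    refine hlow.trans ((mul_le_mul_of_nonneg_right (hwt.trans hup) (by positivity)).trans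
      (le_of_eq ?_))
    ring
  have hkey := le_of_mul_le_mul_right hfinal hq
  have e1 : A * c * U ^ (1 / 25 : ℝ) =
      16 * x ^ (128 / 75 + 2 / 300 + 787 / 300 * (1 / 25) : ℝ) := by
    rw [hA, habc, mul_assoc, mul_assoc, ← Real.rpow_mul hx0.le, ← mul_assoc (x ^ _), mul, mul]
    norm_num
  rw [hU34, mul_assoc, e1] at hkey
  have : 0 < x ^ (787 / 300 * (3 / 4) : ℝ) := Real.rpow_pos_of_pos hx0 _
  linarith

/-- **The criterion.** Four numbers with a dense sequence of small values of integer polynomials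
are not algebraic over the field of two algebraically independent numbers. -/
theorem not_algebraic_over_pair {θ : Fin 2 → ℂ} (hθ : AlgebraicIndependent ℤ θ) {ω : Fin 4 → ℂ}
    (h : ∀ ε : ℝ, 0 < ε → ε ≤ 1 → ∀ᶠ N : ℕ in atTop, ∃ B : MvPolynomial (Fin 4) ℤ,
      (B.totalDegree : ℝ) ≤ (N : ℝ) ^ (1 + ε) ∧ Real.log (len B) ≤ (N : ℝ) ^ (1 + ε) ∧
      Real.exp (-(N : ℝ) ^ (4 + ε)) ≤ ‖aeval ω B‖ ∧
      ‖aeval ω B‖ ≤ Real.exp (-(N : ℝ) ^ (4 - ε))) :
    ∃ i, ¬IsIntegral (IntermediateField.adjoin ℚ (Set.range θ)) (ω i) := by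
  by_contra hc
  push Not at hc
  obtain ⟨ν, hν⟩ := exists_families hc h
  exact no_families hθ hν

end FA.Nesterenko

end
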