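import Fermat.Agent.Nesterenko.Series

/-!
# `R`, `Q`, `P` near a root of unity

For coprime `a`, `c` the values at `exp (2π i a / c - 2π / (c² Y))` are those at a point of
absolute value `exp (-2π Y)`, times powers of `w = i c Y`, with `6 c w / (π i)` added for `P`.
-/

set_option autoImplicit false

noncomputable section

namespace FA.Nesterenko

open UpperHalfPlane hiding I
open ModularForm EisensteinSeries Complex
open scoped MatrixGroups Real

local notation "𝕢" => Function.Periodic.qParam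

theorem fn_qParam (τ : ℍ) :
    fn 0 (𝕢 1 τ) = E₆ τ ∧ fn 1 (𝕢 1 τ) = E₄ τ ∧ fn 2 (𝕢 1 τ) = E2 τ := by
  refine ⟨?_, ?_, ?_⟩ <;> simp only [fn, val, eis]
  · simpa using! (FA.Tau.hasQ_eSix τ).tsum_eq
  · simpa using! (FA.Tau.hasQ_eFour τ).tsum_eq
  · simpa using! (FA.Tau.hasQ_eTwo τ).tsum_eq

/-- The slope of the correction of `P`. -/
def slope : ℂ := 6 / (π * I)

theorem norm_slope : ‖slope‖ = 6 / π := by
  rw [slope, norm_div, norm_mul, Complex.norm_I, mul_one, Complex.norm_real,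
    Real.norm_of_nonneg Real.pi_pos.le]
  norm_num

theorem exists_cusp {a c : ℕ} (hac : a.Coprime c) (hc : 0 < c) {Y : ℝ} (hY : 0 < Y) :
    ∃ q : ℂ, ‖q‖ = Real.exp (-(2 * π * Y)) ∧
      let z : ℂ := cexp (2 * π * I * a / c) * Real.exp (-(2 * π / (c ^ 2 * Y)))
      let w : ℂ := I * c * Y
      fn 0 z = w ^ 6 * fn 0 q ∧ fn 1 z = w ^ 4 * fn 1 q ∧
        fn 2 z = w ^ 2 * fn 2 q + slope * c * w := by
  obtain ⟨u, v, huv⟩ := Nat.isCoprime_iff_coprime.2 hac
  set γ : SL(2, ℤ) := ⟨!![(a : ℤ), -v; (c : ℤ), u], by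
    simp [Matrix.det_fin_two]; linarith⟩ with hγ
  have hcR : (0 : ℝ) < c := Nat.cast_pos.2 hc
  have hcC : (c : ℂ) ≠ 0 := by exact_mod_cast hc.ne'
  have hYC : (Y : ℂ) ≠ 0 := by exact_mod_cast hY.ne'
  set τ : ℍ := ⟨-(u : ℂ) / c + Y * I, by simp [Complex.div_im, hY]⟩ with hτ
  have hτc : (τ : ℂ) = -(u : ℂ) / c + Y * I := rfl
  have hden : denom γ τ = I * c * Y := by
    rw [ModularGroup.denom_apply, hτc, hγ]
    simp
    field_simp
    ring
  have hw0 : (I * c * Y : ℂ) ≠ 0 := mul_ne_zero (mul_ne_zero I_ne_zero hcC) hYC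
  have hdet : (a : ℂ) * u + v * c = 1 := by
    have h := congrArg (fun x : ℤ => (x : ℂ)) huv
    push_cast at h
    linear_combination h
  have hsmul : ((γ • τ : ℍ) : ℂ) = a / c + I / (c ^ 2 * Y) := by
    rw [UpperHalfPlane.coe_specialLinearGroup_apply, hτc, hγ]
    simp
    rw [show (c : ℂ) * (-(u : ℂ) / c + Y * I) + u = I * c * Y by field_simp; ring,
      show (a : ℂ) * (-(u : ℂ) / c + Y * I) + -(v : ℂ) = -(1 / c) + a * Y * I by
        field_simp
        linear_combination -hdet]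
    field_simp
    linear_combination -Complex.I_sq
  have hz : 𝕢 1 (γ • τ : ℍ) =
      cexp (2 * π * I * a / c) * Real.exp (-(2 * π / (c ^ 2 * Y))) := by
    rw [Function.Periodic.qParam, hsmul, Complex.ofReal_exp, ← Complex.exp_add]
    congr 1
    push_cast
    field_simp
    linear_combination Complex.I_sq
  obtain ⟨h6, h4, h2⟩ := fn_qParam (γ • τ)
  obtain ⟨g6, g4, g2⟩ := fn_qParam τ
  refine ⟨𝕢 1 τ, ?_, ?_⟩
  · rw [Function.Periodic.norm_qParam, hτc]
    simp [Complex.div_im]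
  refine ⟨?_, ?_, ?_⟩
  · have hS := congrFun (show ⇑E₆ ∣[(6 : ℤ)] γ = ⇑E₆ from
      E₆.slash_action_eq' _ ⟨γ, rfl⟩) τ
    rw [ModularForm.SL_slash_apply, hden, zpow_neg, mul_inv_eq_iff_eq_mul₀ (zpow_ne_zero _ hw0),
      zpow_ofNat] at hS
    rw [← hz, h6, g6, hS, mul_comm]
  · have hS := congrFun (show ⇑E₄ ∣[(4 : ℤ)] γ = ⇑E₄ from
      E₄.slash_action_eq' _ ⟨γ, rfl⟩) τ
    rw [ModularForm.SL_slash_apply, hden, zpow_neg, mul_inv_eq_iff_eq_mul₀ (zpow_ne_zero _ hw0),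
      zpow_ofNat] at hS
    rw [← hz, h4, g4, hS, mul_comm]
  · have hS := congrFun (E2_slash_action γ) τ
    rw [ModularForm.SL_slash_apply, hden, Pi.sub_apply, Pi.smul_apply, smul_eq_mul,
      riemannZeta_two, show D2 γ τ = 2 * π * I * (c : ℂ) / denom γ τ by simp [D2, hγ],
      hden] at hS
    rw [← hz, h2, g2, slope]
    have hπ : (π : ℂ) ≠ 0 := Complex.ofReal_ne_zero.2 Real.pi_ne_zero
    rw [show ((-2 : ℤ)) = -((2 : ℕ) : ℤ) from rfl, zpow_neg, zpow_natCast] at hS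
    field_simp at hS ⊢
    linear_combination hS - 6 * (c : ℂ) ^ 2 * Y * Complex.I_sq

end FA.Nesterenko

end
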