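import Mathlib.LinearAlgebra.Lagrange
import Mathlib.RingTheory.RootsOfUnity.Complex
import Mathlib.Analysis.Complex.Basic

/-!
# Coefficients of a polynomial small at many points

The coefficients are small if the values at all non-trivial roots of unity of a large order are,
or the values at sufficiently many points at mutual distance at least one.
-/

set_option autoImplicit false

noncomputable section

namespace FA.Nesterenko

open Finset Polynomial

open scoped Real

theorem sum_pow_root {ζ : ℂ} {c : ℕ} (hζ : IsPrimitiveRoot ζ c) (e : ℕ) :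
    ∑ a ∈ range c, (ζ ^ e) ^ a = if c ∣ e then (c : ℂ) else 0 := by
  split_ifs with h
  · simp [(hζ.pow_eq_one_iff_dvd e).2 h]
  · have h1 : ζ ^ e ≠ 1 := fun he => h ((hζ.pow_eq_one_iff_dvd e).1 he)
    rw [geom_sum_eq h1, ← pow_mul, mul_comm, pow_mul, hζ.pow_eq_one, one_pow, sub_self, zero_div]

/-- **Orthogonality**, the trivial root of unity left out. -/
theorem norm_le_of_orth {c n : ℕ} (hc : n + 1 < c) (x : ℕ → ℂ) {ε : ℝ}
    (h : ∀ a, 0 < a → a < c →
      ‖∑ j ∈ range (n + 1), x j * Complex.exp (2 * π * Complex.I * a / c) ^ j‖ ≤ ε)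
    {i : ℕ} (hi : i ≤ n) : ‖x i‖ ≤ 2 * ε := by
  set ζ := Complex.exp (2 * π * Complex.I / c) with hζdef
  have hc0 : c ≠ 0 := by omega
  have hζ : IsPrimitiveRoot ζ c := Complex.isPrimitiveRoot_exp c hc0
  have hε : 0 ≤ ε := (norm_nonneg _).trans (h 1 one_pos (by omega))
  set g : ℕ → ℂ := fun a => ∑ j ∈ range (n + 1), x j * (ζ ^ a) ^ j with hg
  have key : ∀ e, e ≤ n + 1 → ∑ a ∈ range c, (ζ ^ a) ^ (c - e) * g a =
      ∑ j ∈ range (n + 1), x j * if j = e then (c : ℂ) else 0 := fun e he => by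
    simp only [hg, mul_sum]
    rw [sum_comm]
    refine sum_congr rfl fun j hj => ?_
    have hj' := mem_range.1 hj
    rw [show ∑ a ∈ range c, (ζ ^ a) ^ (c - e) * (x j * (ζ ^ a) ^ j) =
      x j * ∑ a ∈ range c, (ζ ^ (c - e + j)) ^ a by
        rw [mul_sum]
        refine sum_congr rfl fun a _ => ?_
        rw [← pow_mul, ← pow_mul, ← pow_mul, add_mul, pow_add, mul_comm (c - e), mul_comm j]
        ring, sum_pow_root hζ]
    congr 1
    refine if_congr ⟨fun hd => ?_, fun he' => ⟨1, by omega⟩⟩ rfl rfl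
    obtain ⟨k, hk⟩ := hd
    rcases k with _ | _ | k
    · omega
    · omega
    · have : c * 2 ≤ c * (k + 1 + 1) := Nat.mul_le_mul_left _ (by omega)
      omega
  have hT : ∑ a ∈ range c, ((ζ ^ a) ^ (c - i) - (ζ ^ a) ^ (c - (n + 1))) * g a =
      x i * c := by
    simp only [sub_mul, sum_sub_distrib]
    rw [key i (by omega), key (n + 1) le_rfl,
      sum_eq_single_of_mem i (mem_range.2 (by omega)) fun j _ hj => by simp [hj],
      sum_eq_zero (s := range (n + 1)) fun j hj => by simp [(mem_range.1 hj).ne]]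
    simp
  have hnorm : ∀ a k : ℕ, ‖(ζ ^ a) ^ k‖ = 1 := fun a k => by
    simp [hζ.norm'_eq_one hc0]
  have hbound : ‖x i * c‖ ≤ c * (2 * ε) := by
    rw [← hT]
    refine (norm_sum_le _ _).trans ((sum_le_card_nsmul _ _ (2 * ε) fun a ha => ?_).trans_eq
      (by simp))
    rcases Nat.eq_zero_or_pos a with rfl | ha0
    · simp
      linarith
    rw [norm_mul]
    refine mul_le_mul ((norm_sub_le _ _).trans (by rw [hnorm, hnorm]; norm_num)) ?_
      (norm_nonneg _) zero_le_two
    have e : ζ ^ a = Complex.exp (2 * π * Complex.I * a / c) := by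
      rw [hζdef, ← Complex.exp_nat_mul]
      ring_nf
    simp only [hg, e]
    exact h a ha0 (mem_range.1 ha)
  rw [norm_mul, Complex.norm_natCast, mul_comm] at hbound
  exact le_of_mul_le_mul_left hbound (Nat.cast_pos.2 (by omega))

theorem norm_coeff_prod_X_sub_C_le {ι : Type*} (s : Finset ι) (v : ι → ℂ) {B : ℝ}
    (hv : ∀ k ∈ s, ‖v k‖ ≤ B) (hB : 0 ≤ B) (i : ℕ) :
    ‖(∏ k ∈ s, (X - C (v k))).coeff i‖ ≤ (1 + B) ^ s.card := by
  classical
  induction s using Finset.induction generalizing i with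
  | empty => simp [coeff_one]; split_ifs <;> simp
  | insert a s ha ih =>
    have ih' := fun i => ih (fun k hk => hv k (mem_insert_of_mem hk)) i
    rw [prod_insert ha, card_insert_of_notMem ha, pow_succ', sub_mul, coeff_sub, coeff_C_mul]
    refine (norm_sub_le _ _).trans ?_
    rw [add_mul, one_mul, norm_mul]
    refine add_le_add ?_ (mul_le_mul (hv a (mem_insert_self a s)) (ih' i) (norm_nonneg _) hB)
    rcases i with _ | i
    · simp [mul_coeff_zero]
      positivity
    · rw [coeff_X_mul]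
      exact ih' i

/-- **Interpolation**: coefficients from the values at points at mutual distance at least one. -/
theorem norm_coeff_le_of_small {ι : Type*} [DecidableEq ι] (s : Finset ι) (v : ι → ℂ) {n : ℕ}
    (hs : s.card = n + 1) {B ε : ℝ} (hB : 0 ≤ B) (hv : ∀ k ∈ s, ‖v k‖ ≤ B)
    (hsep : ∀ k ∈ s, ∀ l ∈ s, k ≠ l → 1 ≤ ‖v k - v l‖) (x : ℕ → ℂ)
    (h : ∀ k ∈ s, ‖∑ i ∈ range (n + 1), x i * v k ^ i‖ ≤ ε) {i : ℕ} (hi : i ≤ n) :
    ‖x i‖ ≤ (n + 1 : ℕ) * ((1 + B) ^ n * ε) := by
  set p : ℂ[X] := ∑ j ∈ range (n + 1), C (x j) * X ^ j with hp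
  have hvs : Set.InjOn v s := fun k hk l hl e => by
    by_contra hne
    have := hsep k hk l hl hne
    rw [e, sub_self, norm_zero] at this
    linarith
  have hdeg : p.degree < s.card := by
    rw [hs]
    refine (degree_sum_le _ _).trans_lt
      ((Finset.sup_lt_iff (WithBot.bot_lt_coe _)).2 fun j hj => ?_)
    exact (degree_C_mul_X_pow_le _ _).trans_lt (WithBot.coe_lt_coe.2 (mem_range.1 hj))
  have hcoeff : p.coeff i = x i := by
    simp [hp, coeff_X_pow, Nat.lt_succ_of_le hi]
  have heval : ∀ k, p.eval (v k) = ∑ j ∈ range (n + 1), x j * v k ^ j := fun k => by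
    simp [hp, eval_finsetSum]
  rw [← hcoeff, Lagrange.eq_interpolate hvs hdeg, Lagrange.interpolate_apply, finsetSum_coeff]
  refine (norm_sum_le _ _).trans ((sum_le_card_nsmul _ _ ((1 + B) ^ n * ε) fun k hk =>
    ?_).trans_eq
    (by simp [hs]))
  rw [coeff_C_mul, norm_mul, mul_comm ((1 + B) ^ n) ε]
  refine mul_le_mul (heval k ▸ h k hk) ?_ (norm_nonneg _) ((norm_nonneg _).trans (h k hk))
  simp only [Lagrange.basis, Lagrange.basisDivisor, prod_mul_distrib, ← map_prod, coeff_C_mul,
    norm_mul, norm_prod, norm_inv]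
  refine (mul_le_of_le_one_left (norm_nonneg _) (prod_le_one (fun _ _ => by positivity) ?_)).trans
    ((norm_coeff_prod_X_sub_C_le _ v (fun l hl => hv l (mem_of_mem_erase hl)) hB i).trans_eq ?_)
  · intro l hl
    exact inv_le_one_of_one_le₀ (hsep k hk l (mem_of_mem_erase hl) (ne_of_mem_erase hl).symm)
  · rw [card_erase_of_mem hk, hs, Nat.add_sub_cancel]

end FA.Nesterenko

end
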