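import Fermat.Agent.Nesterenko.Series
import Mathlib.Algebra.MvPolynomial.Funext
import Mathlib.Analysis.Complex.Polynomial.Basic
import Mathlib.FieldTheory.IsAlgClosed.Basic

/-!
# Removing the discriminant

A polynomial in `R, Q, P, z` that vanishes under `(R, Q, P, z) ↦ (w⁶, w⁴, w² + u w, z)` is
divisible by `R² - Q³`; dividing out costs little length and one order of vanishing.
-/

set_option autoImplicit false

noncomputable section

namespace FA.Nesterenko

open MvPolynomial Finset ModularCurve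
open FA.Roth (len)

/-- The images of `R, Q, P, z` at a cusp, in `(z, w, u)`. -/
def cuspImage : Fin 4 → MvPolynomial (Fin 3) ℤ := ![X 1 ^ 6, X 1 ^ 4, X 1 ^ 2 + X 2 * X 1, X 0]

/-- The polynomial near a cusp. -/
def cuspPoly (A : MvPolynomial (Fin 4) ℤ) : MvPolynomial (Fin 3) ℤ := aeval cuspImage A

/-- `R² - Q³`. -/
def deltaPoly : MvPolynomial (Fin 4) ℤ := X 0 ^ 2 - X 1 ^ 3

theorem aeval_cuspPoly (A : MvPolynomial (Fin 4) ℤ) (z w u : ℂ) :
    aeval ![z, w, u] (cuspPoly A) = aeval ![w ^ 6, w ^ 4, w ^ 2 + u * w, z] A := by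
  rw [cuspPoly, comp_aeval_apply]
  congr 1
  ext i
  fin_cases i <;> simp [cuspImage]

/-- Vanishing of the cusp polynomial is vanishing where `R² = Q³`. -/
theorem aeval_eq_zero_of_cuspPoly_eq_zero {A : MvPolynomial (Fin 4) ℤ} (h : cuspPoly A = 0)
    {v : Fin 4 → ℂ} (hv : v 0 ^ 2 = v 1 ^ 3) (hv1 : v 1 ≠ 0) : aeval v A = 0 := by
  set s := v 0 / v 1 with hs
  have hv0 : v 0 ≠ 0 := fun e => by
    rw [e, zero_pow (by norm_num)] at hv
    exact hv1 (pow_eq_zero_iff (by norm_num) |>.1 hv.symm)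
  obtain ⟨w, hw⟩ := IsAlgClosed.exists_pow_nat_eq s two_pos
  have hw0 : w ≠ 0 := fun e => by
    rw [e, zero_pow two_ne_zero, hs, eq_comm, div_eq_zero_iff] at hw
    exact hw.elim hv0 hv1
  have h6 : w ^ 6 = v 0 := by
    rw [show w ^ 6 = (w ^ 2) ^ 3 by ring, hw, hs, div_pow, div_eq_iff (pow_ne_zero _ hv1), ← hv]
    ring
  have h4 : w ^ 4 = v 1 := by
    rw [show w ^ 4 = (w ^ 2) ^ 2 by ring, hw, hs, div_pow, div_eq_iff (pow_ne_zero _ hv1), hv]
    ring
  have e := aeval_cuspPoly A (v 3) w ((v 2 - w ^ 2) / w)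
  rw [h, map_zero] at e
  have hvec : ![w ^ 6, w ^ 4, w ^ 2 + (v 2 - w ^ 2) / w * w, v 3] = v := by
    funext i
    fin_cases i <;> simp [h6, h4, hw0]
  rwa [hvec, eq_comm] at e

theorem aeval_cons_eq (A : MvPolynomial (Fin 4) ℤ) (x : ℂ) (v : Fin 3 → ℂ) :
    aeval (Fin.cons x v : Fin 4 → ℂ) A =
      Polynomial.eval₂ (aeval v).toRingHom x (finSuccEquiv ℤ 3 A) := by
  have h : (Polynomial.eval₂RingHom (aeval v).toRingHom x).comp
      (finSuccEquiv ℤ 3).toRingEquiv.toRingHom =
      (aeval (Fin.cons x v : Fin 4 → ℂ)).toRingHom := by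
    refine MvPolynomial.ringHom_ext (fun r => ?_) fun i => ?_
    · simp
    · refine Fin.cases ?_ (fun j => ?_) i <;> simp [finSuccEquiv_apply]
  exact (RingHom.congr_fun h A).symm

/-- **Divisibility by the discriminant.** -/
theorem deltaPoly_dvd {A : MvPolynomial (Fin 4) ℤ} (h : cuspPoly A = 0) : deltaPoly ∣ A := by
  set e := finSuccEquiv ℤ 3 with he
  set m : Polynomial (MvPolynomial (Fin 3) ℤ) := Polynomial.X ^ 2 - Polynomial.C (X 0 ^ 3)
  have hm : m.Monic := Polynomial.monic_X_pow_sub_C _ two_ne_zero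
  have hem : e deltaPoly = m := by
    simp only [deltaPoly, map_sub, map_pow, he, m]
    rw [finSuccEquiv_X_zero, show (1 : Fin 4) = Fin.succ 0 from rfl, finSuccEquiv_X_succ]
  suffices hr : e A %ₘ m = 0 by
    rw [← map_dvd_iff e, hem]
    exact (Polynomial.modByMonic_eq_zero_iff_dvd hm).1 hr
  set r := e A %ₘ m with hr
  have hdeg : r.natDegree < 2 := by
    have h1 := Polynomial.natDegree_modByMonic_lt (e A) hm (fun h1 => by
      have := congrArg Polynomial.natDegree h1
      rw [Polynomial.natDegree_X_pow_sub_C, Polynomial.natDegree_one] at this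
      omega)
    rwa [Polynomial.natDegree_X_pow_sub_C] at h1
  have hzero : ∀ u : Fin 3 → ℂ, u 0 ≠ 0 → aeval u (r.coeff 0) = 0 ∧ aeval u (r.coeff 1) = 0 := by
    intro u hu
    obtain ⟨x, hx⟩ := IsAlgClosed.exists_pow_nat_eq (u 0 ^ 3) two_pos
    have hx0 : x ≠ 0 := fun e => hu ((pow_eq_zero_iff three_ne_zero).1 (by rw [← hx, e]; simp))
    have key : ∀ y, y ^ 2 = u 0 ^ 3 →
        aeval u (r.coeff 0) + aeval u (r.coeff 1) * y = 0 := fun y hy => by
      have h1 := aeval_eq_zero_of_cuspPoly_eq_zero h (v := (Fin.cons y u : Fin 4 → ℂ))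
        (by simpa using hy) (by simpa using hu)
      rw [aeval_cons_eq, ← he, ← Polynomial.modByMonic_add_div (e A) m,
        Polynomial.eval₂_add, Polynomial.eval₂_mul, ← hr] at h1
      have hm0 : Polynomial.eval₂ (aeval u).toRingHom y m = 0 := by
        simp [m, Polynomial.eval₂_pow, hy]
      rw [hm0, zero_mul, add_zero, Polynomial.eval₂_eq_sum_range' _ hdeg, sum_range_succ,
        sum_range_one] at h1
      simpa using h1
    have k1 := key x hx
    have k2 := key (-x) (by linear_combination hx)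
    constructor
    · linear_combination (k1 + k2) / 2
    · exact mul_right_cancel₀ hx0 (by linear_combination (k1 - k2) / 2)
  have hcoef : ∀ i, i < 2 → r.coeff i = 0 := fun i hi => by
    have h1 : MvPolynomial.map (Int.castRingHom ℂ) (r.coeff i * X 0) = 0 := by
      refine MvPolynomial.funext fun u => ?_
      rw [map_mul, map_X, map_zero, eval_mul, eval_X, eval_map, ← algebraMap_int_eq, ← aeval_def]
      rcases eq_or_ne (u 0) 0 with h0 | h0
      · rw [h0, mul_zero]
      · interval_cases i <;> simp [hzero u h0]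
    have h2 := (map_injective _ (RingHom.injective_int (Int.castRingHom ℂ))).eq_iff.1
      (h1.trans (map_zero (MvPolynomial.map (Int.castRingHom ℂ))).symm)
    exact (mul_eq_zero.1 h2).resolve_right (X_ne_zero 0)
  ext1 i
  rcases lt_or_ge i 2 with hi | hi
  · rw [hcoef i hi, Polynomial.coeff_zero]
  · rw [Polynomial.coeff_eq_zero_of_natDegree_lt (hdeg.trans_le hi), Polynomial.coeff_zero]

theorem abs_coeff_le_of_mul {A A₁ : MvPolynomial (Fin 4) ℤ} (h : A = deltaPoly * A₁)
    (m : Fin 4 →₀ ℕ) : |((coeff m A₁ : ℤ) : ℝ)| ≤ ((m 1 : ℕ) + 1) * len A := by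
  classical
  suffices H : ∀ n, ∀ m : Fin 4 →₀ ℕ, m 1 = n →
      |((coeff m A₁ : ℤ) : ℝ)| ≤ ((n : ℝ) + 1) * len A from H _ m rfl
  intro n
  induction n using Nat.strong_induction_on with | _ n ih => ?_
  intro m hm
  set s : Fin 4 →₀ ℕ := m + Finsupp.single 0 2 with hs
  have e : coeff s A = coeff m A₁ -
      if Finsupp.single 1 3 ≤ s then coeff (s - Finsupp.single 1 3) A₁ else 0 := by
    rw [h, deltaPoly, sub_mul, coeff_sub, X_pow_eq_monomial, X_pow_eq_monomial, hs,
      add_comm m, coeff_monomial_mul, coeff_monomial_mul']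
    simp
  have hA := FA.Roth.abs_coeff_le_len A s
  split_ifs at e with hle
  · have h3 : 3 ≤ n := by
      have := hle 1
      simp [hs, hm] at this
      exact this
    have h1 := ih (n - 3) (by omega) (s - Finsupp.single 1 3) (by simp [hs, hm])
    rw [show coeff m A₁ = coeff s A + coeff (s - Finsupp.single 1 3) A₁ by linarith, Int.cast_add]
    refine ((abs_add_le _ _).trans (add_le_add hA h1)).trans ?_
    rw [Nat.cast_sub h3, Nat.cast_ofNat]
    nlinarith [FA.Roth.len_nonneg A]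
  · rw [show coeff m A₁ = coeff s A by linarith]
    exact hA.trans (le_mul_of_one_le_left (FA.Roth.len_nonneg _)
      (by linarith [Nat.cast_nonneg (α := ℝ) n]))

theorem totalDegree_deltaPoly : 3 ≤ deltaPoly.totalDegree := by
  classical
  have h : (Finsupp.single (1 : Fin 4) 3) ∈ deltaPoly.support := by
    rw [mem_support_iff, deltaPoly, coeff_sub, coeff_X_pow, coeff_X_pow, if_pos rfl, if_neg]
    · norm_num
    · intro e
      simpa using DFunLike.congr_fun e 1
  refine le_trans ?_ (le_totalDegree h)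
  simp

/-- **Removing the discriminant.** -/
theorem exists_reduction {A : MvPolynomial (Fin 4) ℤ} (hA : A ≠ 0) {D : ℕ}
    (hD : A.totalDegree ≤ D) :
    ∃ (j : ℕ) (A₁ : MvPolynomial (Fin 4) ℤ), A = deltaPoly ^ j * A₁ ∧ cuspPoly A₁ ≠ 0 ∧ j ≤ D ∧
      A₁.totalDegree ≤ D ∧ len A₁ ≤ ((D + 1 : ℕ) ^ 5 : ℝ) ^ j * len A := by
  induction D using Nat.strong_induction_on generalizing A with | _ D ih => ?_
  by_cases hc : cuspPoly A = 0
  swap
  · exact ⟨0, A, by simp, hc, Nat.zero_le _, hD, by simp⟩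
  obtain ⟨A', hA'⟩ := deltaPoly_dvd hc
  have hne : deltaPoly ≠ 0 ∧ A' ≠ 0 := mul_ne_zero_iff.1 (hA' ▸ hA)
  have hdeg : A'.totalDegree + 3 ≤ D := by
    have h := totalDegree_mul_of_isDomain hne.1 hne.2
    rw [← hA'] at h
    have := totalDegree_deltaPoly
    omega
  obtain ⟨j, A₁, h1, h2, hj, h3, h4⟩ := ih (D - 3) (by omega) hne.2 (by omega)
  refine ⟨j + 1, A₁, by rw [hA', h1, pow_succ']; ring, h2, by omega, by omega, h4.trans ?_⟩
  have hl : len A' ≤ ((D + 1 : ℕ) ^ 5 : ℝ) * len A := by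
    refine (len_le_of_abs_coeff_le (D := D) (b := (D + 1 : ℕ) * len A)
      (by positivity [FA.Roth.len_nonneg A]) (by omega) fun s => ?_).trans_eq ?_
    · by_cases hs : s ∈ A'.support
      · refine (abs_coeff_le_of_mul hA' s).trans (mul_le_mul_of_nonneg_right ?_
          (FA.Roth.len_nonneg A))
        have : s 1 ≤ D := (Finsupp.le_degree 1 s).trans
          (((Finsupp.degree_apply s).trans_le (le_totalDegree hs)).trans (by omega))
        push_cast
        exact_mod_cast Nat.add_le_add_right this 1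
      · rw [notMem_support_iff.1 hs]
        simp
        positivity [FA.Roth.len_nonneg A]
    · rw [Fintype.card_fin]
      ring
  rw [pow_succ (((D + 1 : ℕ) : ℝ) ^ 5) j, mul_assoc]
  refine mul_le_mul (pow_le_pow_left₀ (by positivity) (pow_le_pow_left₀ (by positivity)
    (by exact_mod_cast (by omega : D - 3 + 1 ≤ D + 1)) _) _) hl (FA.Roth.len_nonneg _)
    (by positivity)

theorem ser_deltaPoly : ser deltaPoly = PowerSeries.X *
    (-1728 * dedekindEtaUnit : PowerSeries ℤ) := by
  have h : ser deltaPoly = FA.Tau.eSixInt ^ 2 - FA.Tau.eFourInt ^ 3 := by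
    simp [ser, deltaPoly, eis]
  rw [h, ← neg_sub, ← FA.Tau.delta_eq, FA.Tau.deltaInt]
  ring

/-- Each factor `R² - Q³` takes one order of vanishing. -/
theorem X_pow_dvd_of_mul {j M : ℕ} {A₁ : MvPolynomial (Fin 4) ℤ}
    (h : PowerSeries.X ^ M ∣ ser (deltaPoly ^ j * A₁)) : PowerSeries.X ^ (M - j) ∣ ser A₁ := by
  rcases le_or_gt M j with hMj | hMj
  · simp [Nat.sub_eq_zero_of_le hMj]
  have e : ser (deltaPoly ^ j * A₁) =
      PowerSeries.X ^ j * ((-1728 * dedekindEtaUnit : PowerSeries ℤ) ^ j * ser A₁) := by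
    rw [ser, map_mul, map_pow, ← ser, ← ser, ser_deltaPoly, mul_pow]
    ring
  rw [e, show M = j + (M - j) by omega, pow_add, mul_dvd_mul_iff_left
    (pow_ne_zero _ PowerSeries.X_ne_zero)] at h
  refine PowerSeries.X_prime.pow_dvd_of_dvd_mul_left _ (fun hd => ?_) h
  rw [PowerSeries.X_dvd_iff, map_pow, map_mul, ModularCurve.constantCoeff_dedekindEtaUnit,
    mul_one, map_neg, map_ofNat] at hd
  exact pow_ne_zero _ (by norm_num) hd

end FA.Nesterenko

end
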