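import Fermat.Agent.Nesterenko.Cusp
import Fermat.Agent.Nesterenko.Interpolation
import Fermat.Agent.Nesterenko.Reduction
import Mathlib.Analysis.SpecialFunctions.Log.Basic
import Mathlib.Analysis.Real.Pi.Bounds

/-!
# A vanishing order makes the cusp polynomial small

A polynomial in `R, Q, P, z` of high order at the origin is small near the roots of unity of prime
order, where it is the cusp polynomial up to exponentially small terms; orthogonality and two
interpolations make all integral coefficients smaller than one.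
-/

set_option autoImplicit false

noncomputable section

namespace FA.Nesterenko

open MvPolynomial Finset
open FA.Roth (len)
open scoped Real

/-- A monomial in three variables. -/
def triple (i j k : ℕ) : Fin 3 →₀ ℕ := Finsupp.equivFunOnFinite.symm ![i, j, k]

theorem triple_apply (i j k : ℕ) (l : Fin 3) : triple i j k l = ![i, j, k] l := rfl

theorem aeval_eq_sum_box {P : MvPolynomial (Fin 3) ℤ} {n : ℕ} (hn : P.totalDegree ≤ n)
    (v : Fin 3 → ℂ) : aeval v P = ∑ i ∈ range (n + 1), ∑ j ∈ range (n + 1), ∑ k ∈ range (n + 1),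
      ((coeff (triple i j k) P : ℤ) : ℂ) * (v 0 ^ i * v 1 ^ j * v 2 ^ k) := by
  classical
  set box := range (n + 1) ×ˢ (range (n + 1) ×ˢ range (n + 1)) with hbox
  have hsub : P.support ⊆ box.image fun p => triple p.1 p.2.1 p.2.2 := fun d hd => by
    have h : ∀ l, d l < n + 1 := fun l => Nat.lt_succ_of_le
      (((Finsupp.le_degree l d).trans_eq (Finsupp.degree_apply d)).trans
        ((le_totalDegree hd).trans hn))
    refine mem_image.2 ⟨(d 0, d 1, d 2), by simp only [hbox, mem_product, mem_range, h, and_self],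
      ?_⟩
    ext l
    fin_cases l <;> simp [triple_apply]
  rw [aeval_def, eval₂_eq',
    sum_subset hsub fun d _ hd => by simp [notMem_support_iff.1 hd],
    sum_image fun p _ q _ h => ?_, hbox, sum_product]
  · refine sum_congr rfl fun i _ => ?_
    rw [sum_product]
    refine sum_congr rfl fun j _ => sum_congr rfl fun k _ => ?_
    simp [Fin.prod_univ_three, triple_apply]
  · have h' := fun l => DFunLike.congr_fun h l
    have h0 := h' 0
    have h1 := h' 1
    have h2 := h' 2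
    simp only [triple_apply, Matrix.cons_val_zero, Matrix.cons_val_one, Matrix.cons_val] at h0 h1 h2
    exact Prod.ext h0 (Prod.ext h1 h2)

theorem totalDegree_cuspPoly_le {A : MvPolynomial (Fin 4) ℤ} {D : ℕ} (hD : A.totalDegree ≤ D) :
    (cuspPoly A).totalDegree ≤ 6 * D := by
  refine totalDegree_aeval_le hD fun i => ?_
  fin_cases i
  · simp [cuspImage]
  · simp [cuspImage]
  · simp only [cuspImage, Fin.reduceFinMk, Matrix.cons_val]
    refine (totalDegree_add _ _).trans (max_le ?_ ?_)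
    · simp
    · exact (totalDegree_mul _ _).trans (by simp)
  · simp [cuspImage]

theorem norm_slope_le : ‖slope‖ ≤ 2 ∧ 1 ≤ ‖slope‖ := by
  rw [norm_slope, div_le_iff₀ Real.pi_pos, le_div_iff₀ Real.pi_pos]
  constructor <;> linarith [Real.pi_gt_three, Real.pi_le_four]

/-- The comparison at one point near `exp (2π i a / c)`. -/
theorem norm_cuspPoly_le {A : MvPolynomial (Fin 4) ℤ} {D M C₀ : ℕ} (hD : A.totalDegree ≤ D)
    (hM : PowerSeries.X ^ M ∣ ser A) {a c Y : ℕ} (hac : a.Coprime c) (hc : 2 ≤ c) (hcC : c ≤ C₀)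
    (hlo : Real.sqrt M ≤ (c * Y : ℕ)) (hhi : ((c * Y : ℕ) : ℝ) ≤ 2 * Real.sqrt M)
    (hbig : 4 * (C₀ : ℝ) ≤ Real.sqrt M) :
    ‖aeval ![Complex.exp (2 * π * Complex.I * a / c) *
          Real.exp (-(2 * π / ((c : ℝ) ^ 2 * Y))), Complex.I * c * (Y : ℝ), slope * c]
        (cuspPoly A)‖ ≤
      len A * ((D + 1 : ℕ) * (10 ^ 8 * (M + 1 : ℝ) ^ 7) ^ (D + 1) *
        Real.exp (-(π * Real.sqrt M / (2 * C₀)))) := by
  set s := Real.sqrt M with hs
  have hcR : (2 : ℝ) ≤ c := by exact_mod_cast hc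
  have hCR : (c : ℝ) ≤ C₀ := Nat.cast_le.2 hcC
  have hs8 : 8 ≤ s := by linarith
  have hsq : s ^ 2 = M := Real.sq_sqrt (Nat.cast_nonneg M)
  push_cast at hlo hhi
  set t := (c : ℝ) * Y with ht
  have hY : (0 : ℝ) < Y := by nlinarith
  set B : ℝ := 10 ^ 8 * (M + 1 : ℝ) ^ 7 with hB
  set E := Real.exp (-(π * s / (2 * C₀))) with hE
  have hC0 : (0 : ℝ) < C₀ := by linarith
  have hπ := Real.pi_gt_three
  set x := 2 * π / ((c : ℝ) ^ 2 * Y) with hx
  have hcY : (c : ℝ) ^ 2 * Y = c * t := by rw [ht]; ring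
  have hden : c * t ≤ 2 * s * C₀ := by nlinarith
  have hden0 : 0 < c * t := by nlinarith
  have hM0 : (1 : ℝ) ≤ M := by nlinarith
  have hx0 : 0 < x := by positivity
  have hx2 : x / 2 ≤ 1 := by
    rw [hx, hcY, div_div, div_le_one (by positivity)]
    nlinarith [Real.pi_le_four]
  have hxM : 2 / (M : ℝ) ≤ x / 2 := by
    rw [hx, hcY, div_div, div_le_div_iff₀ (by linarith) (by positivity)]
    nlinarith
  set r := Real.exp (-(x / 2)) with hr
  have hr0 : 0 < r := Real.exp_pos _
  have hr1 : 1 / (M : ℝ) ≤ 1 - r := by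
    have h1 : r ≤ 1 / (1 + x / 2) := by
      rw [hr, Real.exp_neg, ← one_div]
      exact one_div_le_one_div_of_le (by linarith) (by linarith [Real.add_one_le_exp (x / 2)])
    have h2 : (1 : ℝ) / (1 + x / 2) ≤ 1 - x / 4 := by
      rw [div_le_iff₀ (by linarith)]
      nlinarith
    have : 1 / (M : ℝ) ≤ x / 4 := by
      calc 1 / (M : ℝ) = 2 / M / 2 := by ring
        _ ≤ x / 2 / 2 := by linarith
        _ = x / 4 := by ring
    linarith
  have hrlt : r < 1 := by
    have : 0 < 1 / (M : ℝ) := by positivity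
    linarith
  have hG : growth r ≤ B := by
    rw [growth, div_le_iff₀ (pow_pos (by linarith) 7)]
    have h1 : 1 ≤ ((M : ℝ) + 1) * (1 - r) := by
      have h3 := mul_le_mul_of_nonneg_left hr1 (show (0 : ℝ) ≤ M by linarith)
      rw [mul_one_div_cancel (by linarith)] at h3
      nlinarith
    have h2 : (1 : ℝ) ≤ ((M : ℝ) + 1) ^ 7 * (1 - r) ^ 7 := by
      rw [← mul_pow]
      exact one_le_pow₀ h1
    rw [hB, mul_assoc]
    nlinarith
  obtain ⟨q, hq, hcusp⟩ := exists_cusp hac (by omega) (Nat.cast_pos.2 (Nat.cast_pos.1 hY) :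
    (0 : ℝ) < Y)
  set z := Complex.exp (2 * π * Complex.I * a / c) *
    Real.exp (-(2 * π / ((c : ℝ) ^ 2 * Y))) with hz
  set w := Complex.I * c * ((Y : ℝ) : ℂ) with hw
  obtain ⟨h6, h4, h2⟩ := hcusp
  have hzn : ‖z‖ = Real.exp (-x) := by
    rw [hz, norm_mul, Complex.norm_exp, Complex.norm_real, Real.norm_of_nonneg (Real.exp_pos _).le]
    simp [Complex.div_re, hx]
  have hzr : ‖z‖ ≤ r := by rw [hzn, hr, Real.exp_le_exp]; linarith
  have hwn : ‖w‖ = t := by
    rw [hw, ht]; simp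
  -- the value
  obtain ⟨A', hA'⟩ := hM
  have hmaj := maj_ser A hD hr0.le hrlt
  rw [hA'] at hmaj
  have hval : ‖aeval (fun i => fn i z) A‖ ≤ len A * (B ^ D * E) := by
    rw [← val_ser A (hzr.trans_lt hrlt), hA', val_X_pow_mul, norm_mul, norm_pow]
    refine (mul_le_mul_of_nonneg_left ((hmaj.shift hr0).norm_val_le hzr)
      (pow_nonneg (norm_nonneg _) _)).trans ?_
    have e : ‖z‖ ^ M * (len A * growth r ^ D / r ^ M) = len A * (growth r ^ D * r ^ M) := by
      rw [hzn, hr, show -x = -(x / 2) + -(x / 2) by ring, Real.exp_add, mul_pow]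
      field_simp
    rw [e]
    refine mul_le_mul_of_nonneg_left (mul_le_mul (pow_le_pow_left₀
      (zero_le_one.trans (one_le_growth hr0.le hrlt)) hG _) ?_ (by positivity) (by positivity))
      (FA.Roth.len_nonneg _)
    rw [hr, hE, ← Real.exp_nat_mul, Real.exp_le_exp, mul_neg, neg_le_neg_iff]
    rw [hx, hcY, div_le_iff₀ (by positivity)]
    have : (M : ℝ) * (2 * π / (c * t) / 2) * (2 * C₀) = π * s * (2 * s * C₀) / (c * t) := by
      rw [← hsq]; field_simp
    rw [this, le_div_iff₀ hden0]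
    exact mul_le_mul_of_nonneg_left hden (by positivity)
  -- the main term
  have hqE : ‖q‖ ≤ E := by
    rw [hq, hE, Real.exp_le_exp, neg_le_neg_iff, div_le_iff₀ (by positivity)]
    nlinarith [mul_le_mul_of_nonneg_right hCR hY.le]
  have hqhalf : ‖q‖ ≤ 1 / 2 := by
    refine hqE.trans ?_
    rw [hE, Real.exp_neg, inv_le_comm₀ (Real.exp_pos _) (by norm_num)]
    have : 1 ≤ π * s / (2 * C₀) := by rw [le_div_iff₀ (by positivity)]; nlinarith
    linarith [Real.add_one_le_exp (π * s / (2 * C₀))]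
  have hB1 : 1 ≤ B := by
    rw [hB]
    nlinarith [one_le_pow₀ (show (1 : ℝ) ≤ M + 1 by linarith) (n := 7)]
  have ht6 : t ^ 6 ≤ 64 * (M + 1 : ℝ) ^ 3 := by
    calc t ^ 6 ≤ (2 * s) ^ 6 := pow_le_pow_left₀ (by linarith) hhi 6
      _ = 64 * (s ^ 2) ^ 3 := by ring
      _ ≤ 64 * (M + 1 : ℝ) ^ 3 := by rw [hsq]; gcongr; linarith
  have hcsq : (2 : ℝ) * (2 * (growth (1 / 2) + 1)) ≤ 2 * 10 ^ 8 := by norm_num [growth]
  have hM37 : (M + 1 : ℝ) ^ 3 * 64 * 10 ^ 8 ≤ B := by
    rw [hB, pow_add (M + 1 : ℝ) 3 4]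
    have h64 : (64 : ℝ) ≤ (M + 1 : ℝ) ^ 4 :=
      le_trans (by nlinarith) (le_self_pow₀ (by linarith) (by norm_num))
    nlinarith [show (0 : ℝ) ≤ (M + 1 : ℝ) ^ 3 by positivity]
  have ht1 : 1 ≤ t := by linarith
  have hpow : ∀ e ≤ 6, t ^ e ≤ t ^ 6 := fun e he => pow_le_pow_right₀ ht1 he
  set v₀ : Fin 4 → ℂ := ![w ^ 6, w ^ 4, w ^ 2 + slope * c * w, z] with hv₀
  have hv : ∀ i, ‖v₀ i‖ ≤ B := by
    have hbase : 64 * (M + 1 : ℝ) ^ 3 * 2 ≤ B := by
      rw [hB]
      nlinarith [pow_le_pow_right₀ (show (1 : ℝ) ≤ M + 1 by linarith) (show 3 ≤ 7 by norm_num)]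
    have hp : (0 : ℝ) ≤ (M + 1 : ℝ) ^ 3 := by positivity
    intro i
    fin_cases i
    · simp [hv₀, hwn]
      linarith [ht6]
    · simp [hv₀, hwn]
      linarith [ht6, hpow 4 (by norm_num)]
    · simp only [hv₀, Fin.reduceFinMk, Matrix.cons_val]
      refine (norm_add_le _ _).trans ?_
      rw [norm_pow, norm_mul (slope * (c : ℂ)) w, hwn, norm_mul, Complex.norm_natCast]
      have h1 : ‖slope‖ * c * t ≤ t ^ 2 := by
        rw [pow_two]
        refine mul_le_mul_of_nonneg_right ?_ (by linarith)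
        nlinarith [norm_slope_le.1]
      linarith [ht6, hpow 2 (by norm_num)]
    · simp [hv₀]
      linarith [hB1]
  have hfn : ∀ i, ‖fn i z‖ ≤ B := fun i => (norm_fn_le i hzr hrlt).trans hG
  have hdiff : ∀ i, ‖v₀ i - fn i z‖ ≤ B * E := by
    have key : ∀ i : Fin 4, i ≠ 3 → ∀ e ≤ 6, ‖w ^ e - w ^ e * fn i q‖ ≤ B * E := by
      intro i hi e he
      rw [← mul_one_sub, norm_mul, norm_pow, hwn, norm_sub_rev]
      refine (mul_le_mul ((hpow e he).trans ht6) ((norm_fn_sub_one_le i hi hqhalf).trans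
        (mul_le_mul (show 2 * (growth (1 / 2) + 1) ≤ (10 : ℝ) ^ 8 by linarith) hqE (norm_nonneg _)
          (by positivity))) (norm_nonneg _) (by positivity)).trans ?_
      rw [← mul_assoc]
      exact mul_le_mul_of_nonneg_right (le_trans (le_of_eq (by ring)) hM37) (Real.exp_pos _).le
    intro i
    fin_cases i
    · simp only [hv₀, Fin.zero_eta, Matrix.cons_val_zero]
      rw [h6]
      exact key 0 (by decide) 6 le_rfl
    · simp only [hv₀, Fin.mk_one, Matrix.cons_val_one, Matrix.cons_val_zero]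
      rw [h4]
      exact key 1 (by decide) 4 (by norm_num)
    · simp only [hv₀, Fin.reduceFinMk, Matrix.cons_val]
      rw [h2, add_sub_add_right_eq_sub]
      exact key 2 (by decide) 2 (by norm_num)
    · simp [hv₀, fn_three]
      positivity
  have hd := norm_aeval_sub_le hD hB1 (by positivity) hv hfn hdiff
  rw [aeval_cuspPoly]
  refine le_trans (norm_le_norm_sub_add _ (aeval (fun i => fn i z) A)) ((add_le_add hd hval).trans
    ?_)
  rw [← mul_add]
  refine mul_le_mul_of_nonneg_left ?_ (FA.Roth.len_nonneg _)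
  have h1 : B ^ D * E ≤ B ^ (D + 1) * E :=
    mul_le_mul_of_nonneg_right (pow_le_pow_right₀ hB1 D.le_succ) (Real.exp_pos _).le
  push_cast
  rw [pow_succ] at h1 ⊢
  linarith

end FA.Nesterenko

end
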