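import Fermat.Agent.Nesterenko.LineResultant
import Mathlib.RingTheory.Polynomial.GaussLemma
import Mathlib.RingTheory.UniqueFactorizationDomain.GCDMonoid
import Mathlib.RingTheory.Polynomial.UniqueFactorization
import Mathlib.FieldTheory.IsAlgClosed.Basic
import Mathlib.Analysis.Complex.Polynomial.Basic
import Mathlib.Data.Fintype.Pigeonhole

/-!
# The common zeros of two curves as a cycle

For an irreducible `f` not dividing `g` the common zeros are finite and carry multiplicities `μ`
with `lineRes f g l = c ∏ (X - p₀ - l p₁) ^ μ p` for every good `l`.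
-/

set_option autoImplicit false

noncomputable section

namespace FA.Nesterenko

open Finset Polynomial
open scoped nonZeroDivisors

/-- A point on the line coordinate `x + l y`. -/
def proj (l : ℤ) (p : Fin 2 → ℂ) : ℂ := p 0 + l * p 1

/-- A common zero. -/
def IsCommonZero (f g : MvPolynomial (Fin 2) ℤ) (p : Fin 2 → ℂ) : Prop :=
  MvPolynomial.aeval p f = 0 ∧ MvPolynomial.aeval p g = 0

theorem lineRes_ne_zero {f g : MvPolynomial (Fin 2) ℤ} (hf : Irreducible f)
    (hfd : 0 < f.totalDegree) (hfg : ¬f ∣ g) {l : ℤ} (hl : (topPoly f).eval (-l) ≠ 0) :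
    lineRes f g l ≠ 0 := by
  obtain ⟨hdeg, hlead⟩ := toXY_shear_lead hl
  set F := toXY (shear l f) with hF
  set G := toXY (shear l g) with hG
  have hFirr : Irreducible F := by
    rw [hF, ← shearEquiv_apply, MulEquiv.irreducible_iff, MulEquiv.irreducible_iff]
    exact hf
  have hFG : ¬F ∣ G := by
    rw [hF, hG, map_dvd_iff, ← shearEquiv_apply, ← shearEquiv_apply, map_dvd_iff]
    exact hfg
  have hprim : F.IsPrimitive := hFirr.isPrimitive (by rw [hdeg]; omega)
  set K := FractionRing (Polynomial ℤ)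
  have hco : IsCoprime (F.map (algebraMap (Polynomial ℤ) K))
      (G.map (algebraMap (Polynomial ℤ) K)) :=
    ((hprim.irreducible_iff_irreducible_map_fraction_map (K := K)).1 hFirr).coprime_iff_not_dvd.2
      fun h => hFG ((hprim.dvd_iff_fraction_map_dvd_fraction_map (K := K)).2 h)
  have hinj : Function.Injective (algebraMap (Polynomial ℤ) K) := IsFractionRing.injective _ _
  have h := resultant_ne_zero _ _ hco
  rw [natDegree_map_eq_of_injective hinj, natDegree_map_eq_of_injective hinj, resultant_map_map,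
    map_ne_zero_iff _ hinj, hdeg] at h
  have hn : G.natDegree ≤ g.totalDegree := (natDegree_toXY_le _).trans (totalDegree_shear l g).le
  rw [lineRes, ← hF, ← hG, ← Nat.add_sub_cancel' hn, resultant_add_right_deg _ _ _ _ _ le_rfl]
  refine mul_ne_zero (pow_ne_zero _ ?_) h
  rw [← hdeg, Polynomial.coeff_natDegree, hlead]
  simpa using hl

theorem lineRes_eq_zero_of_isCommonZero {f g : MvPolynomial (Fin 2) ℤ} (hf0 : f ≠ 0) (hg0 : g ≠ 0)
    (hfd : 0 < f.totalDegree) (l : ℤ) {p : Fin 2 → ℂ} (hp : IsCommonZero f g p) :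
    aeval (proj l p) (lineRes f g l) = 0 := by
  have h := norm_lineRes_le hf0 hg0 hfd l p
  rw [hp.1, hp.2, norm_zero, max_self, zero_mul] at h
  exact norm_le_zero_iff.1 h

theorem exists_isCommonZero_of_root {f g : MvPolynomial (Fin 2) ℤ} (hfd : 0 < f.totalDegree)
    {l : ℤ} (hl : (topPoly f).eval (-l) ≠ 0) {z : ℂ} (hz : aeval z (lineRes f g l) = 0) :
    ∃ p, IsCommonZero f g p ∧ proj l p = z := by
  obtain ⟨hdeg, hlead⟩ := toXY_shear_lead hl
  set φ := (aeval (R := ℤ) z).toRingHom with hφ
  set F := (toXY (shear l f)).map φ with hF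
  set G := (toXY (shear l g)).map φ with hG
  have hc : φ (toXY (shear l f)).leadingCoeff ≠ 0 := by
    rw [hlead, hφ]
    simpa using hl
  have hFdeg : F.natDegree = f.totalDegree := by
    rw [hF, natDegree_map_of_leadingCoeff_ne_zero _ hc, hdeg]
  have hGdeg : G.natDegree ≤ g.totalDegree := natDegree_map_toXY_shear_le g l z
  have hres : resultant F G = 0 := by
    have h : resultant F G f.totalDegree g.totalDegree = 0 := by
      rw [hF, hG, resultant_map_map]
      exact hz
    rw [← Nat.add_sub_cancel' hGdeg, resultant_add_right_deg _ _ _ _ _ le_rfl, mul_eq_zero] at h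
    rw [← hFdeg] at h
    refine h.resolve_left (pow_ne_zero _ ?_)
    rw [Polynomial.coeff_natDegree, leadingCoeff_ne_zero]
    exact ne_zero_of_natDegree_gt (show 0 < F.natDegree by omega)
  have hnc := (resultant_eq_zero_iff.1 hres).2
  rw [Polynomial.isCoprime_iff_aeval_ne_zero_of_isAlgClosed (k := ℂ) (K := ℂ) (p := F) (q := G)]
    at hnc
  push Not at hnc
  obtain ⟨y, hy1, hy2⟩ := hnc
  rw [coe_aeval_eq_eval] at hy1 hy2
  rw [hF, eval_map_toXY, aeval_shear] at hy1
  rw [hG, eval_map_toXY, aeval_shear] at hy2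
  refine ⟨_, ⟨hy1, hy2⟩, ?_⟩
  simp [proj]

theorem finite_setOf_isCommonZero {f g : MvPolynomial (Fin 2) ℤ} (hf : Irreducible f)
    (hfd : 0 < f.totalDegree) (hfg : ¬f ∣ g) : {p | IsCommonZero f g p}.Finite := by
  have hg0 : g ≠ 0 := fun e => hfg (e ▸ dvd_zero f)
  have hinf : {l : ℤ | (topPoly f).eval (-l) ≠ 0}.Infinite := by
    have h : {l : ℤ | (topPoly f).eval (-l) = 0}.Finite :=
      (finite_setOfPred_isRoot (topPoly_ne_zero hf.ne_zero)).preimage neg_injective.injOn
    exact h.infinite_compl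
  obtain ⟨a, ha⟩ := hinf.nonempty
  obtain ⟨b, hb, hab⟩ := (hinf.sdiff (Set.finite_singleton a)).nonempty
  refine Set.Finite.of_finite_image (f := fun p => (proj a p, proj b p))
    (((((lineRes f g a).map (Int.castRingHom ℂ)).roots.toFinset ×ˢ
      ((lineRes f g b).map (Int.castRingHom ℂ)).roots.toFinset).finite_toSet).subset ?_) ?_
  · rintro _ ⟨p, hp, rfl⟩
    rw [Finset.coe_product, Set.mem_prod, mem_coe, mem_coe, Multiset.mem_toFinset,
      Multiset.mem_toFinset,
      mem_roots_map_of_injective (RingHom.injective_int (Int.castRingHom ℂ))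
        (lineRes_ne_zero hf hfd hfg ha),
      mem_roots_map_of_injective (RingHom.injective_int (Int.castRingHom ℂ))
        (lineRes_ne_zero hf hfd hfg hb)]
    exact ⟨lineRes_eq_zero_of_isCommonZero hf.ne_zero hg0 hfd a hp,
      lineRes_eq_zero_of_isCommonZero hf.ne_zero hg0 hfd b hp⟩
  · intro p _ q _ e
    obtain ⟨e1, e2⟩ := Prod.ext_iff.1 e
    simp only [proj] at e1 e2
    have hne : (a : ℂ) - b ≠ 0 := sub_ne_zero.2 (Int.cast_injective.ne fun h => hab h.symm)
    have h1 : p 1 = q 1 := mul_left_cancel₀ hne (by linear_combination e1 - e2)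
    funext i
    fin_cases i
    · simp only [Fin.zero_eta]
      rw [h1] at e1
      linear_combination e1
    · exact h1

/-- A good line coordinate. -/
def IsGood (f : MvPolynomial (Fin 2) ℤ) (S : Finset (Fin 2 → ℂ)) (l : ℤ) : Prop :=
  (topPoly f).eval (-l) ≠ 0 ∧ Set.InjOn (proj l) S

/-- The coordinates that are not good. -/
theorem exists_bad_set {f : MvPolynomial (Fin 2) ℤ} (hf : f ≠ 0) (S : Finset (Fin 2 → ℂ)) :
    ∃ E : Finset ℤ, E.card ≤ f.totalDegree + S.card * S.card ∧ ∀ l, l ∉ E → IsGood f S l := by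
  classical
  set bad : (Fin 2 → ℂ) × (Fin 2 → ℂ) → ℤ := fun pq =>
    if h : ∃ l : ℤ, proj l pq.1 = proj l pq.2 then h.choose else 0 with hbad
  refine ⟨((topPoly f).roots.toFinset.image fun r => -r) ∪ (S ×ˢ S).image bad, ?_, fun l hl => ?_⟩
  · refine (card_union_le _ _).trans (Nat.add_le_add (card_image_le.trans ?_) ?_)
    · exact (Multiset.toFinset_card_le _).trans ((card_roots' _).trans (natDegree_topPoly_le f))
    · exact card_image_le.trans (card_product S S).le
  · rw [mem_union, not_or] at hl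
    refine ⟨fun h => hl.1 (mem_image.2 ⟨-l, ?_, neg_neg l⟩), fun p hp q hq e => ?_⟩
    · rw [Multiset.mem_toFinset, mem_roots (topPoly_ne_zero hf)]
      exact h
    · by_contra hpq
      refine hl.2 (mem_image.2 ⟨(p, q), mem_product.2 ⟨hp, hq⟩, ?_⟩)
      have hex : ∃ l : ℤ, proj l (p, q).1 = proj l (p, q).2 := ⟨l, e⟩
      simp only [hbad, dif_pos hex]
      have he := hex.choose_spec
      generalize hex.choose = j at he ⊢
      simp only [proj] at he e
      by_contra hne
      have hne' : (j : ℂ) - l ≠ 0 := sub_ne_zero.2 (Int.cast_injective.ne hne)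
      have h1 : p 1 = q 1 := mul_left_cancel₀ hne' (by linear_combination he - e)
      refine hpq (funext fun i => ?_)
      fin_cases i
      · simp only [Fin.zero_eta]
        rw [h1] at e
        linear_combination e
      · exact h1

/-- The resultant with the line coordinate a variable. -/
def pencilRes (f g : MvPolynomial (Fin 2) ℤ) : Polynomial (Polynomial ℤ) :=
  resultant (MvPolynomial.aeval ![C X - C (C X) * X, X] f)
    (MvPolynomial.aeval ![C X - C (C X) * X, X] g) f.totalDegree g.totalDegree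

theorem map_pencilRes (f g : MvPolynomial (Fin 2) ℤ) (l : ℤ) :
    (pencilRes f g).map (evalRingHom l) = lineRes f g l := by
  have h : ∀ P : MvPolynomial (Fin 2) ℤ,
      (MvPolynomial.aeval ![C X - C (C X) * X, X] P : Polynomial (Polynomial (Polynomial ℤ))).map
        (mapRingHom (evalRingHom l)) = toXY (shear l P) := by
    intro P
    have h1 : (mapRingHom (mapRingHom (evalRingHom l))).comp
        (MvPolynomial.aeval
          (![C X - C (C X) * X, X] : Fin 2 → Polynomial (Polynomial (Polynomial ℤ)))).toRingHom =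
        toXY.toRingHom.comp (shear l).toRingHom := by
      refine MvPolynomial.ringHom_ext (fun c => ?_) fun i => ?_
      · simp
      · fin_cases i <;> simp [shear, shearImage, toXY, toXYHom]
    exact RingHom.congr_fun h1 P
  rw [lineRes, ← h, ← h, resultant_map_map, pencilRes]
  rfl

/-- **The cycle of common zeros.** -/
theorem exists_multiplicities {f g : MvPolynomial (Fin 2) ℤ} (hf : Irreducible f)
    (hfd : 0 < f.totalDegree) (hfg : ¬f ∣ g) :
    ∃ (S : Finset (Fin 2 → ℂ)) (μ : (Fin 2 → ℂ) → ℕ),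
      (∀ p, p ∈ S ↔ IsCommonZero f g p) ∧
      ∀ l, IsGood f S l → (lineRes f g l).map (Int.castRingHom ℂ) =
        C (((lineRes f g l).leadingCoeff : ℤ) : ℂ) *
          ∏ p ∈ S, (X - C (proj l p)) ^ μ p := by
  classical
  set ι := Int.castRingHom ℂ
  have hι : Function.Injective ι := RingHom.injective_int _
  set S := (finite_setOf_isCommonZero hf hfd hfg).toFinset with hS
  have hmem : ∀ p, p ∈ S ↔ IsCommonZero f g p := fun p => by simp [hS]
  set A := 2 * f.totalDegree * g.totalDegree
  -- for each good coordinate separately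
  have hone : ∀ l, IsGood f S l → ∃ ν : (Fin 2 → ℂ) → ℕ, (∀ p, ν p ≤ A) ∧
      (lineRes f g l).map ι = C (((lineRes f g l).leadingCoeff : ℤ) : ℂ) *
        ∏ p ∈ S, (X - C (proj l p)) ^ ν p := by
    intro l hl
    set G := (lineRes f g l).map ι with hG
    refine ⟨fun p => rootMultiplicity (proj l p) G, fun p => ?_, ?_⟩
    · have hG0 : G ≠ 0 := (Polynomial.map_ne_zero_iff hι).2 (lineRes_ne_zero hf hfd hfg hl.1)
      show rootMultiplicity (proj l p) G ≤ A
      rw [← count_roots]
      exact (Multiset.count_le_card _ _).trans ((card_roots' _).trans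
        (natDegree_map_le.trans (natDegree_lineRes_le f g l)))
    · have hsub : G.roots.toFinset ⊆ S.image (proj l) := fun z hz => by
        rw [Multiset.mem_toFinset, hG, mem_roots_map_of_injective hι
          (lineRes_ne_zero hf hfd hfg hl.1)] at hz
        obtain ⟨p, hp, hpz⟩ := exists_isCommonZero_of_root hfd hl.1 (z := z) hz
        exact mem_image.2 ⟨p, (hmem p).2 hp, hpz⟩
      conv_lhs => rw [(IsAlgClosed.splits G).eq_prod_roots]
      rw [hG, leadingCoeff_map_of_injective hι, ← hG, prod_multiset_map_count,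
        prod_subset hsub (fun z _ hz => by
          rw [Multiset.count_eq_zero.2 fun hm => hz (Multiset.mem_toFinset.2 hm), pow_zero]),
        prod_image hl.2]
      simp [count_roots, ι]
  choose ν hν hνeq using hone
  -- infinitely many share their multiplicities
  obtain ⟨E, -, hE⟩ := exists_bad_set hf.ne_zero S
  have hinf : {l : ℤ | IsGood f S l}.Infinite :=
    E.finite_toSet.infinite_compl.mono fun l hl => hE l hl
  have : Infinite {l : ℤ | IsGood f S l} := hinf.to_subtype
  obtain ⟨v, hv⟩ := Finite.exists_infinite_fiber (fun l : {l : ℤ | IsGood f S l} =>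
    fun p : S => (⟨ν l.1 l.2 p, Nat.lt_succ_of_le (hν _ _ _)⟩ : Fin (A + 1)))
  set μ : (Fin 2 → ℂ) → ℕ := fun p => if h : p ∈ S then (v ⟨p, h⟩ : ℕ) else 0 with hμ
  refine ⟨S, μ, hmem, fun l hl => ?_⟩
  -- the identity in the line coordinate
  set R := (pencilRes f g).map (mapRingHom ι) with hR
  set Φ : Polynomial (Polynomial ℂ) := ∏ p ∈ S, (X - C (C (p 0) + C (p 1) * X)) ^ μ p with hΦ
  have hΦmap : ∀ x : ℤ, Φ.map (evalRingHom (x : ℂ)) =
      ∏ p ∈ S, (X - C (proj x p)) ^ μ p := fun x => by
    rw [hΦ, Polynomial.map_prod]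
    refine prod_congr rfl fun p _ => ?_
    simp only [Polynomial.map_pow, Polynomial.map_sub, map_X, map_C, coe_evalRingHom, eval_add,
      eval_mul, eval_C, eval_X, proj]
    rw [mul_comm (p 1)]
  have hRmap : ∀ x : ℤ, R.map (evalRingHom (x : ℂ)) = (lineRes f g x).map ι := fun x => by
    rw [hR, ← map_pencilRes f g x, Polynomial.map_map, Polynomial.map_map]
    congr 1
    refine ringHom_ext (fun a => ?_) ?_ <;> simp [ι]
  have hmonic : ∀ x : ℤ, (∏ p ∈ S, (X - C (proj x p)) ^ μ p).Monic := fun x =>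
    monic_prod_of_monic _ _ fun p _ => (monic_X_sub_C _).pow _
  set d := ∑ p ∈ S, μ p
  have hd : ∀ x : ℤ, (∏ p ∈ S, (X - C (proj x p)) ^ μ p).natDegree = d := fun x => by
    rw [natDegree_prod_of_monic _ _ fun p _ => (monic_X_sub_C _).pow _]
    simp [d]
  have hid : R = C (R.coeff d) * Φ := by
    ext1 k
    refine eq_of_infinite_eval_eq _ _ ?_
    have hinj : Function.Injective
        fun l : {l : {l : ℤ | IsGood f S l} // (fun p : S => (⟨ν l.1 l.2 p,
          Nat.lt_succ_of_le (hν _ _ _)⟩ : Fin (A + 1))) = v} => ((l.1.1 : ℤ) : ℂ) :=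
      fun a b e => Subtype.ext (Subtype.ext (Int.cast_injective e))
    have : Infinite {l : {l : ℤ | IsGood f S l} // (fun p : S => (⟨ν l.1 l.2 p,
          Nat.lt_succ_of_le (hν _ _ _)⟩ : Fin (A + 1))) = v} := hv
    refine (Set.infinite_range_of_injective hinj).mono ?_
    rintro _ ⟨⟨⟨x, hx⟩, hxv⟩, rfl⟩
    show (R.coeff k).eval (x : ℂ) = ((C (R.coeff d) * Φ).coeff k).eval (x : ℂ)
    have hfac : (lineRes f g x).map ι = C (((lineRes f g x).leadingCoeff : ℤ) : ℂ) *
        ∏ p ∈ S, (X - C (proj x p)) ^ μ p := by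
      rw [hνeq x hx]
      refine congrArg _ (prod_congr rfl fun p hp => ?_)
      rw [show μ p = (v ⟨p, hp⟩ : ℕ) by simp [hμ, hp], ← congrFun hxv ⟨p, hp⟩]
    have e1 : (R.coeff d).eval (x : ℂ) = (((lineRes f g x).leadingCoeff : ℤ) : ℂ) := by
      have h1 := (hmonic x).coeff_natDegree
      rw [hd x] at h1
      rw [← coe_evalRingHom, ← coeff_map, hRmap, hfac, coeff_C_mul, h1, mul_one]
    rw [← coe_evalRingHom, ← coeff_map, hRmap, ← coeff_map, Polynomial.map_mul, map_C, hΦmap,
      coe_evalRingHom, e1, hfac]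
  have h := congrArg (Polynomial.map (evalRingHom (l : ℂ))) hid
  rw [hRmap, Polynomial.map_mul, map_C, hΦmap] at h
  have hlc := congrArg leadingCoeff h
  rw [leadingCoeff_map_of_injective hι, leadingCoeff_mul, leadingCoeff_C, (hmonic l).leadingCoeff,
    mul_one] at hlc
  rw [h, ← hlc]
  rfl

end FA.Nesterenko

end
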