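import Fermat.Agent.Nesterenko.IntegralProduct
import Fermat.Agent.Nesterenko.Projection
import Mathlib.FieldTheory.AlgebraicClosure
import Mathlib.FieldTheory.Galois.Infinite
import Mathlib.RingTheory.Polynomial.RationalRoot
import Mathlib.Analysis.Polynomial.MahlerMeasure

/-!
# Values of integer polynomials on the cycle of common zeros

The product of `h_p (p) ^ μ p` over the common zeros, times powers of the leads of two projections,
is a non-zero rational integer, for any choice of `h_p` that is the same at conjugate points.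
-/

set_option autoImplicit false

noncomputable section

namespace FA.Nesterenko

open Finset Polynomial
open FA.Roth (len)

variable {f g : MvPolynomial (Fin 2) ℤ} {S : Finset (Fin 2 → ℂ)} {μ : (Fin 2 → ℂ) → ℕ}

/-- The factorisation of the projections. -/
def IsCycle (f g : MvPolynomial (Fin 2) ℤ) (S : Finset (Fin 2 → ℂ)) (μ : (Fin 2 → ℂ) → ℕ) : Prop :=
  (∀ p, p ∈ S ↔ IsCommonZero f g p) ∧
    ∀ l, IsGood f S l → (lineRes f g l).map (Int.castRingHom ℂ) =
      C (((lineRes f g l).leadingCoeff : ℤ) : ℂ) * ∏ p ∈ S, (X - C (proj l p)) ^ μ p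

theorem roots_prod_proj (S : Finset (Fin 2 → ℂ)) (μ : (Fin 2 → ℂ) → ℕ) (l : ℤ) :
    (∏ p ∈ S, (X - C (proj l p)) ^ μ p).roots =
      S.val.bind fun p => Multiset.replicate (μ p) (proj l p) := by
  rw [roots_prod _ _ (prod_ne_zero_iff.2 fun p _ => pow_ne_zero _ (X_sub_C_ne_zero _))]
  refine congrArg _ (funext fun p => ?_)
  rw [roots_pow, roots_X_sub_C, Multiset.nsmul_singleton]

theorem mult_eq_rootMultiplicity (h : IsCycle f g S μ) {l : ℤ} (hl : IsGood f S l)
    (hne : lineRes f g l ≠ 0) {p : Fin 2 → ℂ} (hp : p ∈ S) :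
    rootMultiplicity (proj l p) ((lineRes f g l).map (Int.castRingHom ℂ)) = μ p := by
  classical
  rw [h.2 l hl, ← count_roots, roots_C_mul _ (by simpa using hne), roots_prod_proj,
    Multiset.count_bind]
  show (∑ q ∈ S, Multiset.count (proj l p) (Multiset.replicate (μ q) (proj l q))) = μ p
  rw [sum_eq_single p (fun q hq hqp => ?_) (fun hn => absurd hp hn), Multiset.count_replicate_self]
  rw [Multiset.count_replicate, if_neg fun e => hqp (hl.2 hq hp e)]

theorem sum_mult_le (h : IsCycle f g S μ) {l : ℤ} (hl : IsGood f S l) (hne : lineRes f g l ≠ 0) :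
    ∑ p ∈ S, μ p ≤ 2 * f.totalDegree * g.totalDegree := by
  refine le_trans (le_of_eq ?_) (natDegree_lineRes_le f g l)
  rw [← natDegree_map_eq_of_injective (RingHom.injective_int (Int.castRingHom ℂ)), h.2 l hl,
    natDegree_C_mul (by simpa using hne),
    natDegree_prod_of_monic _ _ fun p _ => (monic_X_sub_C _).pow _]
  simp

/-- The Mahler measure of a projection. -/
theorem lead_mul_prod_max_le (h : IsCycle f g S μ) {l : ℤ} (hl : IsGood f S l)
    (hne : lineRes f g l ≠ 0) :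
    |(((lineRes f g l).leadingCoeff : ℤ) : ℝ)| * ∏ p ∈ S, max 1 ‖proj l p‖ ^ μ p ≤
      GelfondCubic.len (lineRes f g l) := by
  refine le_trans (le_of_eq ?_) (GelfondCubic.mahler_le_len _)
  rw [GelfondCubic.mahler, mahlerMeasure_eq_leadingCoeff_mul_prod_roots,
    leadingCoeff_map_of_injective (RingHom.injective_int _), h.2 l hl,
    roots_C_mul _ (by simpa using hne), roots_prod_proj, Multiset.map_bind, Multiset.prod_bind,
    eq_intCast, Complex.norm_intCast]
  congr 1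
  show ∏ p ∈ S, max 1 ‖proj l p‖ ^ μ p = ∏ p ∈ S, _
  exact prod_congr rfl fun p _ => by simp

theorem norm_aeval_proj (h : IsCycle f g S μ) {l : ℤ} (hl : IsGood f S l) (v : Fin 2 → ℂ) :
    ‖Polynomial.aeval (proj l v) (lineRes f g l)‖ =
      |(((lineRes f g l).leadingCoeff : ℤ) : ℝ)| * ∏ p ∈ S, ‖proj l v - proj l p‖ ^ μ p := by
  rw [aeval_def, algebraMap_int_eq, ← eval_map, h.2 l hl, eval_mul, eval_C, norm_mul,
    Complex.norm_intCast, eval_prod, norm_prod]
  simp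

/-- The algebraic numbers. -/
abbrev Qbar : IntermediateField ℚ ℂ := algebraicClosure ℚ ℂ

theorem isIntegral_coord (h : IsCycle f g S μ) (hf : Irreducible f) (hfd : 0 < f.totalDegree)
    (hfg : ¬f ∣ g) {l₁ l₂ : ℤ} (h1 : IsGood f S l₁) (h2 : IsGood f S l₂) (hne : l₁ ≠ l₂)
    {p : Fin 2 → ℂ} (hp : p ∈ S) (i : Fin 2) : p i ∈ Qbar := by
  have hg0 : g ≠ 0 := fun e => hfg (e ▸ dvd_zero f)
  have key : ∀ l, IsGood f S l → proj l p ∈ Qbar := fun l hl => by
    refine mem_algebraicClosure_iff.2 ?_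
    have h0 := lineRes_eq_zero_of_isCommonZero hf.ne_zero hg0 hfd l ((h.1 p).1 hp)
    refine ⟨(lineRes f g l).map (Int.castRingHom ℚ),
      (Polynomial.map_ne_zero_iff (RingHom.injective_int _)).2
        (lineRes_ne_zero hf hfd hfg hl.1), ?_⟩
    rwa [← algebraMap_int_eq, aeval_map_algebraMap]
  have hc : ((l₁ : ℂ) - l₂) ≠ 0 := sub_ne_zero.2 (Int.cast_injective.ne hne)
  have hint : ∀ k : ℤ, (k : ℂ) ∈ Qbar := fun k => intCast_mem Qbar k
  have hp1 : p 1 ∈ Qbar := by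
    have e : p 1 = (proj l₁ p - proj l₂ p) / ((l₁ : ℂ) - l₂) := by
      simp only [proj]
      field_simp
      ring
    rw [e]
    exact div_mem (sub_mem (key _ h1) (key _ h2)) (sub_mem (hint _) (hint _))
  fin_cases i
  · have e : p 0 = proj l₁ p - (l₁ : ℂ) * p 1 := by simp [proj]
    simpa [e] using sub_mem (key _ h1) (mul_mem (hint _) hp1)
  · exact hp1

theorem coe_aeval_Qbar (v : Fin 2 → Qbar) (P : MvPolynomial (Fin 2) ℤ) :
    ((MvPolynomial.aeval v P : Qbar) : ℂ) = MvPolynomial.aeval (fun i => (v i : ℂ)) P := by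
  exact MvPolynomial.comp_aeval_apply (f := v) ((Qbar.val).restrictScalars ℤ) P

/-- A product over the cycle that only depends on the vanishing polynomials is rational. -/
theorem exists_rat_eq (h : IsCycle f g S μ) (hf : Irreducible f) (hfd : 0 < f.totalDegree)
    (hfg : ¬f ∣ g) {l₁ l₂ : ℤ} (h1 : IsGood f S l₁) (h2 : IsGood f S l₂) (hne : l₁ ≠ l₂)
    (P : (Fin 2 → ℂ) → MvPolynomial (Fin 2) ℤ)
    (hP : ∀ p ∈ S, ∀ q ∈ S, (∀ Q : MvPolynomial (Fin 2) ℤ,
      MvPolynomial.aeval p Q = 0 ↔ MvPolynomial.aeval q Q = 0) →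
      P p = P q) :
    ∃ r : ℚ, ∏ p ∈ S, MvPolynomial.aeval p (P p) ^ μ p = (r : ℂ) := by
  classical
  set lift : {p // p ∈ S} → Fin 2 → Qbar := fun p i =>
    ⟨p.1 i, isIntegral_coord h hf hfd hfg h1 h2 hne p.2 i⟩ with hlift
  set z : Qbar := ∏ p : {p // p ∈ S}, MvPolynomial.aeval (lift p) (P p.1) ^ μ p.1 with hz
  have hzc : (z : ℂ) = ∏ p ∈ S, MvPolynomial.aeval p (P p) ^ μ p := by
    rw [hz, IntermediateField.coe_prod,
      ← prod_coe_sort S (fun p => MvPolynomial.aeval p (P p) ^ μ p)]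
    refine prod_congr rfl fun p _ => ?_
    rw [SubmonoidClass.coe_pow, coe_aeval_Qbar]
  have : IsAlgClosure ℚ Qbar := algebraicClosure.isAlgClosure ℚ ℂ
  have : IsGalois ℚ Qbar := IsAlgClosure.isGalois ℚ Qbar
  suffices hfix : ∀ σ : Qbar ≃ₐ[ℚ] Qbar, σ z = z by
    obtain ⟨r, hr⟩ := IntermediateField.mem_bot.1 ((InfiniteGalois.mem_bot_iff_fixed z).2 hfix)
    refine ⟨r, ?_⟩
    rw [← hzc, ← hr]
    simp
  intro σ
  set act : {p // p ∈ S} → (Fin 2 → ℂ) := fun p i => (σ (lift p i) : ℂ) with hact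
  have hvan : ∀ p (Q : MvPolynomial (Fin 2) ℤ),
      MvPolynomial.aeval (act p) Q = 0 ↔ MvPolynomial.aeval p.1 Q = 0 := fun p Q => by
    have e : MvPolynomial.aeval (act p) Q = ((σ (MvPolynomial.aeval (lift p) Q) : Qbar) : ℂ) := by
      rw [hact, ← coe_aeval_Qbar (fun i => σ (lift p i)) Q]
      congr 1
      exact (MvPolynomial.comp_aeval_apply (f := lift p)
        ((σ : Qbar →ₐ[ℚ] Qbar).restrictScalars ℤ) Q).symm
    have e2 : MvPolynomial.aeval p.1 Q = ((MvPolynomial.aeval (lift p) Q : Qbar) : ℂ) :=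
      (coe_aeval_Qbar (lift p) Q).symm
    rw [e, e2, ZeroMemClass.coe_eq_zero, ZeroMemClass.coe_eq_zero, map_eq_zero]
  have hmem : ∀ p, act p ∈ S := fun p => (h.1 _).2
    ⟨(hvan p f).2 ((h.1 _).1 p.2).1, (hvan p g).2 ((h.1 _).1 p.2).2⟩
  set τ : {p // p ∈ S} → {p // p ∈ S} := fun p => ⟨act p, hmem p⟩
  have hτ : Function.Bijective τ := by
    refine Finite.injective_iff_bijective.1 fun p q e => Subtype.ext (funext fun i => ?_)
    have h3 := congrFun (congrArg Subtype.val e) i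
    have h4 : lift p i = lift q i := σ.injective (Subtype.ext h3)
    exact congrArg Subtype.val h4
  have hlift' : ∀ p, lift (τ p) = fun i => σ (lift p i) := fun p => by
    funext i
    exact Subtype.ext rfl
  have hne₁ := lineRes_ne_zero hf hfd hfg h1.1
  have hμ : ∀ p, μ (τ p).1 = μ p.1 := fun p => by
    set G := (lineRes f g l₁).map (Int.castRingHom Qbar)
    have hmap : G.map Qbar.val.toRingHom = (lineRes f g l₁).map (Int.castRingHom ℂ) := by
      rw [Polynomial.map_map]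
      exact congrArg (fun φ => (lineRes f g l₁).map φ) (RingHom.ext_int _ _)
    have hσG : G.map (σ : Qbar →+* Qbar) = G := by
      rw [Polynomial.map_map]
      exact congrArg (fun φ => (lineRes f g l₁).map φ) (RingHom.ext_int _ _)
    set α : Qbar := lift p 0 + (l₁ : Qbar) * lift p 1
    have hα : (α : ℂ) = proj l₁ p.1 := by simp [α, hlift, proj]
    have hσα : ((σ α : Qbar) : ℂ) = proj l₁ (τ p).1 := by simp [α, τ, hact, proj]
    rw [← mult_eq_rootMultiplicity h h1 hne₁ (τ p).2, ← mult_eq_rootMultiplicity h h1 hne₁ p.2,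
      ← hσα, ← hα, ← hmap]
    have hinj : Function.Injective Qbar.val.toRingHom := Qbar.val.toRingHom.injective
    refine (eq_rootMultiplicity_map hinj (σ α)).symm.trans (Eq.trans ?_
      (eq_rootMultiplicity_map hinj α))
    conv_lhs => rw [← hσG]
    exact (eq_rootMultiplicity_map σ.injective α).symm
  rw [hz, map_prod]
  refine Fintype.prod_bijective τ hτ _ _ fun p => ?_
  rw [map_pow, hμ, hlift' p, hP (τ p).1 (τ p).2 p.1 p.2 (hvan p)]
  congr 1
  exact MvPolynomial.comp_aeval_apply (f := lift p) ((σ : Qbar →ₐ[ℚ] Qbar).restrictScalars ℤ) _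

/-- The polynomial in two projections that `P` is, up to a power of `l₂ - l₁`. -/
def twoLines (l₁ l₂ : ℤ) (D : ℕ) (P : MvPolynomial (Fin 2) ℤ) : MvPolynomial (Fin 2) ℤ :=
  ∑ s ∈ P.support, MvPolynomial.C (MvPolynomial.coeff s P * (l₂ - l₁) ^ (D - (s 0 + s 1))) *
    ((MvPolynomial.C l₂ * MvPolynomial.X 0 - MvPolynomial.C l₁ * MvPolynomial.X 1) ^ s 0 *
      (MvPolynomial.X 1 - MvPolynomial.X 0) ^ s 1)

theorem totalDegree_twoLines_le (l₁ l₂ : ℤ) {D : ℕ} {P : MvPolynomial (Fin 2) ℤ}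
    (hP : P.totalDegree ≤ D) : (twoLines l₁ l₂ D P).totalDegree ≤ D := by
  refine MvPolynomial.totalDegree_finsetSum_le fun s hs => ?_
  refine (MvPolynomial.totalDegree_mul _ _).trans ?_
  rw [MvPolynomial.totalDegree_C, zero_add]
  refine (MvPolynomial.totalDegree_mul _ _).trans ?_
  have h1 : (MvPolynomial.C l₂ * MvPolynomial.X 0 - MvPolynomial.C l₁ * MvPolynomial.X 1 :
      MvPolynomial (Fin 2) ℤ).totalDegree ≤ 1 := by
    refine (MvPolynomial.totalDegree_sub _ _).trans (max_le ?_ ?_) <;>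
      exact (MvPolynomial.totalDegree_mul _ _).trans
        (by rw [MvPolynomial.totalDegree_C, zero_add, MvPolynomial.totalDegree_X])
  have h2 : (MvPolynomial.X 1 - MvPolynomial.X 0 : MvPolynomial (Fin 2) ℤ).totalDegree ≤ 1 :=
    (MvPolynomial.totalDegree_sub _ _).trans (max_le (by simp) (by simp))
  refine (Nat.add_le_add ((MvPolynomial.totalDegree_pow _ _).trans (Nat.mul_le_mul_left _ h1))
    ((MvPolynomial.totalDegree_pow _ _).trans (Nat.mul_le_mul_left _ h2))).trans ?_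
  rw [mul_one, mul_one]
  exact (add_le_totalDegree hs).trans hP

theorem aeval_twoLines (l₁ l₂ : ℤ) {D : ℕ} {P : MvPolynomial (Fin 2) ℤ} (hP : P.totalDegree ≤ D)
    (p : Fin 2 → ℂ) : MvPolynomial.aeval ![proj l₁ p, proj l₂ p] (twoLines l₁ l₂ D P) =
      ((l₂ : ℂ) - l₁) ^ D * MvPolynomial.aeval p P := by
  conv_rhs => rw [MvPolynomial.aeval_def, MvPolynomial.eval₂_eq', mul_sum]
  rw [twoLines, map_sum]
  refine sum_congr rfl fun s hs => ?_
  have hle := (add_le_totalDegree hs).trans hP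
  simp only [map_mul, map_pow, map_sub, map_intCast, MvPolynomial.aeval_X,
    Matrix.cons_val_zero, Matrix.cons_val_one, algebraMap_int_eq, eq_intCast, Fin.prod_univ_two,
    proj]
  rw [show (l₂ : ℂ) * (p 0 + l₁ * p 1) - l₁ * (p 0 + l₂ * p 1) = ((l₂ : ℂ) - l₁) * p 0 by ring,
    show p 0 + (l₂ : ℂ) * p 1 - (p 0 + l₁ * p 1) = ((l₂ : ℂ) - l₁) * p 1 by ring, mul_pow, mul_pow]
  conv_rhs => rw [← Nat.sub_add_cancel hle, pow_add, pow_add]
  ring

theorem integralCoeffs_map (P : Polynomial ℤ) : IntegralCoeffs (P.map (Int.castRingHom ℂ)) :=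
  fun k => by
    rw [coeff_map, ← algebraMap_int_eq]
    exact isIntegral_algebraMap

/-- **The lower bound for values on the cycle.** -/
theorem one_le_product (h : IsCycle f g S μ) (hf : Irreducible f) (hfd : 0 < f.totalDegree)
    (hfg : ¬f ∣ g) {l₁ l₂ : ℤ} (h1 : IsGood f S l₁) (h2 : IsGood f S l₂) (hne : l₁ ≠ l₂)
    (P : (Fin 2 → ℂ) → MvPolynomial (Fin 2) ℤ) {D : ℕ}
    (hP : ∀ p ∈ S, ∀ q ∈ S, (∀ Q : MvPolynomial (Fin 2) ℤ,
      MvPolynomial.aeval p Q = 0 ↔ MvPolynomial.aeval q Q = 0) →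
      P p = P q)
    (hD : ∀ p ∈ S, (P p).totalDegree ≤ D) (h0 : ∀ p ∈ S, MvPolynomial.aeval p (P p) ≠ 0) :
    1 ≤ |(((lineRes f g l₁).leadingCoeff : ℤ) : ℝ)| ^ D *
      |(((lineRes f g l₂).leadingCoeff : ℤ) : ℝ)| ^ D *
      |((l₂ - l₁ : ℤ) : ℝ)| ^ (D * ∑ p ∈ S, μ p) *
        ∏ p ∈ S, ‖MvPolynomial.aeval p (P p)‖ ^ μ p := by
  classical
  set a := (lineRes f g l₁).leadingCoeff with ha
  set b := (lineRes f g l₂).leadingCoeff with hb
  set U := S.sigma fun p => range (μ p) with hU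
  have hconv : ∀ l, IsGood f S l → IntegralCoeffs
      (C (((lineRes f g l).leadingCoeff : ℤ) : ℂ) * ∏ u ∈ U, (X - C (proj l u.1))) := by
    intro l hl
    rw [hU, prod_sigma]
    simp only [prod_const, card_range]
    rw [← h.2 l hl]
    exact integralCoeffs_map _
  have hint := isIntegral_prod_values U (hconv l₁ h1) (hconv l₂ h2) (D := D)
    (fun u => twoLines l₁ l₂ D (P u.1))
    (fun u hu => totalDegree_twoLines_le l₁ l₂ (hD u.1 (mem_sigma.1 hu).1))
  rw [hU, prod_sigma] at hint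
  simp only [prod_const, card_range] at hint
  obtain ⟨r, hr⟩ := exists_rat_eq h hf hfd hfg h1 h2 hne P hP
  have heq : ∏ p ∈ S, MvPolynomial.aeval ![proj l₁ p, proj l₂ p] (twoLines l₁ l₂ D (P p)) ^ μ p =
      ((l₂ : ℂ) - l₁) ^ (D * ∑ p ∈ S, μ p) * r := by
    rw [← hr, mul_sum, ← prod_pow_eq_pow_sum, ← prod_mul_distrib]
    exact prod_congr rfl fun p hp => by rw [aeval_twoLines l₁ l₂ (hD p hp), mul_pow, pow_mul]
  rw [heq] at hint
  set q : ℚ := (a : ℚ) ^ D * (b : ℚ) ^ D * (((l₂ - l₁ : ℤ) : ℚ) ^ (D * ∑ p ∈ S, μ p) * r) with hq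
  have hqc : (q : ℂ) = (a : ℂ) ^ D * (b : ℂ) ^ D *
      (((l₂ : ℂ) - l₁) ^ (D * ∑ p ∈ S, μ p) * r) := by
    rw [hq]; push_cast; ring
  rw [← hqc, show (q : ℂ) = algebraMap ℚ ℂ q from (eq_ratCast _ q).symm,
    isIntegral_algebraMap_iff (algebraMap ℚ ℂ).injective] at hint
  obtain ⟨m, hm⟩ := IsIntegrallyClosed.isIntegral_iff.1 hint
  have hprod0 : (r : ℂ) ≠ 0 := by
    rw [← hr]
    exact prod_ne_zero_iff.2 fun p hp => pow_ne_zero _ (h0 p hp)
  have hl : ((l₂ : ℂ) - l₁) ≠ 0 := sub_ne_zero.2 (Int.cast_injective.ne hne.symm)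
  have ha0 : a ≠ 0 := leadingCoeff_ne_zero.2 (lineRes_ne_zero hf hfd hfg h1.1)
  have hb0 : b ≠ 0 := leadingCoeff_ne_zero.2 (lineRes_ne_zero hf hfd hfg h2.1)
  have hq0 : (q : ℂ) ≠ 0 := by
    rw [hqc]
    exact mul_ne_zero (mul_ne_zero (pow_ne_zero _ (Int.cast_ne_zero.2 ha0))
      (pow_ne_zero _ (Int.cast_ne_zero.2 hb0))) (mul_ne_zero (pow_ne_zero _ hl) hprod0)
  have hm0 : m ≠ 0 := fun e => hq0 (by rw [← hm, e]; simp)
  have h1m : (1 : ℝ) ≤ ‖(q : ℂ)‖ := by
    rw [← hm, algebraMap_int_eq, eq_intCast, Rat.cast_intCast, Complex.norm_intCast]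
    exact_mod_cast Int.one_le_abs hm0
  refine h1m.trans (le_of_eq ?_)
  rw [hqc, ← hr, norm_mul, norm_mul, norm_mul, norm_pow, norm_pow, norm_pow, norm_prod,
    Complex.norm_intCast, Complex.norm_intCast, ← Int.cast_sub, Complex.norm_intCast]
  simp only [norm_pow]
  ring

end FA.Nesterenko

end
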