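import Fermat.Agent.Nesterenko.CycleProduct
import Mathlib.Analysis.SpecialFunctions.Pow.Real

/-!
# A heavy point of the cycle and the inequality for its weight

When two curves are small at `θ` many points of the cycle are close to `θ`; values of integer
polynomials on the cycle then bound their total multiplicity.
-/

set_option autoImplicit false

noncomputable section

namespace FA.Nesterenko

open Finset
open FA.Roth (len)

/-- Summation by layers. -/
theorem sum_mul_pow_four_le {ι : Type*} [DecidableEq ι] (w u : ι → ℝ) (hw : ∀ q, 0 ≤ w q)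
    {m Z : ℝ} (hZ : 0 ≤ Z) :
    ∀ (n : ℕ) (S : Finset ι), S.card = n → ∀ c, 0 ≤ c → c ≤ m → (∀ q ∈ S, c ≤ u q ∧ u q ≤ m) →
      (∀ p ∈ S, (∑ q ∈ S.filter (fun q => u p ≤ u q), w q) * u p ^ 3 ≤ Z) →
      ∑ q ∈ S, w q * (u q ^ 4 - c ^ 4) ≤ 4 * Z * (m - c) := by
  intro n
  induction n with
  | zero =>
    intro S hS c _ hcm _ _
    rw [card_eq_zero.1 hS, sum_empty]
    exact mul_nonneg (by linarith) (sub_nonneg.2 hcm)
  | succ n ih =>
    intro S hS c hc hcm hu hW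
    obtain ⟨p, hp, hmin⟩ := exists_min_image S u (card_pos.1 (by omega))
    obtain ⟨hcp, hpm⟩ := hu p hp
    have hup : 0 ≤ u p := hc.trans hcp
    have hrest := ih (S.erase p) (by rw [card_erase_of_mem hp]; omega) (u p) hup hpm
      (fun q hq => ⟨hmin q (mem_of_mem_erase hq), (hu q (mem_of_mem_erase hq)).2⟩)
      (fun q hq => (mul_le_mul_of_nonneg_right (sum_le_sum_of_subset_of_nonneg
        (filter_subset_filter _ (erase_subset p S)) fun _ _ _ => hw _)
        (pow_nonneg (hup.trans (hmin q (mem_of_mem_erase hq))) 3)).trans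
        (hW q (mem_of_mem_erase hq)))
    have hall := hW p hp
    rw [filter_eq_self.2 hmin] at hall
    have e : ∑ q ∈ S, w q * (u q ^ 4 - c ^ 4) = (∑ q ∈ S, w q) * (u p ^ 4 - c ^ 4) +
        ∑ q ∈ S.erase p, w q * (u q ^ 4 - u p ^ 4) := by
      rw [← sum_erase_add S (fun q => w q * (u q ^ 4 - c ^ 4)) hp, ← sum_erase_add S w hp]
      simp only [mul_sub, sum_sub_distrib, ← sum_mul]
      ring
    have h4 : u p ^ 4 - c ^ 4 ≤ 4 * u p ^ 3 * (u p - c) := by
      have := mul_nonneg (sq_nonneg (u p - c))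
        (show 0 ≤ 3 * u p ^ 2 + 2 * u p * c + c ^ 2 by positivity)
      nlinarith [this]
    have h5 : (∑ q ∈ S, w q) * (u p ^ 4 - c ^ 4) ≤ 4 * Z * (u p - c) := by
      calc (∑ q ∈ S, w q) * (u p ^ 4 - c ^ 4)
          ≤ (∑ q ∈ S, w q) * (4 * u p ^ 3 * (u p - c)) :=
            mul_le_mul_of_nonneg_left h4 (sum_nonneg fun q _ => hw q)
        _ = 4 * ((∑ q ∈ S, w q) * u p ^ 3) * (u p - c) := by ring
        _ ≤ 4 * Z * (u p - c) :=
            mul_le_mul_of_nonneg_right (by linarith) (sub_nonneg.2 hcp)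
    rw [e]
    linarith

variable {f g : MvPolynomial (Fin 2) ℤ} {S : Finset (Fin 2 → ℂ)} {μ : (Fin 2 → ℂ) → ℕ}

theorem card_le_of_isCycle (h : IsCycle f g S μ) (hf : Irreducible f) (hfd : 0 < f.totalDegree)
    (hfg : ¬f ∣ g) : S.card ≤ 2 * f.totalDegree * g.totalDegree := by
  classical
  obtain ⟨E, -, hE⟩ := exists_bad_set hf.ne_zero S
  obtain ⟨l, hl⟩ := E.finite_toSet.infinite_compl.nonempty
  have hg : g ≠ 0 := fun e => hfg (e ▸ dvd_zero f)
  have hgood := hE l hl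
  refine le_trans ?_ ((natDegree_lineRes_le f g l))
  rw [← Polynomial.natDegree_map_eq_of_injective
    (RingHom.injective_int (Int.castRingHom ℂ)) (lineRes f g l)]
  refine le_trans ?_ ((Multiset.toFinset_card_le _).trans (Polynomial.card_roots' _))
  rw [← card_image_of_injOn hgood.2]
  refine card_le_card fun z hz => ?_
  obtain ⟨p, hp, rfl⟩ := mem_image.1 hz
  rw [Multiset.mem_toFinset, Polynomial.mem_roots_map_of_injective
    (RingHom.injective_int (Int.castRingHom ℂ)) (lineRes_ne_zero hf hfd hfg hgood.1)]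
  exact lineRes_eq_zero_of_isCommonZero hf.ne_zero hg hfd l ((h.1 p).1 hp)

/-- The distance. -/
def dist2 (p θ : Fin 2 → ℂ) : ℝ := max ‖p 0 - θ 0‖ ‖p 1 - θ 1‖

/-- At most one line coordinate in `[0, L]` makes a point look too close. -/
theorem card_filter_close_le (p θ : Fin 2 → ℂ) (L : ℕ) :
    ((range (L + 1)).filter fun l : ℕ =>
      ‖proj l θ - proj l p‖ * (2 * L + 2) < dist2 p θ).card ≤ 1 := by
  refine card_le_one.2 fun a ha b hb => ?_
  rw [mem_filter, mem_range, Nat.lt_succ_iff] at ha hb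
  by_contra hab
  set dx := θ 0 - p 0
  set dy := θ 1 - p 1
  have hproj : ∀ l : ℕ, proj l θ - proj l p = dx + (l : ℂ) * dy := fun l => by
    simp only [proj, dx, dy, Int.cast_natCast]
    ring
  rw [hproj] at ha hb
  set δ := dist2 p θ
  have hδ : δ = max ‖dx‖ ‖dy‖ := by
    simp only [δ, dist2, dx, dy, norm_sub_rev]
  have hL : (0 : ℝ) ≤ L := Nat.cast_nonneg _
  have hint : (1 : ℝ) ≤ ‖((a : ℂ) - b)‖ := by
    rw [← Int.cast_natCast a, ← Int.cast_natCast b, ← Int.cast_sub, Complex.norm_intCast]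
    exact_mod_cast Int.one_le_abs (sub_ne_zero.2 (Int.ofNat_inj.not.2 hab))
  have hdy : ‖dy‖ ≤ ‖dx + (a : ℂ) * dy‖ + ‖dx + (b : ℂ) * dy‖ := by
    refine (le_mul_of_one_le_left (norm_nonneg _) hint).trans ?_
    rw [← norm_mul, show ((a : ℂ) - b) * dy = dx + a * dy - (dx + b * dy) by ring]
    exact norm_sub_le _ _
  have hdx : ‖dx‖ ≤ ‖dx + (a : ℂ) * dy‖ + L * ‖dy‖ := by
    refine le_trans ?_ (add_le_add le_rfl (mul_le_mul_of_nonneg_right (Nat.cast_le.2 ha.1)
      (norm_nonneg dy)))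
    calc ‖dx‖ = ‖dx + (a : ℂ) * dy - (a : ℂ) * dy‖ := by rw [add_sub_cancel_right]
      _ ≤ ‖dx + (a : ℂ) * dy‖ + ‖(a : ℂ) * dy‖ := norm_sub_le _ _
      _ = _ := by rw [norm_mul, Complex.norm_natCast]
  have h1 := mul_le_mul_of_nonneg_right hdy (show (0 : ℝ) ≤ 2 * L + 2 by positivity)
  have h2 := mul_le_mul_of_nonneg_right hdx (show (0 : ℝ) ≤ 2 * L + 2 by positivity)
  have h3 := mul_le_mul_of_nonneg_left h1 hL
  rcases max_choice ‖dx‖ ‖dy‖ with h | h <;> rw [h] at hδ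
  · have h4 : ‖dy‖ ≤ δ := by
      rw [hδ]
      exact (le_max_right _ _).trans h.le
    nlinarith [norm_nonneg dy, norm_nonneg dx, ha.2, hb.2]
  · nlinarith [norm_nonneg dy, norm_nonneg dx, ha.2, hb.2]

theorem log_le_of_le_exp {x y : ℝ} (hx : 0 < x) (h : x ≤ Real.exp y) : Real.log x ≤ y :=
  (Real.log_le_iff_le_exp hx).2 h

theorem pow_le_exp {x c d : ℝ} {n : ℕ} (hx0 : 0 ≤ x) (hc : 0 ≤ c) (hx : x ≤ Real.exp c)
    (hn : (n : ℝ) ≤ d) : x ^ n ≤ Real.exp (d * c) := by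
  refine (pow_le_pow_left₀ hx0 hx n).trans ?_
  rw [← Real.exp_nat_mul, Real.exp_le_exp]
  exact mul_le_mul_of_nonneg_right hn hc

/-- **A heavy point.** -/
theorem exists_heavy_point {θ : Fin 2 → ℂ} (hf : Irreducible f) (hfd : 0 < f.totalDegree)
    (hfg : ¬f ∣ g) (hθf : MvPolynomial.aeval θ f ≠ 0) {a b c U U₀ : ℝ} (ha : 1 ≤ a) (hb : 1 ≤ b)
    (hc : 1 ≤ c) (hfa : (f.totalDegree : ℝ) ≤ a) (hfl : len f ≤ Real.exp a)
    (hga : (g.totalDegree : ℝ) ≤ b) (hgl : len g ≤ Real.exp b) {L : ℕ}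
    (hL : 8 * (a * b) ^ 2 ≤ L) (hcL : 2 * (L : ℝ) + 2 ≤ Real.exp c)
    (hcθ : 1 + ‖θ 0‖ + ‖θ 1‖ ≤ Real.exp c) (hsm₁ : ‖MvPolynomial.aeval θ f‖ ≤ Real.exp (-U₀))
    (hsm₂ : ‖MvPolynomial.aeval θ g‖ ≤ Real.exp (-U₀)) (hU0 : 0 < U)
    (hU : U + 32 * (a * b * c) * c ≤ U₀) :
    ∃ S μ, IsCycle f g S μ ∧ ∃ l₁ l₂ : ℤ, IsGood f S l₁ ∧ IsGood f S l₂ ∧ l₁ ≠ l₂ ∧
      0 ≤ l₁ ∧ l₁ ≤ L ∧ 0 ≤ l₂ ∧ l₂ ≤ L ∧
      GelfondCubic.len (lineRes f g l₁) ≤ Real.exp (16 * (a * b * c)) ∧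
      GelfondCubic.len (lineRes f g l₂) ≤ Real.exp (16 * (a * b * c)) ∧
      ((∑ p ∈ S, μ p : ℕ) : ℝ) ≤ 16 * (a * b * c) ∧
      ∃ (T : Finset (Fin 2 → ℂ)) (s : ℝ), T ⊆ S ∧ 0 < s ∧ s ≤ U ∧
        U ^ (3 / 4 : ℝ) / 8 ≤ ((∑ p ∈ T, μ p : ℕ) : ℝ) * s ^ (3 / 4 : ℝ) ∧
        ∀ p ∈ T, ∀ i, ‖p i - θ i‖ ≤ Real.exp (-s) := by
  classical
  have hg0 : g ≠ 0 := fun e => hfg (e ▸ dvd_zero f)
  obtain ⟨S, μ, hmem, hfac⟩ := exists_multiplicities hf hfd hfg
  have hcyc : IsCycle f g S μ := ⟨hmem, hfac⟩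
  have hab : 1 ≤ a * b := one_le_mul_of_one_le_of_one_le ha hb
  have hcard : (S.card : ℝ) ≤ 2 * (a * b) := by
    refine (Nat.cast_le.2 (card_le_of_isCycle hcyc hf hfd hfg)).trans ?_
    push_cast
    linarith [mul_le_mul hfa hga (Nat.cast_nonneg _) (by linarith)]
  -- the two coordinates
  obtain ⟨E, hEcard, hE⟩ := exists_bad_set hf.ne_zero S
  set En : Finset ℕ := (range (L + 1)).filter fun l : ℕ => (l : ℤ) ∈ E
  set Bn : Finset ℕ := S.biUnion fun p => (range (L + 1)).filter fun l : ℕ =>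
    ‖proj l θ - proj l p‖ * (2 * L + 2) < dist2 p θ
  have hEn : En.card ≤ E.card := card_le_card_of_injOn (fun l : ℕ => (l : ℤ))
    (fun l hl => (mem_filter.1 hl).2) Int.ofNat_injective.injOn
  have hBn : Bn.card ≤ S.card := card_biUnion_le.trans
    ((sum_le_sum fun p _ => card_filter_close_le p θ L).trans_eq (by simp))
  have hcount : En.card + Bn.card + 1 < L + 1 := by
    refine Nat.lt_of_le_of_lt (show En.card + Bn.card + 1 ≤
      f.totalDegree + S.card * S.card + S.card + 1 by omega) ?_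
    rw [← Nat.cast_lt (α := ℝ)]
    push_cast
    have h1 := mul_le_mul hcard hcard (Nat.cast_nonneg _) (by positivity)
    have h2 : a ≤ (a * b) ^ 2 :=
      (le_mul_of_one_le_right (by linarith) hb).trans (by nlinarith)
    have h3 : a * b ≤ (a * b) ^ 2 := by nlinarith
    nlinarith
  obtain ⟨n₁, hn₁, hn₁'⟩ : ∃ n ∈ range (L + 1), n ∉ En ∪ Bn := by
    refine exists_mem_notMem_of_card_lt_card (lt_of_le_of_lt (card_union_le _ _) ?_)
    rw [card_range]
    omega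
  obtain ⟨n₂, hn₂, hn₂'⟩ : ∃ n ∈ range (L + 1), n ∉ insert n₁ En := by
    refine exists_mem_notMem_of_card_lt_card (lt_of_le_of_lt (card_insert_le _ _) ?_)
    rw [card_range]
    omega
  rw [mem_union, not_or] at hn₁'
  rw [mem_insert, not_or] at hn₂'
  have hg1 : IsGood f S n₁ := hE _ fun h => hn₁'.1 (mem_filter.2 ⟨hn₁, h⟩)
  have hg2 : IsGood f S n₂ := hE _ fun h => hn₂'.2 (mem_filter.2 ⟨hn₂, h⟩)
  have hsep : ∀ p ∈ S, dist2 p θ ≤ ‖proj n₁ θ - proj n₁ p‖ * (2 * L + 2) := fun p hp =>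
    not_lt.1 fun h => hn₁'.2 (mem_biUnion.2 ⟨p, hp, mem_filter.2 ⟨hn₁, h⟩⟩)
  rw [mem_range, Nat.lt_succ_iff] at hn₁ hn₂
  have hlR : ∀ n : ℕ, n ≤ L → 1 + |((n : ℤ) : ℝ)| ≤ Real.exp c := fun n hn => by
    rw [Int.cast_natCast, abs_of_nonneg (Nat.cast_nonneg (α := ℝ) n)]
    linarith [Nat.cast_le (α := ℝ).2 hn, Nat.cast_nonneg (α := ℝ) L]
  -- sizes of the projections
  have hc0 : 0 ≤ c := by linarith
  have hK : a ≤ a * b * c ∧ b ≤ a * b * c ∧ a * c ≤ a * b * c ∧ b * c ≤ a * b * c ∧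
      a * b ≤ a * b * c := by
    refine ⟨?_, ?_, ?_, ?_, le_mul_of_one_le_right (by linarith) hc⟩
    · exact (le_mul_of_one_le_right (by linarith) hb).trans
        (le_mul_of_one_le_right (by linarith) hc)
    · exact (le_mul_of_one_le_left (by linarith) ha).trans (le_mul_of_one_le_right (by linarith) hc)
    · exact mul_le_mul_of_nonneg_right (le_mul_of_one_le_right (by linarith) hb) hc0
    · exact mul_le_mul_of_nonneg_right (le_mul_of_one_le_left (by linarith) ha) hc0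
  have hres : ∀ {z : ℝ}, 0 ≤ z → ∀ {k : ℝ}, 0 ≤ k → z ≤ Real.exp k →
      (len g * z ^ g.totalDegree) ^ f.totalDegree * (len f * z ^ f.totalDegree) ^ g.totalDegree ≤
        Real.exp (2 * (a * b) * (1 + k)) := by
    intro z hz k hk hzk
    have h1 : len g * z ^ g.totalDegree ≤ Real.exp (b * (1 + k)) := by
      rw [mul_add, mul_one, Real.exp_add]
      exact mul_le_mul hgl (pow_le_exp hz hk hzk hga) (by positivity) (Real.exp_pos _).le
    have h2 : len f * z ^ f.totalDegree ≤ Real.exp (a * (1 + k)) := by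
      rw [mul_add, mul_one, Real.exp_add]
      exact mul_le_mul hfl (pow_le_exp hz hk hzk hfa) (by positivity) (Real.exp_pos _).le
    refine (mul_le_mul (pow_le_exp (mul_nonneg (FA.Roth.len_nonneg _) (pow_nonneg hz _))
      (by positivity) h1 hfa) (pow_le_exp (mul_nonneg (FA.Roth.len_nonneg _) (pow_nonneg hz _))
      (by positivity) h2 hga) (pow_nonneg (mul_nonneg (FA.Roth.len_nonneg _) (pow_nonneg hz _)) _)
      (Real.exp_pos _).le).trans (le_of_eq ?_)
    rw [← Real.exp_add]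
    ring_nf
  have hlen : ∀ n : ℕ, n ≤ L →
      GelfondCubic.len (lineRes f g n) ≤ Real.exp (16 * (a * b * c)) := fun n hn => by
    refine (len_lineRes_le f g n).trans ((hres (add_nonneg zero_le_one (abs_nonneg _)) hc0
      (hlR n hn)).trans (Real.exp_le_exp.2 ?_))
    linarith [hK.2.2.2.2]
  have hne₁ := lineRes_ne_zero hf hfd hfg hg1.1
  have hmult : ((∑ p ∈ S, μ p : ℕ) : ℝ) ≤ 2 * (a * b) := by
    refine (Nat.cast_le.2 (sum_mult_le hcyc hg1 hne₁)).trans ?_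
    push_cast
    linarith [mul_le_mul hfa hga (Nat.cast_nonneg _) (by linarith)]
  refine ⟨S, μ, hcyc, n₁, n₂, hg1, hg2, fun h => hn₂'.1 (Int.ofNat_inj.1 h).symm,
    Int.natCast_nonneg _, Int.ofNat_le.2 hn₁, Int.natCast_nonneg _, Int.ofNat_le.2 hn₂,
    hlen _ hn₁, hlen _ hn₂, hmult.trans (by linarith [hK.2.2.2.2]), ?_⟩
  -- the value at the projection of `θ`
  have hθc : ∀ i, ‖θ i‖ ≤ Real.exp c := fun i => by
    fin_cases i <;> simp only [Fin.zero_eta, Fin.mk_one] <;>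
      linarith [norm_nonneg (θ 0), norm_nonneg (θ 1)]
  have h1exp : (1 : ℝ) ≤ Real.exp c := Real.one_le_exp hc0
  have hval : ‖Polynomial.aeval (proj n₁ θ) (lineRes f g n₁)‖ ≤
      Real.exp (-U₀ + 16 * (a * b * c)) := by
    refine (norm_lineRes_le hf.ne_zero hg0 hfd n₁ θ).trans ?_
    set z := θ 0 + ((n₁ : ℤ) : ℂ) * θ 1
    have hz : max 1 ‖z‖ ≤ Real.exp (2 * c) := by
      rw [two_mul, Real.exp_add]
      refine max_le (one_le_mul_of_one_le_of_one_le h1exp h1exp) ?_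
      calc ‖z‖ ≤ ‖θ 0‖ + |((n₁ : ℤ) : ℝ)| * ‖θ 1‖ := by
            refine (norm_add_le _ _).trans_eq ?_
            rw [norm_mul, Complex.norm_intCast]
        _ ≤ (1 + |((n₁ : ℤ) : ℝ)|) * (1 + ‖θ 0‖ + ‖θ 1‖) := by
            nlinarith [norm_nonneg (θ 0), norm_nonneg (θ 1), abs_nonneg ((n₁ : ℤ) : ℝ)]
        _ ≤ Real.exp c * Real.exp c :=
            mul_le_mul (hlR n₁ hn₁) hcθ (by positivity) (Real.exp_pos _).le
    have hdeg : ((f.totalDegree + g.totalDegree : ℕ) : ℝ) ≤ a + b := by push_cast; linarith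
    have h1 : (2 : ℝ) * (f.totalDegree + g.totalDegree : ℕ) ≤ Real.exp (2 * (a + b)) := by
      linarith [Real.add_one_le_exp (2 * (a + b))]
    have h2 := pow_le_exp (le_trans zero_le_one (le_max_left 1 ‖θ 1‖)) hc0
      (max_le h1exp (hθc 1)) hdeg
    have h3 := hres (z := (1 + |((n₁ : ℤ) : ℝ)|) * max 1 ‖z‖) (by positivity) (k := c + 2 * c)
      (by linarith) (by
        rw [Real.exp_add]
        exact mul_le_mul (hlR n₁ hn₁) hz (by positivity) (Real.exp_pos _).le)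
    refine (mul_le_mul (max_le hsm₁ hsm₂) (mul_le_mul (mul_le_mul h1 h2 (by positivity)
      (Real.exp_pos _).le) h3 (mul_nonneg (pow_nonneg (mul_nonneg (FA.Roth.len_nonneg _)
      (by positivity)) _) (pow_nonneg (mul_nonneg (FA.Roth.len_nonneg _) (by positivity)) _))
      (by positivity)) (mul_nonneg (by positivity) (mul_nonneg (pow_nonneg (mul_nonneg
      (FA.Roth.len_nonneg _) (by positivity)) _) (pow_nonneg (mul_nonneg (FA.Roth.len_nonneg _)
      (by positivity)) _))) (Real.exp_pos _).le).trans ?_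
    rw [← Real.exp_add, ← Real.exp_add, ← Real.exp_add, Real.exp_le_exp]
    linarith [hK.1, hK.2.1, hK.2.2.1, hK.2.2.2.1, hK.2.2.2.2]
  -- logarithms
  have hdist : ∀ p ∈ S, 0 < dist2 p θ := fun p hp => by
    refine lt_of_le_of_ne ((norm_nonneg _).trans (le_max_left _ _)) fun h => hθf ?_
    have e : p = θ := funext fun i => by
      have h0 : ‖p i - θ i‖ ≤ dist2 p θ := by
        fin_cases i
        · exact le_max_left _ _
        · exact le_max_right _ _
      rw [← h] at h0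
      exact sub_eq_zero.1 (norm_le_zero_iff.1 h0)
    exact e ▸ ((hmem p).1 hp).1
  set y : (Fin 2 → ℂ) → ℝ := fun p => max 0 (-Real.log (dist2 p θ)) with hy
  have hlog : U ≤ ∑ p ∈ S, (μ p : ℝ) * y p := by
    have hpos : ∀ p ∈ S, 0 < dist2 p θ / (2 * L + 2) := fun p hp =>
      div_pos (hdist p hp) (by positivity)
    have h1 : ∏ p ∈ S, (dist2 p θ / (2 * L + 2)) ^ μ p ≤ Real.exp (-U₀ + 16 * (a * b * c)) := by
      refine le_trans ?_ hval
      rw [norm_aeval_proj hcyc hg1]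
      refine le_trans (prod_le_prod (fun p hp => pow_nonneg (hpos p hp).le _) fun p hp => ?_)
        (le_mul_of_one_le_left (prod_nonneg fun p _ => by positivity) ?_)
      · exact pow_le_pow_left₀ (hpos p hp).le ((div_le_iff₀ (by positivity)).2 (hsep p hp)) _
      · exact_mod_cast Int.one_le_abs (Polynomial.leadingCoeff_ne_zero.2 hne₁)
    have h2 := log_le_of_le_exp (prod_pos fun p hp => pow_pos (hpos p hp) _) h1
    rw [Real.log_prod fun p hp => (pow_pos (hpos p hp) _).ne'] at h2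
    have h3 : ∀ p ∈ S, (μ p : ℝ) * (-y p - c) ≤
        Real.log ((dist2 p θ / (2 * L + 2)) ^ μ p) := fun p hp => by
      rw [Real.log_pow, Real.log_div (hdist p hp).ne' (by positivity)]
      refine mul_le_mul_of_nonneg_left ?_ (Nat.cast_nonneg _)
      have h4 := log_le_of_le_exp (by positivity) hcL
      have h5 : -Real.log (dist2 p θ) ≤ y p := le_max_right _ _
      linarith
    have h6 := (sum_le_sum h3).trans h2
    simp only [mul_sub, mul_neg, sum_sub_distrib, sum_neg_distrib, ← sum_mul] at h6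
    rw [← Nat.cast_sum] at h6
    have h7 : ((∑ p ∈ S, μ p : ℕ) : ℝ) * c ≤ 2 * (a * b * c) := by
      rw [← mul_assoc]
      exact mul_le_mul_of_nonneg_right hmult hc0
    have h8 : a * b * c ≤ a * b * c * c := le_mul_of_one_le_right (by positivity) hc
    linarith [show 0 ≤ a * b * c by positivity]
  set x : (Fin 2 → ℂ) → ℝ := fun p => min U (y p) with hxdef
  have hx0 : ∀ p, 0 ≤ x p := fun p => le_min hU0.le (le_max_left _ _)
  have hsumx : U ≤ ∑ p ∈ S, (μ p : ℝ) * x p := by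
    by_cases hbig : ∃ p ∈ S, 1 ≤ μ p ∧ U ≤ y p
    · obtain ⟨p, hp, hμ, hyp⟩ := hbig
      refine le_trans ?_ (single_le_sum (f := fun p => (μ p : ℝ) * x p)
        (fun q _ => mul_nonneg (Nat.cast_nonneg _) (hx0 q)) hp)
      show U ≤ (μ p : ℝ) * min U (y p)
      rw [min_eq_left hyp]
      exact le_mul_of_one_le_left hU0.le (Nat.one_le_cast.2 hμ)
    · push Not at hbig
      refine hlog.trans (le_of_eq (sum_congr rfl fun p hp => ?_))
      rcases Nat.eq_zero_or_pos (μ p) with h0 | h0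
      · simp [h0]
      · rw [hxdef]
        simp only [min_eq_right (hbig p hp h0).le]
  set u : (Fin 2 → ℂ) → ℝ := fun p => x p ^ (1 / 4 : ℝ) with hu
  have hu4 : ∀ p, u p ^ 4 = x p := fun p => by
    rw [hu, ← Real.rpow_natCast, ← Real.rpow_mul (hx0 p)]
    norm_num
  set m := U ^ (1 / 4 : ℝ)
  set Z := U ^ (3 / 4 : ℝ) / 8 with hZ
  obtain ⟨p, hp, hheavy⟩ : ∃ p ∈ S,
      Z < (∑ q ∈ S.filter (fun q => u p ≤ u q), (μ q : ℝ)) * u p ^ 3 := by
    by_contra hno
    push Not at hno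
    have hlayer := sum_mul_pow_four_le (fun q => (μ q : ℝ)) u (fun q => Nat.cast_nonneg _)
      (show 0 ≤ Z by positivity) _ S rfl 0 le_rfl (show 0 ≤ m by positivity)
      (fun q _ => ⟨Real.rpow_nonneg (hx0 q) _,
        Real.rpow_le_rpow (hx0 q) (min_le_left _ _) (by norm_num)⟩) hno
    simp only [zero_pow (show 4 ≠ 0 by norm_num), sub_zero, hu4] at hlayer
    have hZm : Z * m = U / 8 := by
      rw [hZ, div_mul_eq_mul_div, ← Real.rpow_add hU0]
      norm_num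
    linarith
  have hup : 0 < x p := by
    refine lt_of_le_of_ne (hx0 p) fun h => ?_
    have h0 : u p = 0 := by
      rw [hu]
      simp only [← h]
      rw [Real.zero_rpow (by norm_num)]
    rw [h0, zero_pow (by norm_num), mul_zero] at hheavy
    linarith [show 0 ≤ Z by positivity]
  refine ⟨S.filter fun q => u p ≤ u q, x p, filter_subset _ _, hup, min_le_left _ _, ?_,
    fun q hq i => ?_⟩
  · refine le_trans hheavy.le (le_of_eq ?_)
    rw [Nat.cast_sum, hu, ← Real.rpow_natCast (x p ^ (1 / 4 : ℝ)), ← Real.rpow_mul (hx0 p)]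
    norm_num
  · obtain ⟨hqS, hle⟩ := mem_filter.1 hq
    have hxy : x p ≤ -Real.log (dist2 q θ) := by
      have h1 : x p ≤ y q := by
        refine le_trans ((Real.rpow_le_rpow_iff (hx0 p) (hx0 q) (by norm_num)).1 hle) ?_
        exact min_le_right _ _
      rcases max_choice 0 (-Real.log (dist2 q θ)) with h | h
      · rw [hy] at h1
        simp only [h] at h1
        linarith
      · rw [hy] at h1
        simpa only [h] using h1
    refine le_trans ?_ (((Real.log_le_iff_le_exp (hdist q hqS)).1 (show Real.log (dist2 q θ) ≤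
      -x p by linarith)))
    fin_cases i
    · exact le_max_left _ _
    · exact le_max_right _ _

/-- **The weight is not too large.** -/
theorem weight_mul_le (h : IsCycle f g S μ) (hf : Irreducible f) (hfd : 0 < f.totalDegree)
    (hfg : ¬f ∣ g) {l₁ l₂ : ℤ} (h1 : IsGood f S l₁) (h2 : IsGood f S l₂) (hne : l₁ ≠ l₂)
    {L : ℕ} (hl₁ : 0 ≤ l₁) (hl₁' : l₁ ≤ L) (hl₂ : 0 ≤ l₂) (hl₂' : l₂ ≤ L) {A c E R : ℝ} {D : ℕ}
    (hc : 2 * (L : ℝ) + 2 ≤ Real.exp c) (hE : 0 ≤ E)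
    (hA₁ : GelfondCubic.len (lineRes f g l₁) ≤ Real.exp A)
    (hA₂ : GelfondCubic.len (lineRes f g l₂) ≤ Real.exp A)
    (hμA : ((∑ p ∈ S, μ p : ℕ) : ℝ) ≤ A) (P : (Fin 2 → ℂ) → MvPolynomial (Fin 2) ℤ)
    (hP : ∀ p ∈ S, ∀ q ∈ S, (∀ Q : MvPolynomial (Fin 2) ℤ,
      MvPolynomial.aeval p Q = 0 ↔ MvPolynomial.aeval q Q = 0) → P p = P q)
    (hD : ∀ p ∈ S, (P p).totalDegree ≤ D) (hlen : ∀ p ∈ S, len (P p) ≤ Real.exp E)
    (h0 : ∀ p ∈ S, MvPolynomial.aeval p (P p) ≠ 0) {T : Finset (Fin 2 → ℂ)} (hT : T ⊆ S)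
    (hnear : ∀ p ∈ T, ‖MvPolynomial.aeval p (P p)‖ ≤ Real.exp (-R)) :
    ((∑ p ∈ T, μ p : ℕ) : ℝ) * R ≤ 2 * D * A + A * (E + 2 * D * c) := by
  classical
  have hLc : (1 : ℝ) + L ≤ Real.exp c := by linarith [Nat.cast_nonneg (α := ℝ) L]
  have hc0 : 0 ≤ c :=
    Real.one_le_exp_iff.1 ((le_add_of_nonneg_right (Nat.cast_nonneg _)).trans hLc)
  set a : (Fin 2 → ℂ) → ℝ := fun p => max 1 ‖proj l₁ p‖ with ha
  set b : (Fin 2 → ℂ) → ℝ := fun p => max 1 ‖proj l₂ p‖ with hb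
  have hl : ∀ l : ℤ, 0 ≤ l → l ≤ L → |(l : ℝ)| ≤ L := fun l h3 h4 => by
    rw [abs_of_nonneg (Int.cast_nonneg h3)]
    exact_mod_cast h4
  have hab : ∀ p, 1 ≤ a p * b p ∧ 0 ≤ a p ∧ 0 ≤ b p := fun p =>
    ⟨one_le_mul_of_one_le_of_one_le (le_max_left _ _) (le_max_left _ _),
      le_trans zero_le_one (le_max_left _ _), le_trans zero_le_one (le_max_left _ _)⟩
  have hcoord : ∀ p i, ‖p i‖ ≤ Real.exp c * (a p * b p) := by
    intro p i
    obtain ⟨hab1, hap, hbp⟩ := hab p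
    have hp1 : ‖p 1‖ ≤ 2 * (a p * b p) := by
      have hint : (1 : ℝ) ≤ ‖((l₂ : ℂ) - l₁)‖ := by
        rw [← Int.cast_sub, Complex.norm_intCast]
        exact_mod_cast Int.one_le_abs (sub_ne_zero.2 hne.symm)
      refine (le_mul_of_one_le_left (norm_nonneg _) hint).trans ?_
      rw [← norm_mul, show ((l₂ : ℂ) - l₁) * p 1 = proj l₂ p - proj l₁ p by
        simp only [proj]; ring]
      refine (norm_sub_le _ _).trans ?_
      have h3 : b p ≤ a p * b p := le_mul_of_one_le_left hbp (le_max_left _ _)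
      have h4 : a p ≤ a p * b p := le_mul_of_one_le_right hap (le_max_left _ _)
      linarith [le_max_right 1 ‖proj l₁ p‖, le_max_right 1 ‖proj l₂ p‖]
    fin_cases i
    · have h5 : ‖p 0‖ ≤ a p + L * ‖p 1‖ := by
        calc ‖p 0‖ = ‖proj l₁ p - (l₁ : ℂ) * p 1‖ := by simp [proj]
          _ ≤ ‖proj l₁ p‖ + ‖(l₁ : ℂ) * p 1‖ := norm_sub_le _ _
          _ ≤ _ := by
            rw [norm_mul, Complex.norm_intCast]
            exact add_le_add (le_max_right _ _)
              (mul_le_mul_of_nonneg_right (hl l₁ hl₁ hl₁') (norm_nonneg _))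
      have h6 := mul_le_mul_of_nonneg_left hp1 (Nat.cast_nonneg (α := ℝ) L)
      have h7 : a p ≤ a p * b p := le_mul_of_one_le_right hap (le_max_left _ _)
      simp only [Fin.zero_eta]
      nlinarith
    · simp only [Fin.mk_one]
      refine hp1.trans (mul_le_mul_of_nonneg_right ?_ (mul_nonneg hap hbp))
      linarith [Nat.cast_nonneg (α := ℝ) L]
  set G := Real.exp (E + D * c) with hG
  have hbound : ∀ p ∈ S, ‖MvPolynomial.aeval p (P p)‖ ≤
      G * (if p ∈ T then Real.exp (-R) else 1) * (a p ^ D * b p ^ D) := fun p hp => by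
    obtain ⟨hab1, hap, hbp⟩ := hab p
    have h1ab : (1 : ℝ) ≤ a p ^ D * b p ^ D := by
      rw [← mul_pow]
      exact one_le_pow₀ hab1
    split_ifs with hpT
    · refine (hnear p hpT).trans (le_trans ?_ (le_mul_of_one_le_right (by positivity) h1ab))
      exact le_mul_of_one_le_left (Real.exp_pos _).le (Real.one_le_exp (by positivity))
    · rw [mul_one]
      refine (norm_aeval_le (hD p hp) (one_le_mul_of_one_le_of_one_le (Real.one_le_exp hc0) hab1)
        (hcoord p)).trans ?_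
      rw [mul_pow, mul_pow, ← mul_assoc, hG, Real.exp_add, Real.exp_nat_mul]
      exact mul_le_mul_of_nonneg_right
        (mul_le_mul_of_nonneg_right (hlen p hp) (by positivity)) (by positivity)
  have hne1 := lineRes_ne_zero hf hfd hfg h1.1
  have hne2 := lineRes_ne_zero hf hfd hfg h2.1
  have hm1 := lead_mul_prod_max_le h h1 hne1
  have hm2 := lead_mul_prod_max_le h h2 hne2
  have hprod := one_le_product h hf hfd hfg h1 h2 hne P hP hD h0
  set k₁ := |(((lineRes f g l₁).leadingCoeff : ℤ) : ℝ)|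
  set k₂ := |(((lineRes f g l₂).leadingCoeff : ℤ) : ℝ)|
  set d := |((l₂ - l₁ : ℤ) : ℝ)|
  set m := ∑ p ∈ S, μ p with hm
  set w := ∑ p ∈ T, μ p with hw
  have e1 : ∏ p ∈ S, (G * (if p ∈ T then Real.exp (-R) else 1) * (a p ^ D * b p ^ D)) ^ μ p =
      G ^ m * Real.exp (-R) ^ w * ((∏ p ∈ S, a p ^ μ p) ^ D * (∏ p ∈ S, b p ^ μ p) ^ D) := by
    simp only [mul_pow, prod_mul_distrib, ← prod_pow, ← pow_mul, mul_comm D, ite_pow, one_pow]
    rw [prod_pow_eq_pow_sum, prod_ite_mem, inter_eq_right.2 hT, prod_pow_eq_pow_sum]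
  have h3 : 1 ≤ (k₁ * ∏ p ∈ S, a p ^ μ p) ^ D * (k₂ * ∏ p ∈ S, b p ^ μ p) ^ D *
      d ^ (D * m) * (G ^ m * Real.exp (-R) ^ w) := by
    refine hprod.trans ((mul_le_mul_of_nonneg_left ((prod_le_prod
      (fun p _ => by positivity) fun p hp => pow_le_pow_left₀ (norm_nonneg _) (hbound p hp) _).trans
      (le_of_eq e1)) (by positivity)).trans (le_of_eq ?_))
    ring
  have hd : d ≤ Real.exp c := by
    refine le_trans ?_ hLc
    simp only [d, Int.cast_sub]
    obtain ⟨h5, h6⟩ := abs_le.1 (hl l₁ hl₁ hl₁')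
    obtain ⟨h7, h8⟩ := abs_le.1 (hl l₂ hl₂ hl₂')
    have h9 : (0 : ℝ) ≤ l₁ := Int.cast_nonneg hl₁
    have h10 : (0 : ℝ) ≤ l₂ := Int.cast_nonneg hl₂
    exact abs_le.2 ⟨by linarith, by linarith⟩
  have ha1 : 0 ≤ k₁ * ∏ p ∈ S, a p ^ μ p :=
    mul_nonneg (abs_nonneg _) (prod_nonneg fun p _ => pow_nonneg (hab p).2.1 _)
  have hb1 : 0 ≤ k₂ * ∏ p ∈ S, b p ^ μ p :=
    mul_nonneg (abs_nonneg _) (prod_nonneg fun p _ => pow_nonneg (hab p).2.2 _)
  have h4 := h3.trans (mul_le_mul_of_nonneg_right (mul_le_mul (mul_le_mul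
    (pow_le_pow_left₀ ha1 (hm1.trans hA₁) D) (pow_le_pow_left₀ hb1 (hm2.trans hA₂) D)
    (by positivity) (by positivity)) (pow_le_pow_left₀ (abs_nonneg _) hd (D * m))
    (by positivity) (by positivity)) (by positivity))
  rw [hG, ← Real.exp_nat_mul, ← Real.exp_nat_mul, ← Real.exp_nat_mul, ← Real.exp_nat_mul,
    ← Real.exp_add, ← Real.exp_add, ← Real.exp_add, ← Real.exp_add, Real.one_le_exp_iff] at h4
  have h8 := mul_le_mul_of_nonneg_right hμA (show 0 ≤ E + 2 * D * c by positivity)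
  push_cast at h4
  linarith

end FA.Nesterenko

end
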