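import Fermat.Agent.Nesterenko.Series
import Mathlib.Algebra.MvPolynomial.PDeriv
import Mathlib.Analysis.Calculus.SmoothSeries
import Mathlib.Analysis.Calculus.IteratedDeriv.Defs

/-!
# Ramanujan's derivation on polynomials in `R, Q, P, z`

`12 θ` preserves these polynomials, raising the degree by one and the length by a factor linear in
the degree; so `12 ^ t z ^ t F ^ (t)` is the value of an explicit polynomial.
-/

set_option autoImplicit false

noncomputable section

namespace FA.Nesterenko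

open MvPolynomial Finset Metric
open FA.Roth (len)

/-- `12 θ R`, `12 θ Q`, `12 θ P`, `12 θ z`. -/
def thetaImage : Fin 4 → MvPolynomial (Fin 4) ℤ :=
  ![C 6 * (X 2 * X 0 - X 1 ^ 2), C 4 * (X 2 * X 1 - X 0), X 2 ^ 2 - X 1, C 12 * X 3]

/-- Ramanujan's derivation, twelve times `θ`. -/
def dPoly : Derivation ℤ (MvPolynomial (Fin 4) ℤ) (MvPolynomial (Fin 4) ℤ) :=
  ∑ i, thetaImage i • pderiv i

theorem dPoly_apply (A : MvPolynomial (Fin 4) ℤ) :
    dPoly A = ∑ i, thetaImage i * pderiv i A := by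
  simp [dPoly, Fin.sum_univ_four]

theorem dPoly_X (i : Fin 4) : dPoly (X i) = thetaImage i := by
  rw [dPoly_apply, sum_eq_single i (fun j _ hj => by rw [pderiv_X_of_ne hj.symm, mul_zero])
    (fun h => absurd (mem_univ i) h), pderiv_X_self, mul_one]

theorem ser_dPoly (A : MvPolynomial (Fin 4) ℤ) :
    ser (dPoly A) = 12 * FA.Tau.thetaDer (ser A) := by
  induction A using MvPolynomial.induction_on with
  | C c =>
    simp [ser]
  | add P Q hP hQ =>
    simp only [ser, map_add] at hP hQ ⊢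
    rw [hP, hQ, mul_add]
  | mul_X P i hP =>
    have hi : ser (thetaImage i) = 12 * FA.Tau.thetaDer (eis i) := by
      have h2 := FA.Tau.theta_eTwo
      have h4 := FA.Tau.theta_eFour
      have h6 := FA.Tau.theta_eSix
      fin_cases i
      · simp [ser, thetaImage, eis, FA.Tau.thetaDer_apply]
        linear_combination -6 * h6
      · simp [ser, thetaImage, eis, FA.Tau.thetaDer_apply]
        linear_combination -4 * h4
      · simp [ser, thetaImage, eis, FA.Tau.thetaDer_apply]
        linear_combination -h2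
      · simp [ser, thetaImage, eis, FA.Tau.thetaDer_apply, FA.Tau.thetaInt_eq]
    have e : ser (dPoly (P * X i)) = ser P * ser (thetaImage i) + eis i * ser (dPoly P) := by
      simp [ser, dPoly_X]
    rw [e, hP, hi, show ser (P * X i) = ser P * eis i by simp [ser], Derivation.leibniz,
      smul_eq_mul, smul_eq_mul]
    ring

theorem len_thetaImage_le (i : Fin 4) : len (thetaImage i) ≤ 12 := by
  have h1 : ∀ i j : Fin 4, len (X i * X j : MvPolynomial (Fin 4) ℤ) ≤ 1 := fun i j =>
    (FA.Roth.len_mul_le _ _).trans (by simp [len_X])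
  have h2 : ∀ i : Fin 4, len (X i ^ 2 : MvPolynomial (Fin 4) ℤ) ≤ 1 := fun i => by
    rw [sq]; exact h1 i i
  have hx : ∀ i : Fin 4, len (X i : MvPolynomial (Fin 4) ℤ) ≤ 1 := fun i => (len_X i).le
  fin_cases i <;> simp only [thetaImage, Fin.zero_eta, Fin.mk_one, Fin.reduceFinMk,
    Matrix.cons_val_zero, Matrix.cons_val_one, Matrix.cons_val]
  · refine (len_C_mul_le _ _).trans ?_
    norm_num
    linarith [len_sub_le (X 2 * X 0 : MvPolynomial (Fin 4) ℤ) (X 1 ^ 2), h1 2 0, h2 1]
  · refine (len_C_mul_le _ _).trans ?_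
    norm_num
    linarith [len_sub_le (X 2 * X 1 : MvPolynomial (Fin 4) ℤ) (X 0), h1 2 1, hx 0]
  · refine (len_sub_le _ _).trans ?_
    linarith [h2 2, hx 1]
  · refine (len_C_mul_le _ _).trans ?_
    norm_num [len_X]

theorem totalDegree_thetaImage_le (i : Fin 4) : (thetaImage i).totalDegree ≤ 2 := by
  fin_cases i <;> simp only [thetaImage, Fin.zero_eta, Fin.mk_one, Fin.reduceFinMk,
    Matrix.cons_val_zero, Matrix.cons_val_one, Matrix.cons_val]
  · refine (totalDegree_mul _ _).trans ?_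
    rw [totalDegree_C, zero_add]
    exact (totalDegree_sub _ _).trans (max_le ((totalDegree_mul _ _).trans (by simp)) (by simp))
  · refine (totalDegree_mul _ _).trans ?_
    rw [totalDegree_C, zero_add]
    exact (totalDegree_sub _ _).trans (max_le ((totalDegree_mul _ _).trans (by simp)) (by simp))
  · exact (totalDegree_sub _ _).trans (max_le (by simp) (by simp))
  · refine (totalDegree_mul _ _).trans ?_
    rw [totalDegree_C, zero_add]
    simp

theorem totalDegree_dPoly_le {A : MvPolynomial (Fin 4) ℤ} {D : ℕ} (hD : A.totalDegree ≤ D) :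
    (dPoly A).totalDegree ≤ D + 1 := by
  classical
  rw [as_sum A, map_sum]
  refine totalDegree_finsetSum_le fun d hd => ?_
  rw [dPoly_apply]
  refine totalDegree_finsetSum_le fun i _ => ?_
  rw [pderiv_monomial]
  rcases Nat.eq_zero_or_pos (d i) with h0 | h0
  · simp [h0]
  refine (totalDegree_mul _ _).trans ?_
  have h1 := totalDegree_thetaImage_le i
  have h2 : d.degree ≤ D := (Finsupp.degree_apply d).trans_le (sum_exponents_le hD hd)
  have h3 : (monomial (d - Finsupp.single i 1) (coeff d A * (d i : ℤ))).totalDegree ≤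
      (d - Finsupp.single i 1).degree := by
    refine Finset.sup_le fun s hs => ?_
    have := support_monomial_subset hs
    rw [mem_singleton] at this
    rw [this, Finsupp.degree_apply]
    rfl
  have h4 : (d - Finsupp.single i 1).degree + 1 = d.degree := by
    have e : d - Finsupp.single i 1 + Finsupp.single i 1 = d :=
      tsub_add_cancel_of_le (Finsupp.single_le_iff.2 h0)
    conv_rhs => rw [← e]
    simp
  omega

theorem len_dPoly_le {A : MvPolynomial (Fin 4) ℤ} {D : ℕ} (hD : A.totalDegree ≤ D) :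
    len (dPoly A) ≤ 48 * D * len A := by
  classical
  conv_lhs => rw [as_sum A, map_sum]
  refine (FA.Roth.len_sum_le _ _).trans ?_
  conv_rhs => rw [FA.Roth.len, mul_sum]
  refine sum_le_sum fun d hd => ?_
  rw [dPoly_apply]
  refine (FA.Roth.len_sum_le _ _).trans ((sum_le_card_nsmul _ _
    (12 * ((D : ℝ) * |((coeff d A : ℤ) : ℝ)|)) fun i _ => ?_).trans_eq ?_)
  · rw [pderiv_monomial]
    refine (FA.Roth.len_mul_le _ _).trans (mul_le_mul (len_thetaImage_le i)
      ((FA.Roth.len_monomial_le _ _).trans ?_) (FA.Roth.len_nonneg _) (by norm_num))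
    push_cast
    rw [abs_mul, mul_comm, abs_of_nonneg (Nat.cast_nonneg (α := ℝ) (d i))]
    refine mul_le_mul_of_nonneg_right ?_ (abs_nonneg _)
    exact_mod_cast ((Finsupp.le_degree i d).trans_eq (Finsupp.degree_apply d)).trans
      (sum_exponents_le hD hd)
  · simp
    ring

/-- The polynomial of `12 ^ t z ^ t F ^ (t)`. -/
def dStep (A : MvPolynomial (Fin 4) ℤ) : ℕ → MvPolynomial (Fin 4) ℤ
  | 0 => A
  | t + 1 => dPoly (dStep A t) - C (12 * (t : ℤ)) * dStep A t

theorem ser_dStep (A : MvPolynomial (Fin 4) ℤ) (t : ℕ) :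
    ser (dStep A t) = PowerSeries.C ((12 : ℤ) ^ t) *
      (PowerSeries.X ^ t * (PowerSeries.derivative ℤ)^[t] (ser A)) := by
  induction t with
  | zero => simp [dStep]
  | succ t ih =>
    have e : ser (dStep A (t + 1)) =
        ser (dPoly (dStep A t)) - PowerSeries.C (12 * (t : ℤ)) * ser (dStep A t) := by
      simp [dStep, ser]
    rw [e, ser_dPoly, ih, FA.Tau.thetaDer_apply, FA.Tau.thetaInt_eq, Function.iterate_succ_apply']
    set G := (PowerSeries.derivative ℤ)^[t] (ser A)
    rw [Derivation.leibniz, PowerSeries.derivative_C, Derivation.leibniz, Derivation.leibniz_pow,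
      PowerSeries.derivative_X]
    simp only [smul_eq_mul, map_mul, map_natCast, map_pow, nsmul_eq_mul, mul_one]
    rcases t with _ | t
    · simp
    · rw [Nat.add_sub_cancel]
      simp only [map_ofNat, Nat.cast_succ]
      ring

theorem totalDegree_dStep_le {A : MvPolynomial (Fin 4) ℤ} {D : ℕ} (hD : A.totalDegree ≤ D)
    (t : ℕ) : (dStep A t).totalDegree ≤ D + t := by
  induction t with
  | zero => exact hD
  | succ t ih =>
    refine (totalDegree_sub _ _).trans (max_le (totalDegree_dPoly_le ih) ?_)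
    refine (totalDegree_mul _ _).trans ?_
    rw [totalDegree_C, zero_add]
    omega

theorem len_dStep_le {A : MvPolynomial (Fin 4) ℤ} {D T : ℕ} (hD : A.totalDegree ≤ D) {t : ℕ}
    (ht : t ≤ T) : len (dStep A t) ≤ (60 * (D + T : ℕ) : ℝ) ^ t * len A := by
  induction t with
  | zero => simp [dStep]
  | succ t ih =>
    have ih' := ih (by omega)
    refine (len_sub_le _ _).trans ?_
    have h1 := len_dPoly_le (totalDegree_dStep_le hD t)
    have h2 := len_C_mul_le (12 * (t : ℤ)) (dStep A t)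
    have h3 : (0 : ℝ) ≤ len (dStep A t) := FA.Roth.len_nonneg _
    have h4 : ((D + t : ℕ) : ℝ) ≤ (D + T : ℕ) := Nat.cast_le.2 (by omega)
    have h5 : (t : ℝ) ≤ (D + T : ℕ) := Nat.cast_le.2 (by omega)
    push_cast at h2
    rw [abs_of_nonneg (by positivity : (0 : ℝ) ≤ 12 * (t : ℝ))] at h2
    calc len (dPoly (dStep A t)) + len (C (12 * (t : ℤ)) * dStep A t)
        ≤ (60 * (D + T : ℕ) : ℝ) * len (dStep A t) := by nlinarith
      _ ≤ (60 * (D + T : ℕ) : ℝ) * ((60 * (D + T : ℕ) : ℝ) ^ t * len A) :=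
          mul_le_mul_of_nonneg_left ih' (by positivity)
      _ = (60 * (D + T : ℕ) : ℝ) ^ (t + 1) * len A := by ring

/-- The series converges absolutely in the unit disc. -/
def Nice (S : PowerSeries ℤ) : Prop := ∀ r : ℝ, 0 ≤ r → r < 1 → ∃ B, Maj S r B

theorem nice_ser (A : MvPolynomial (Fin 4) ℤ) : Nice (ser A) := fun _ hr hr1 =>
  ⟨_, maj_ser A le_rfl hr hr1⟩

theorem natCast_mul_pow_le {r r' : ℝ} (hr : 0 ≤ r) (hrr : r < r') (n : ℕ) :
    (n : ℝ) * r ^ n ≤ r' / (r' - r) * r' ^ n := by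
  have hr' : 0 < r' := hr.trans_lt hrr
  set x := r / r' with hx
  have hx0 : 0 ≤ x := div_nonneg hr hr'.le
  have hx1 : x < 1 := (div_lt_one hr').2 hrr
  have h1 : (n : ℝ) * x ^ n ≤ ∑ k ∈ range n, x ^ k := by
    refine le_trans (le_of_eq ?_) (card_nsmul_le_sum (range n) _ (x ^ n) fun k hk =>
      pow_le_pow_of_le_one hx0 hx1.le (mem_range.1 hk).le)
    simp
  have h2 : ∑ k ∈ range n, x ^ k ≤ 1 / (1 - x) := by
    rw [geom_sum_eq hx1.ne, le_div_iff₀ (by linarith),
      show (x ^ n - 1) / (x - 1) * (1 - x) = 1 - x ^ n by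
        rw [div_mul_eq_mul_div, div_eq_iff (by linarith)]; ring]
    linarith [pow_nonneg hx0 n]
  have h3 : r ^ n = x ^ n * r' ^ n := by rw [hx, div_pow, div_mul_cancel₀ _ (pow_ne_zero _ hr'.ne')]
  rw [h3, ← mul_assoc]
  refine mul_le_mul_of_nonneg_right ((h1.trans h2).trans (le_of_eq ?_)) (pow_nonneg hr'.le n)
  rw [hx]
  field_simp

theorem Nice.summable_deriv {S : PowerSeries ℤ} (hS : Nice S) {r : ℝ} (hr : 0 < r) (hr1 : r < 1) :
    Summable fun n => |((PowerSeries.coeff n S : ℤ) : ℝ)| * ((n : ℝ) * r ^ (n - 1)) := by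
  obtain ⟨B, hB⟩ := hS ((r + 1) / 2) (by linarith) (by linarith)
  refine Summable.of_nonneg_of_le (fun n => by positivity) (fun n => ?_)
    (hB.1.mul_left ((r + 1) / 2 / ((r + 1) / 2 - r) / r))
  rcases n with _ | n
  · simp
    positivity [show 0 < (r + 1) / 2 - r by linarith]
  have h1 := natCast_mul_pow_le hr.le (show r < (r + 1) / 2 by linarith) (n + 1)
  rw [Nat.add_sub_cancel, div_mul_eq_mul_div, le_div_iff₀ hr]
  calc |((PowerSeries.coeff (n + 1) S : ℤ) : ℝ)| * (((n + 1 : ℕ) : ℝ) * r ^ n) * r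
      = |((PowerSeries.coeff (n + 1) S : ℤ) : ℝ)| * (((n + 1 : ℕ) : ℝ) * r ^ (n + 1)) := by ring
    _ ≤ |((PowerSeries.coeff (n + 1) S : ℤ) : ℝ)| *
          ((r + 1) / 2 / ((r + 1) / 2 - r) * ((r + 1) / 2) ^ (n + 1)) :=
        mul_le_mul_of_nonneg_left h1 (abs_nonneg _)
    _ = _ := by ring

theorem Nice.derivative {S : PowerSeries ℤ} (hS : Nice S) :
    Nice (PowerSeries.derivative ℤ S) := by
  intro r hr hr1
  have h := (hS.summable_deriv (show 0 < (r + 1) / 2 by linarith) (by linarith)).comp_injective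
    (add_left_injective 1)
  refine ⟨_, Summable.of_nonneg_of_le (fun n => by positivity) (fun n => ?_) h, le_rfl⟩
  simp only [Function.comp_apply, Nat.add_sub_cancel, PowerSeries.coeff_derivative]
  push_cast
  rw [abs_mul, abs_of_nonneg (by positivity : (0 : ℝ) ≤ (n : ℝ) + 1), mul_assoc]
  refine mul_le_mul_of_nonneg_left ?_ (abs_nonneg _)
  exact mul_le_mul_of_nonneg_left (pow_le_pow_left₀ hr (by linarith) n) (by positivity)

theorem Nice.hasDerivAt {S : PowerSeries ℤ} (hS : Nice S) {z : ℂ} (hz : ‖z‖ < 1) :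
    HasDerivAt (val S) (val (PowerSeries.derivative ℤ S) z) z := by
  set r := (‖z‖ + 1) / 2 with hr
  have hzr : ‖z‖ < r := by rw [hr]; linarith
  have hr1 : r < 1 := by rw [hr]; linarith
  have hr0 : 0 < r := (norm_nonneg z).trans_lt hzr
  have hu := hS.summable_deriv hr0 hr1
  obtain ⟨B, hB⟩ := hS 0 le_rfl one_pos
  have hbound : ∀ n (y : ℂ), y ∈ ball (0 : ℂ) r →
      ‖((PowerSeries.coeff n S : ℤ) : ℂ) * ((n : ℂ) * y ^ (n - 1))‖ ≤
        |((PowerSeries.coeff n S : ℤ) : ℝ)| * ((n : ℝ) * r ^ (n - 1)) := fun n y hy => by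
    rw [norm_mul, norm_mul, Complex.norm_intCast, Complex.norm_natCast, norm_pow]
    refine mul_le_mul_of_nonneg_left (mul_le_mul_of_nonneg_left ?_ (Nat.cast_nonneg n))
      (abs_nonneg _)
    exact pow_le_pow_left₀ (norm_nonneg _) (mem_ball_zero_iff.1 hy).le _
  have hd := hasDerivAt_tsum_of_isPreconnected hu isOpen_ball
    (convex_ball (0 : ℂ) r).isPreconnected
    (g := fun n y => ((PowerSeries.coeff n S : ℤ) : ℂ) * y ^ n)
    (g' := fun n y => ((PowerSeries.coeff n S : ℤ) : ℂ) * ((n : ℂ) * y ^ (n - 1)))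
    (fun n y _ => (hasDerivAt_pow n y).const_mul _) hbound
    (mem_ball_self hr0) (hB.hasSum (norm_zero.le)).summable (mem_ball_zero_iff.2 hzr)
  refine hd.congr_deriv ?_
  have hs : Summable fun n => ((PowerSeries.coeff n S : ℤ) : ℂ) * ((n : ℂ) * z ^ (n - 1)) :=
    Summable.of_norm_bounded hu fun n => hbound n z (mem_ball_zero_iff.2 hzr)
  rw [hs.tsum_eq_zero_add, val]
  simp only [Nat.cast_zero, zero_mul, mul_zero, zero_add]
  refine tsum_congr fun n => ?_
  rw [PowerSeries.coeff_derivative, Nat.add_sub_cancel]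
  push_cast
  ring

theorem Nice.iterate {S : PowerSeries ℤ} (hS : Nice S) (t : ℕ) :
    Nice ((PowerSeries.derivative ℤ)^[t] S) := by
  induction t with
  | zero => exact hS
  | succ t ih => rw [Function.iterate_succ_apply']; exact ih.derivative

theorem Nice.iteratedDeriv_val {S : PowerSeries ℤ} (hS : Nice S) (t : ℕ) {z : ℂ} (hz : ‖z‖ < 1) :
    iteratedDeriv t (val S) z = val ((PowerSeries.derivative ℤ)^[t] S) z := by
  induction t generalizing z with
  | zero => simp
  | succ t ih =>
    rw [iteratedDeriv_succ, Function.iterate_succ_apply']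
    have he : iteratedDeriv t (val S) =ᶠ[nhds z] val ((PowerSeries.derivative ℤ)^[t] S) := by
      filter_upwards [isOpen_ball.mem_nhds (mem_ball_zero_iff.2 hz)] with y hy
      exact ih (mem_ball_zero_iff.1 hy)
    rw [he.deriv_eq, ((hS.iterate t).hasDerivAt hz).deriv]

theorem differentiableOn_val {S : PowerSeries ℤ} (hS : Nice S) :
    DifferentiableOn ℂ (val S) (ball (0 : ℂ) 1) := fun _ hz =>
  (hS.hasDerivAt (mem_ball_zero_iff.1 hz)).differentiableAt.differentiableWithinAt

/-- **The derivatives are values of the polynomials.** -/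
theorem aeval_dStep (A : MvPolynomial (Fin 4) ℤ) (t : ℕ) {z : ℂ} (hz : ‖z‖ < 1) :
    aeval (fun i => fn i z) (dStep A t) =
      (12 : ℂ) ^ t * z ^ t * iteratedDeriv t (val (ser A)) z := by
  obtain ⟨B, hB⟩ := (nice_ser A).iterate t ‖z‖ (norm_nonneg z) hz
  have hX : Maj (PowerSeries.X ^ t * (PowerSeries.derivative ℤ)^[t] (ser A)) ‖z‖
      (growth ‖z‖ ^ t * B) := by
    refine Maj.mul ?_ hB (norm_nonneg z)
    simpa [eis] using (maj_eis 3 (norm_nonneg z) hz).pow (norm_nonneg z) t
  rw [← val_ser _ hz, ser_dStep, (maj_C _ _).val_mul hX le_rfl, val_C, val_X_pow_mul,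
    (nice_ser A).iteratedDeriv_val t hz]
  push_cast
  ring

end FA.Nesterenko

end
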