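import Fermat.Agent.Nesterenko.Coordinates
import Fermat.Agent.Nesterenko.Interpolation
import Mathlib.Algebra.MvPolynomial.NoZeroDivisors
import Mathlib.Analysis.Polynomial.MahlerMeasure
import Mathlib.RingTheory.Polynomial.UniqueFactorization

/-!
# Divisors of a polynomial in two variables

After a shear the lead in `y` of a polynomial and of every divisor is a non-zero integer, so on
`|x| = 1` the Mahler measure in `y` of a divisor is below that of the polynomial; hence a divisor is
not much longer, and a polynomial small at a point has an irreducible factor small there.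
-/

set_option autoImplicit false

noncomputable section

namespace FA.Nesterenko

open MvPolynomial Finset
open FA.Roth (len)
open scoped Real

/-- Some shear in `0, …, T` makes the lead an integer. -/
theorem exists_shear_nat {P : MvPolynomial (Fin 2) ℤ} (hP : P ≠ 0) {T : ℕ}
    (hT : P.totalDegree ≤ T) :
    ∃ l : ℕ, l ≤ T ∧ (topPoly P).eval (-(l : ℤ)) ≠ 0 := by
  classical
  by_contra h
  push Not at h
  have hroots : ((range (T + 1)).image fun l : ℕ => -(l : ℤ)) ⊆ (topPoly P).roots.toFinset := by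
    intro x hx
    obtain ⟨l, hl, rfl⟩ := mem_image.1 hx
    rw [Multiset.mem_toFinset, Polynomial.mem_roots (topPoly_ne_zero hP)]
    exact h l (Nat.lt_succ_iff.1 (mem_range.1 hl))
  have h1 := (card_le_card hroots).trans ((Multiset.toFinset_card_le _).trans
    ((topPoly P).card_roots'.trans ((natDegree_topPoly_le P).trans hT)))
  rw [card_image_of_injective _ (fun a b e => Int.ofNat_inj.1 (neg_injective e)), card_range] at h1
  omega

/-- Division on the circle: the coefficients of a factor with an integral lead. -/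
theorem norm_coeff_factor_le {G H : Polynomial (Polynomial ℤ)} {c : ℤ} (hc : c ≠ 0)
    (hlead : (G * H).leadingCoeff = Polynomial.C c) {x : ℂ} {T : ℕ} (hT : G.natDegree ≤ T) {L : ℝ}
    (hL : ∑ j ∈ (G * H).support, ‖Polynomial.aeval x ((G * H).coeff j)‖ ≤ L) (k : ℕ) :
    ‖Polynomial.aeval x (G.coeff k)‖ ≤ 2 ^ T * L := by
  set φ := (Polynomial.aeval (R := ℤ) x).toRingHom with hφ
  have hprod : G.leadingCoeff * H.leadingCoeff = Polynomial.C c := by
    rw [← Polynomial.leadingCoeff_mul, hlead]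
  have hG0 : G ≠ 0 := fun e => by
    rw [e, Polynomial.leadingCoeff_zero, zero_mul, eq_comm, Polynomial.C_eq_zero] at hprod
    exact hc hprod
  have hH0 : H ≠ 0 := fun e => by
    rw [e, Polynomial.leadingCoeff_zero, mul_zero, eq_comm, Polynomial.C_eq_zero] at hprod
    exact hc hprod
  have hdeg : G.leadingCoeff.natDegree = 0 ∧ H.leadingCoeff.natDegree = 0 := by
    have h := congrArg Polynomial.natDegree hprod
    rw [Polynomial.natDegree_mul (Polynomial.leadingCoeff_ne_zero.2 hG0)
      (Polynomial.leadingCoeff_ne_zero.2 hH0), Polynomial.natDegree_C] at h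
    omega
  have hone : ∀ P : Polynomial (Polynomial ℤ), P ≠ 0 → P.leadingCoeff.natDegree = 0 →
      1 ≤ (P.map φ).mahlerMeasure := fun P hP h0 => by
    set b := P.leadingCoeff.coeff 0
    have hb0 : P.leadingCoeff = Polynomial.C b := Polynomial.eq_C_of_natDegree_eq_zero h0
    have hb : b ≠ 0 := fun e => by
      rw [e, map_zero] at hb0
      exact Polynomial.leadingCoeff_ne_zero.2 hP hb0
    have hφb : φ P.leadingCoeff = (b : ℂ) := by simp [hφ, hb0]
    refine Polynomial.one_le_mahlerMeasure_of_one_le_norm_leadingCoeff ?_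
    rw [Polynomial.leadingCoeff_map_of_leadingCoeff_ne_zero φ (by rw [hφb]; exact_mod_cast hb),
      hφb, Complex.norm_intCast]
    exact_mod_cast Int.one_le_abs hb
  have hH1 := hone H hH0 hdeg.2
  have hM : (G.map φ).mahlerMeasure ≤ L := by
    refine le_trans (le_mul_of_one_le_right (Polynomial.mahlerMeasure_nonneg _) hH1) ?_
    rw [← Polynomial.mahlerMeasure_mul, ← Polynomial.map_mul]
    refine (Polynomial.mahlerMeasure_le_sum_norm_coeff _).trans (le_trans ?_ hL)
    rw [Polynomial.sum_def]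
    refine le_trans (le_of_eq (sum_congr rfl fun j _ => by rw [Polynomial.coeff_map]; rfl))
      (sum_le_sum_of_subset_of_nonneg (Polynomial.support_map_subset φ _) fun _ _ _ =>
        norm_nonneg _)
  have hk := Polynomial.norm_coeff_le_choose_mul_mahlerMeasure k (G.map φ)
  rw [Polynomial.coeff_map] at hk
  refine hk.trans (mul_le_mul ?_ hM (Polynomial.mahlerMeasure_nonneg _) (by positivity))
  calc (((G.map φ).natDegree.choose k : ℕ) : ℝ) ≤ ((2 ^ (G.map φ).natDegree : ℕ) : ℝ) :=
        Nat.cast_le.2 (Nat.choose_le_two_pow _ _)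
    _ ≤ (2 : ℝ) ^ T := by
        push_cast
        exact pow_le_pow_right₀ one_le_two (Polynomial.natDegree_map_le.trans hT)

/-- **A divisor is not much longer.** -/
theorem len_le_of_dvd {n g : MvPolynomial (Fin 2) ℤ} (hn : n ≠ 0) (hg : g ∣ n) {T : ℕ}
    (hT : n.totalDegree ≤ T) : len g ≤ len n * ((2 * T + 2 : ℕ) : ℝ) ^ (4 * T + 4) := by
  classical
  obtain ⟨l, hl, htop⟩ := exists_shear_nat hn hT
  obtain ⟨h, rfl⟩ := hg
  obtain ⟨hg0, hh0⟩ := mul_ne_zero_iff.1 hn
  obtain ⟨_, hlead⟩ := toXY_shear_lead htop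
  set g' := shear (l : ℤ) g with hg'
  set G := toXY g'
  set H := toXY (shear (l : ℤ) h)
  have hmul : toXY (shear (l : ℤ) (g * h)) = G * H := by rw [map_mul, map_mul]
  have hdegg : g'.totalDegree ≤ T := by
    rw [hg', totalDegree_shear]
    exact le_trans (Nat.le.intro (totalDegree_mul_of_isDomain hg0 hh0).symm) hT
  have hlR : |((l : ℤ) : ℝ)| ≤ T := by
    push_cast
    rw [abs_of_nonneg (Nat.cast_nonneg (α := ℝ) l)]
    exact Nat.cast_le.2 hl
  set L := len (g * h) * (1 + (T : ℝ)) ^ T
  have hL0 : 0 ≤ L := mul_nonneg (FA.Roth.len_nonneg _) (by positivity)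
  have hbound : ∀ i j, |((coeff (pair i j) g' : ℤ) : ℝ)| ≤ 2 * (2 ^ T * L) := by
    intro i j
    rcases lt_or_ge T i with hi | hi
    · rw [coeff_eq_zero_of_lt (by omega)]
      simpa using hL0
    have hkey := norm_le_of_orth (n := T) (c := T + 2) (by omega)
      (fun i => (((G.coeff j).coeff i : ℤ) : ℂ)) (ε := 2 ^ T * L) (fun a _ _ => ?_) hi
    · rwa [coeff_toXY, Complex.norm_intCast] at hkey
    set x := Complex.exp (2 * π * Complex.I * a / (T + 2 : ℕ))
    have heq : Polynomial.aeval x (G.coeff j) =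
        ∑ k ∈ range (T + 1), (((G.coeff j).coeff k : ℤ) : ℂ) * x ^ k := by
      rw [Polynomial.aeval_eq_sum_range' (Nat.lt_succ_of_le
        ((natDegree_coeff_toXY_le g' j).trans ((Nat.sub_le _ _).trans hdegg)))]
      simp [G, zsmul_eq_mul]
    rw [← heq]
    refine norm_coeff_factor_le htop (by rw [← hmul]; exact hlead)
      ((natDegree_toXY_le g').trans hdegg) ?_ j
    have hxn : ‖x‖ = 1 := by
      simp [x, Complex.norm_exp, Complex.div_re, Complex.mul_re, Complex.mul_im]
    rw [← hmul]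
    refine le_trans (sum_le_sum fun k _ => ?_) ((sum_len_coeff_toXY_le _ _).trans
      ((len_shear_le _ _ hT).trans (mul_le_mul_of_nonneg_left
        (pow_le_pow_left₀ (by positivity) (show 1 + |((l : ℤ) : ℝ)| ≤ 1 + (T : ℝ) by linarith) _)
        (FA.Roth.len_nonneg _))))
    refine (GelfondCubic.norm_aeval_le x _ le_rfl).trans (le_of_eq ?_)
    rw [hxn, max_self, one_pow, mul_one]
  have hlen' : len g' ≤ ((T + 1 : ℕ) : ℝ) ^ 2 * (2 * (2 ^ T * L)) := by
    refine (len_le_of_abs_coeff_le (b := 2 * (2 ^ T * L)) (by positivity) hdegg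
      fun s => ?_).trans_eq
      (by rw [Fintype.card_fin])
    rw [← pair_eta s]
    exact hbound _ _
  have hback : g = shear (-(l : ℤ)) g' := (shear_shear_neg _ _).symm
  refine ((congrArg len hback).trans_le (len_shear_le _ _ hdegg)).trans ?_
  have h1 : (1 + |((-(l : ℤ) : ℤ) : ℝ)|) ≤ 1 + (T : ℝ) := by
    rw [Int.cast_neg, abs_neg]
    linarith
  refine (mul_le_mul hlen' (pow_le_pow_left₀ (by positivity) h1 T) (by positivity)
    (by positivity)).trans ?_
  set U := ((2 * T + 2 : ℕ) : ℝ) with hU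
  have hU1 : (1 : ℝ) + T ≤ U := by rw [hU]; push_cast; linarith [Nat.cast_nonneg (α := ℝ) T]
  have hU2 : (2 : ℝ) ≤ U := by rw [hU]; push_cast; linarith [Nat.cast_nonneg (α := ℝ) T]
  calc ((T + 1 : ℕ) : ℝ) ^ 2 * (2 * (2 ^ T * L)) * (1 + (T : ℝ)) ^ T
      = len (g * h) * ((1 + (T : ℝ)) ^ (2 + T + T) * 2 ^ (T + 1)) := by
        simp only [L, pow_add]; push_cast; ring
    _ ≤ len (g * h) * (U ^ (2 + T + T) * U ^ (T + 1)) := by
        refine mul_le_mul_of_nonneg_left ?_ (FA.Roth.len_nonneg _)
        gcongr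
    _ ≤ len (g * h) * U ^ (4 * T + 4) := by
        refine mul_le_mul_of_nonneg_left ?_ (FA.Roth.len_nonneg _)
        rw [← pow_add]
        exact pow_le_pow_right₀ (by linarith) (by omega)

/-- **A small irreducible factor.** -/
theorem exists_small_factor {n : MvPolynomial (Fin 2) ℤ} (hn : n ≠ 0) (v : Fin 2 → ℂ) {S T : ℝ}
    (hS : 0 ≤ S) (hT : (n.totalDegree : ℝ) ≤ T) (h : ‖aeval v n‖ < Real.exp (-(S * T))) :
    ∃ f, Irreducible f ∧ 0 < f.totalDegree ∧ f ∣ n ∧ ‖aeval v f‖ ≤ Real.exp (-S) := by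
  by_contra hc
  push Not at hc
  suffices H : ∀ m : MvPolynomial (Fin 2) ℤ, m ∣ n → m ≠ 0 →
      Real.exp (-(S * m.totalDegree)) ≤ ‖aeval v m‖ by
    have h1 := H n dvd_rfl hn
    have h2 : Real.exp (-(S * T)) ≤ Real.exp (-(S * n.totalDegree)) :=
      Real.exp_le_exp.2 (neg_le_neg (mul_le_mul_of_nonneg_left hT hS))
    linarith
  have hconst : ∀ m : MvPolynomial (Fin 2) ℤ, m ≠ 0 → m.totalDegree = 0 →
      1 ≤ ‖aeval v m‖ := fun m hm h0 => by
    obtain ⟨c, rfl⟩ : ∃ c, m = C c := ⟨_, totalDegree_eq_zero_iff_eq_C.1 h0⟩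
    rw [aeval_C, algebraMap_int_eq, eq_intCast, Complex.norm_intCast]
    exact_mod_cast Int.one_le_abs fun e => hm (by rw [e, map_zero])
  intro m
  induction m using WfDvdMonoid.induction_on_irreducible with
  | zero => exact fun _ h0 => absurd rfl h0
  | unit u hu =>
    intro _ hu0
    obtain ⟨w, rfl⟩ := hu
    have h0 : (w : MvPolynomial (Fin 2) ℤ).totalDegree = 0 := by
      have h1 := totalDegree_mul_of_isDomain hu0 (Units.ne_zero w⁻¹)
      rw [Units.mul_inv, totalDegree_one] at h1
      omega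
    rw [h0, Nat.cast_zero, mul_zero, neg_zero, Real.exp_zero]
    exact hconst _ hu0 h0
  | mul a p ha hp ih =>
    intro hdvd _
    have hp0 := hp.ne_zero
    have hpS : Real.exp (-(S * p.totalDegree)) ≤ ‖aeval v p‖ := by
      rcases Nat.eq_zero_or_pos p.totalDegree with h0 | h0
      · rw [h0, Nat.cast_zero, mul_zero, neg_zero, Real.exp_zero]
        exact hconst p hp0 h0
      · refine le_trans (Real.exp_le_exp.2 (neg_le_neg ?_))
          (hc p hp h0 ((dvd_mul_right p a).trans hdvd)).le
        exact le_mul_of_one_le_right hS (Nat.one_le_cast.2 h0)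
    rw [map_mul, norm_mul, totalDegree_mul_of_isDomain hp0 ha, Nat.cast_add, mul_add, neg_add,
      Real.exp_add]
    exact mul_le_mul hpS (ih ((dvd_mul_left a p).trans hdvd) ha) (Real.exp_pos _).le (norm_nonneg _)

end FA.Nesterenko

end
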