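import Fermat.Agent.Nesterenko.Derivative
import Mathlib.Analysis.SpecialFunctions.Pow.Asymptotics
import Mathlib.Analysis.Complex.ExponentialBounds

/-!
# Elementary estimates for the sequence

The exact order of an auxiliary series, the majorant of its quotient on the disc of radius
`1 - 1 / M`, and the logarithmic inequalities for the values.
-/

set_option autoImplicit false

noncomputable section

namespace FA.Nesterenko

open MvPolynomial Finset
open FA.Roth (len)

theorem exists_exact_order {A : MvPolynomial (Fin 4) ℤ} {m bd : ℕ}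
    (hbd : ∀ k, PowerSeries.X ^ k ∣ ser A → k ≤ bd) (hm : PowerSeries.X ^ m ∣ ser A) :
    ∃ (M : ℕ) (A' : PowerSeries ℤ), m ≤ M ∧ M ≤ bd ∧ ser A = PowerSeries.X ^ M * A' ∧
      PowerSeries.coeff 0 A' ≠ 0 := by
  classical
  set P : ℕ → Prop := fun k => PowerSeries.X ^ k ∣ ser A with hP
  set M := Nat.findGreatest P bd with hM
  obtain ⟨A', hA'⟩ : P M := Nat.findGreatest_spec (P := P) (Nat.zero_le bd) (by simp [hP])
  refine ⟨M, A', Nat.le_findGreatest (P := P) (hbd _ hm) hm, Nat.findGreatest_le bd, hA',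
    fun h0 => ?_⟩
  obtain ⟨A'', hA''⟩ : PowerSeries.X ∣ A' := PowerSeries.X_dvd_iff.2
    (by rw [← PowerSeries.coeff_zero_eq_constantCoeff_apply]; exact h0)
  have h1 : P (M + 1) := ⟨A'', by rw [hA', hA'', pow_succ, mul_assoc]⟩
  have := Nat.le_findGreatest (P := P) (hbd _ h1) h1
  omega

theorem nice_of_eq {A : MvPolynomial (Fin 4) ℤ} {M : ℕ} {A' : PowerSeries ℤ}
    (h : ser A = PowerSeries.X ^ M * A') : Nice A' := fun ρ hρ hρ1 => by
  rcases hρ.eq_or_lt with h0 | h0
  · refine ⟨|((PowerSeries.coeff 0 A' : ℤ) : ℝ)|, ?_⟩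
    have hs : HasSum (fun n => |((PowerSeries.coeff n A' : ℤ) : ℝ)| * ρ ^ n)
        |((PowerSeries.coeff 0 A' : ℤ) : ℝ)| := by
      subst h0
      simpa using hasSum_single (f := fun n => |((PowerSeries.coeff n A' : ℤ) : ℝ)| * (0 : ℝ) ^ n)
        0 fun n hn => by simp [zero_pow hn]
    exact ⟨hs.summable, hs.tsum_eq.le⟩
  · exact ⟨_, (h ▸ maj_ser A le_rfl hρ hρ1 :
      Maj (PowerSeries.X ^ M * A') ρ _).shift h0⟩

theorem one_le_six_mul_pow {M : ℕ} (hM : (4 : ℝ) ≤ M) :
    (1 : ℝ) ≤ 6 * (1 - 1 / (M : ℝ)) ^ M := by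
  have h1 : 1 ≤ M := Nat.one_le_cast.1 (by linarith : (1 : ℝ) ≤ M)
  obtain ⟨k, rfl⟩ := Nat.exists_eq_add_of_le h1
  push_cast at hM ⊢
  set x := (k : ℝ) with hx
  have hx3 : 3 ≤ x := by linarith
  have e : (1 : ℝ) - 1 / (1 + x) = x / (1 + x) := by field_simp; ring
  rw [e, div_pow, mul_div_assoc', le_div_iff₀ (by positivity), one_mul, pow_add, pow_add,
    pow_one, pow_one]
  have h2 : (1 + 1 / x) ^ k ≤ 3 := by
    refine le_trans (pow_le_pow_left₀ (by positivity)
      (show 1 + 1 / x ≤ Real.exp (1 / x) by linarith [Real.add_one_le_exp (1 / x)]) _) ?_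
    rw [← Real.exp_nat_mul, ← hx, mul_one_div_cancel (by linarith)]
    linarith [Real.exp_one_lt_d9]
  have h3 : (1 + x) ^ k = (1 + 1 / x) ^ k * x ^ k := by
    rw [← mul_pow]
    field_simp
    ring
  rw [h3]
  have hxk : 0 ≤ x ^ k := by positivity
  nlinarith [mul_le_mul_of_nonneg_right h2 hxk]

theorem maj_quotient {A : MvPolynomial (Fin 4) ℤ} {D M : ℕ} {A' : PowerSeries ℤ}
    (hD : A.totalDegree ≤ D) (h : ser A = PowerSeries.X ^ M * A') (hM : (4 : ℝ) ≤ M) :
    Maj A' (1 - 1 / (M : ℝ)) (len A * (362880 * (M : ℝ) ^ 7) ^ D * 6) := by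
  have hr1 : 1 - 1 / (M : ℝ) < 1 := by
    have : 0 < 1 / (M : ℝ) := by positivity
    linarith
  have hr0 : 0 < 1 - 1 / (M : ℝ) := by
    rw [sub_pos, div_lt_one (by linarith)]
    linarith
  have hm := maj_ser A hD hr0.le hr1
  rw [h] at hm
  refine (hm.shift hr0).mono ?_
  have hg : growth (1 - 1 / (M : ℝ)) = 362880 * (M : ℝ) ^ 7 := by
    rw [growth, sub_sub_cancel, one_div, inv_pow, div_inv_eq_mul]
  rw [hg, div_le_iff₀ (pow_pos hr0 _), mul_assoc (len A * _) 6]
  exact le_mul_of_one_le_right (mul_nonneg (FA.Roth.len_nonneg _) (by positivity))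
    (one_le_six_mul_pow hM)

theorem geometric_le {a b r lam H : ℝ} {T : ℕ} (ha : 0 < a) (hb : 0 < b) (hbr : b ≤ r)
    (hlam : lam = Real.log (b / a)) (hH : 1 ≤ H) (hT : Real.log H + 3 ≤ T * lam) :
    (a / r) ^ T * (H + 1) ≤ 1 / 4 := by
  have h2 : (a / r) ^ T ≤ (a / b) ^ T :=
    pow_le_pow_left₀ (div_nonneg ha.le (hb.le.trans hbr))
      (div_le_div_of_nonneg_left ha.le hb hbr) T
  have h3 : (a / b) ^ T ≤ Real.exp (-(Real.log H + 3)) := by
    rw [← Real.exp_log (div_pos ha hb), ← Real.exp_nat_mul, Real.exp_le_exp, ← inv_div b a,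
      Real.log_inv, ← hlam]
    linarith
  have h4 : Real.exp (-(Real.log H + 3)) * H ≤ 1 / 8 := by
    rw [Real.exp_neg, Real.exp_add, Real.exp_log (by linarith), mul_inv_rev,
      inv_mul_cancel_right₀ (by linarith : H ≠ 0), inv_le_comm₀ (Real.exp_pos _) (by norm_num)]
    have := Real.sum_le_exp_of_nonneg (show (0 : ℝ) ≤ 3 by norm_num) 4
    norm_num [Finset.sum_range_succ, Nat.factorial] at this ⊢
    linarith
  calc (a / r) ^ T * (H + 1) ≤ Real.exp (-(Real.log H + 3)) * (2 * H) :=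
        mul_le_mul (h2.trans h3) (by linarith) (by linarith) (Real.exp_pos _).le
    _ ≤ 1 / 4 := by linarith

theorem lower_le {a Y : ℝ} {M T t : ℕ} (ha : 0 < a) (ha1 : a < 1) (hT : 1 ≤ T) (htT : t ≤ T)
    (hTM : T ≤ M) (hY : 1 ≤ Y) (h : (T : ℝ) * (Real.log Y + 4) ≤ M) :
    Real.exp (-((M : ℝ) * (2 * -Real.log a + 2))) ≤
      (12 : ℝ) ^ t * a ^ t * (a ^ M / (4 * T * Y ^ T)) := by
  refine le_trans ?_ (mul_le_mul_of_nonneg_right ((pow_le_pow_of_le_one ha.le ha1.le htT).trans
    (le_mul_of_one_le_left (by positivity) (one_le_pow₀ (by norm_num)))) (by positivity))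
  have hTR : (1 : ℝ) ≤ T := Nat.one_le_cast.2 hT
  have hl : Real.log 4 + Real.log T ≤ 4 * T := by
    rw [← Real.log_mul (by norm_num) (by positivity)]
    exact (Real.log_le_sub_one_of_pos (by positivity)).trans (by linarith)
  have hTa : (M : ℝ) * Real.log a ≤ T * Real.log a :=
    mul_le_mul_of_nonpos_right (Nat.cast_le.2 hTM) (Real.log_nonpos ha.le ha1.le)
  rw [← Real.log_le_log_iff (Real.exp_pos _) (by positivity), Real.log_exp,
    Real.log_mul (by positivity) (by positivity), Real.log_div (by positivity) (by positivity),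
    Real.log_mul (by positivity) (by positivity), Real.log_mul (by norm_num) (by positivity),
    Real.log_pow, Real.log_pow, Real.log_pow]
  linarith

theorem upper_le {b R H X U : ℝ} {M T t : ℕ} (hb : 0 < b) (hR : 0 < R) (hH : 1 ≤ H) (hT : 1 ≤ T)
    (hU : (t : ℝ) * (Real.log 12 + Real.log T + -Real.log R) + Real.log H ≤ U)
    (hX : X + U ≤ (M : ℝ) * -Real.log b) :
    (12 : ℝ) ^ t * 1 * ((T : ℝ) ^ t * (b ^ M * H) / R ^ t) ≤ Real.exp (-X) := by
  have hT0 : (0 : ℝ) < T := Nat.cast_pos.2 hT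
  have hH0 : 0 < H := by linarith
  rw [← Real.log_le_log_iff (by positivity) (Real.exp_pos _), Real.log_exp,
    Real.log_mul (by positivity) (by positivity), Real.log_mul (by positivity) one_ne_zero,
    Real.log_div (by positivity) (by positivity), Real.log_mul (by positivity) (by positivity),
    Real.log_mul (by positivity) (by positivity), Real.log_pow, Real.log_pow, Real.log_pow,
    Real.log_pow, Real.log_one]
  linarith

theorem log_majorant_le {lA Np pe : ℝ} {M N : ℕ} (hM : (4 : ℝ) ≤ M) {A : ℝ} (hA : 1 ≤ A)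
    (hlA : Real.log A = lA) (hNp : lA ≤ Np) (hlogM : Real.log M ≤ 5 * pe) :
    Real.log (A * (362880 * (M : ℝ) ^ 7) ^ (4 * N) * 6) ≤
      Np + 4 * N * (20 + 35 * pe) + 5 := by
  rw [Real.log_mul (by positivity) (by norm_num), Real.log_mul (by positivity) (by positivity),
    Real.log_pow, Real.log_mul (by norm_num) (by positivity), Real.log_pow, hlA]
  push_cast
  have h36 : Real.log 362880 ≤ 20 := by
    rw [Real.log_le_iff_le_exp (by norm_num)]
    refine le_trans ?_ (Real.sum_le_exp_of_nonneg (by norm_num) 12)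
    norm_num [Finset.sum_range_succ, Nat.factorial]
  have h6 : Real.log 6 ≤ 5 := (Real.log_le_sub_one_of_pos (by norm_num)).trans (by norm_num)
  have h2 : 4 * (N : ℝ) * (Real.log 362880 + 7 * Real.log M) ≤ 4 * N * (20 + 35 * pe) :=
    mul_le_mul_of_nonneg_left (by linarith) (by positivity)
  linarith

theorem log_twelve_le : Real.log 12 ≤ 3 := by
  rw [Real.log_le_iff_le_exp (by norm_num)]
  refine le_trans ?_ (Real.sum_le_exp_of_nonneg (by norm_num) 5)
  norm_num [Finset.sum_range_succ, Nat.factorial]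

theorem log_three_hundred_le : Real.log 300 ≤ 7 := by
  rw [Real.log_le_iff_le_exp (by norm_num)]
  refine le_trans ?_ (Real.sum_le_exp_of_nonneg (by norm_num) 9)
  norm_num [Finset.sum_range_succ, Nat.factorial]

end FA.Nesterenko

end
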