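import Fermat.Agent.Nesterenko.Basic
import Mathlib.Algebra.Polynomial.Lifts
import Mathlib.RingTheory.IntegralClosure.IsIntegralClosure.Basic

/-!
# Integral products of values at roots

If `a ∏ (X - α u)` and `b ∏ (X - β u)` have algebraic integer coefficients, then so is
`a ^ D b ^ D ∏ P u (α u, β u)` for integer polynomials of degree `≤ D`.
-/

set_option autoImplicit false

noncomputable section

namespace FA.Nesterenko

open Finset Polynomial

/-- The coefficients are algebraic integers. -/
def IntegralCoeffs (h : ℂ[X]) : Prop := ∀ k, IsIntegral ℤ (h.coeff k)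

theorem isIntegral_lead_mul_root {h : ℂ[X]} (hh : IntegralCoeffs h) {r : ℂ} (hr : h.eval r = 0) :
    IsIntegral ℤ (h.leadingCoeff * r) := by
  obtain ⟨h₀, rfl⟩ : h ∈ lifts (algebraMap (integralClosure ℤ ℂ) ℂ) :=
    (lifts_iff_coeff_lifts _).2 fun k => ⟨⟨h.coeff k, hh k⟩, rfl⟩
  have hinj : Function.Injective (algebraMap (integralClosure ℤ ℂ) ℂ) := Subtype.val_injective
  have h1 : IsIntegral (integralClosure ℤ ℂ) (h₀.leadingCoeff • r) :=
    isIntegral_leadingCoeff_smul h₀ r (by rw [aeval_def, ← eval_map]; exact hr)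
  rw [Algebra.smul_def] at h1
  rw [coe_mapRingHom, leadingCoeff_map_of_injective hinj]
  exact isIntegral_trans _ h1

/-- Deflation. -/
theorem IntegralCoeffs.of_mul_X_sub_C {r : ℂ} {q : ℂ[X]} (h : IntegralCoeffs ((X - C r) * q)) :
    IntegralCoeffs q := by
  suffices H : ∀ n, ∀ q : ℂ[X], q.natDegree ≤ n → IntegralCoeffs ((X - C r) * q) →
      IntegralCoeffs q from H _ q le_rfl h
  intro n
  induction n with
  | zero =>
    intro q hq hprod k
    rcases k with _ | k
    · have h1 := hprod 1
      rw [eq_C_of_natDegree_eq_zero (Nat.le_zero.1 hq)] at h1 ⊢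
      simpa [sub_mul] using h1
    · rw [coeff_eq_zero_of_natDegree_lt (by omega)]
      exact isIntegral_zero
  | succ n ih =>
    intro q hq hprod
    set a := q.coeff (n + 1) with ha
    have hai : IsIntegral ℤ a := by
      have h1 := hprod (n + 2)
      rw [sub_mul, coeff_sub, show n + 2 = (n + 1) + 1 from rfl, coeff_X_mul, coeff_C_mul,
        coeff_eq_zero_of_natDegree_lt (show q.natDegree < n + 1 + 1 by omega), mul_zero,
        sub_zero] at h1
      exact h1
    have har : IsIntegral ℤ (a * r) := by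
      rcases eq_or_ne a 0 with h0 | h0
      · rw [h0, zero_mul]; exact isIntegral_zero
      have hd : q.natDegree = n + 1 := le_antisymm hq (le_natDegree_of_ne_zero h0)
      have h1 := isIntegral_lead_mul_root hprod (r := r) (by simp)
      rwa [leadingCoeff_mul, leadingCoeff_X_sub_C, one_mul, leadingCoeff, hd] at h1
    set q' := q - C a * X ^ (n + 1) with hq'
    have hq'deg : q'.natDegree ≤ n := by
      refine natDegree_le_iff_coeff_eq_zero.2 fun k hk => ?_
      rw [hq', coeff_sub, coeff_C_mul, coeff_X_pow]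
      rcases eq_or_ne k (n + 1) with rfl | hne
      · simp [ha]
      · rw [coeff_eq_zero_of_natDegree_lt (by omega), if_neg hne, mul_zero, sub_zero]
    have hprod' : IntegralCoeffs ((X - C r) * q') := fun k => by
      have e : (X - C r) * q' = (X - C r) * q - C a * X ^ (n + 2) + C (a * r) * X ^ (n + 1) := by
        rw [hq', map_mul]; ring
      rw [e, coeff_add, coeff_sub, coeff_C_mul, coeff_C_mul, coeff_X_pow, coeff_X_pow]
      refine ((hprod k).sub ?_).add ?_
      · split_ifs <;> simp [hai, isIntegral_zero]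
      · split_ifs <;> simp [har, isIntegral_zero]
    intro k
    have hk := ih q' hq'deg hprod' k
    rw [hq', coeff_sub, coeff_C_mul, coeff_X_pow] at hk
    have h2 : IsIntegral ℤ (a * if k = n + 1 then 1 else 0) := by
      split_ifs <;> simp [hai, isIntegral_zero]
    simpa using hk.add h2

/-- A part of the roots times the lead is an algebraic integer. -/
theorem isIntegral_mul_prod_subset {ι : Type*} (U : Finset ι) {a : ℂ} {α : ι → ℂ}
    (h : IntegralCoeffs (C a * ∏ u ∈ U, (X - C (α u)))) {s : Finset ι} (hs : s ⊆ U) :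
    IsIntegral ℤ (a * ∏ u ∈ s, α u) := by
  classical
  suffices H : ∀ t : Finset ι, Disjoint s t →
      IntegralCoeffs (C a * ∏ u ∈ s ∪ t, (X - C (α u))) →
      IntegralCoeffs (C a * ∏ u ∈ s, (X - C (α u))) by
    have h1 := H (U \ s) disjoint_sdiff (by rwa [union_sdiff_of_subset hs])
    have h2 := h1 0
    rw [coeff_C_mul, coeff_zero_prod] at h2
    simp only [coeff_sub, coeff_X_zero, coeff_C_zero, zero_sub, prod_neg] at h2
    rcases neg_one_pow_eq_or ℂ s.card with he | he <;> rw [he] at h2
    · simpa using h2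
    · simpa using h2.neg
  intro t
  induction t using Finset.induction with
  | empty => exact fun _ h => by simpa using h
  | insert v t hv ih =>
    intro hd h
    rw [disjoint_insert_right] at hd
    refine ih hd.2 (IntegralCoeffs.of_mul_X_sub_C (r := α v) ?_)
    rw [union_insert, prod_insert (by simp [hd.1, hv])] at h
    rwa [mul_left_comm]

theorem prod_pow_eq_prod_filter {ι M : Type*} [CommMonoid M] (U : Finset ι) (α : ι → M)
    (i : ι → ℕ) {D : ℕ} (hi : ∀ u ∈ U, i u ≤ D) :
    ∏ u ∈ U, α u ^ i u = ∏ d ∈ range D, ∏ u ∈ U.filter (fun u => d < i u), α u := by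
  simp only [prod_filter]
  rw [prod_comm]
  refine prod_congr rfl fun u hu => ?_
  rw [← prod_filter, prod_const]
  congr 1
  rw [show (range D).filter (fun d => d < i u) = range (i u) by
    ext d
    simp only [mem_filter, mem_range]
    have := hi u hu
    omega, card_range]

/-- **Products of values at pairs of roots.** -/
theorem isIntegral_prod_values {ι : Type*} (U : Finset ι) {a b : ℂ} {α β : ι → ℂ}
    (ha : IntegralCoeffs (C a * ∏ u ∈ U, (X - C (α u))))
    (hb : IntegralCoeffs (C b * ∏ u ∈ U, (X - C (β u)))) {D : ℕ}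
    (P : ι → MvPolynomial (Fin 2) ℤ) (hP : ∀ u ∈ U, (P u).totalDegree ≤ D) :
    IsIntegral ℤ (a ^ D * b ^ D * ∏ u ∈ U, MvPolynomial.aeval ![α u, β u] (P u)) := by
  classical
  simp only [MvPolynomial.aeval_def, MvPolynomial.eval₂_eq', Fin.prod_univ_two,
    Matrix.cons_val_zero, Matrix.cons_val_one]
  rw [prod_sum, mul_sum]
  refine IsIntegral.sum _ fun x hx => ?_
  rw [mem_pi] at hx
  rw [prod_mul_distrib, prod_mul_distrib]
  set i : ι → ℕ := fun u => if h : u ∈ U then x u h 0 else 0 with hi
  set j : ι → ℕ := fun u => if h : u ∈ U then x u h 1 else 0 with hj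
  have hle : ∀ u ∈ U, i u ≤ D ∧ j u ≤ D := fun u hu => by
    have h1 := (MvPolynomial.le_totalDegree (hx u hu)).trans (hP u hu)
    change ∑ y ∈ (x u hu).support, x u hu y ≤ D at h1
    rw [← Finsupp.degree_apply] at h1
    rw [hi, hj]
    simp only [dif_pos hu]
    exact ⟨(Finsupp.le_degree 0 _).trans h1, (Finsupp.le_degree 1 _).trans h1⟩
  have key : ∀ (c : ℂ) (γ : ι → ℂ) (e : ι → ℕ), (∀ u ∈ U, e u ≤ D) →
      IntegralCoeffs (C c * ∏ u ∈ U, (X - C (γ u))) →
      IsIntegral ℤ (c ^ D * ∏ u ∈ U, γ u ^ e u) := fun c γ e he hc => by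
    rw [prod_pow_eq_prod_filter U γ e he, show c ^ D = ∏ _d ∈ range D, c by simp,
      ← prod_mul_distrib]
    refine IsIntegral.prod _ fun d _ => ?_
    exact isIntegral_mul_prod_subset U hc (filter_subset _ _)
  have h1 : ∏ u ∈ U.attach, α u.1 ^ x u.1 u.2 0 = ∏ u ∈ U, α u ^ i u := by
    rw [← prod_attach U (fun u => α u ^ i u)]
    exact prod_congr rfl fun u _ => by simp [hi, u.2]
  have h2 : ∏ u ∈ U.attach, β u.1 ^ x u.1 u.2 1 = ∏ u ∈ U, β u ^ j u := by
    rw [← prod_attach U (fun u => β u ^ j u)]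
    exact prod_congr rfl fun u _ => by simp [hj, u.2]
  rw [h1, h2]
  have hA := key a α i (fun u hu => (hle u hu).1) ha
  have hB := key b β j (fun u hu => (hle u hu).2) hb
  have hC : IsIntegral ℤ (∏ u ∈ U.attach,
      (algebraMap ℤ ℂ) (MvPolynomial.coeff (x u.1 u.2) (P u.1))) :=
    IsIntegral.prod _ fun u _ => isIntegral_algebraMap
  convert (hC.mul hA).mul hB using 1
  ring

end FA.Nesterenko

end
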