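import Fermat.Agent.Nesterenko.Zeros
import Mathlib.Analysis.Calculus.Deriv.ZPow
import Mathlib.Analysis.Complex.Liouville

/-!
# One derivative of the auxiliary function is not too small

With `F = z ^ M G`, `G (0)` a non-zero integer, some derivative of order below `T` at `q` exceeds
an explicit `δ`; every derivative is at most `t! ρ ^ (-t)` times `|F|` near `q`.
-/

set_option autoImplicit false

noncomputable section

namespace FA.Nesterenko

open Finset Metric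
open scoped Nat Topology

theorem val_X_pow_mul_eventuallyEq {S : PowerSeries ℤ} {M : ℕ} {q : ℂ} (hq0 : q ≠ 0) :
    val S =ᶠ[𝓝 q] (fun z => z ^ (-(M : ℤ))) * val (PowerSeries.X ^ M * S) := by
  filter_upwards [isOpen_ne.mem_nhds hq0] with z hz
  rw [Pi.mul_apply, val_X_pow_mul, ← mul_assoc, zpow_neg, zpow_natCast,
    inv_mul_cancel₀ (pow_ne_zero _ hz), one_mul]

theorem Nice.X_pow_mul {S : PowerSeries ℤ} (hS : Nice S) (M : ℕ) :
    Nice (PowerSeries.X ^ M * S) := fun r hr hr1 => by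
  obtain ⟨B, hB⟩ := hS r hr hr1
  refine ⟨growth r ^ M * B, Maj.mul ?_ hB hr⟩
  simpa [eis] using (maj_eis 3 hr hr1).pow hr M

theorem norm_iteratedDeriv_val_le {S : PowerSeries ℤ} (hS : Nice S) {M T : ℕ} {q : ℂ} {δ : ℝ}
    (hq0 : q ≠ 0) (hq1 : ‖q‖ < 1)
    (h : ∀ t < T, ‖iteratedDeriv t (val (PowerSeries.X ^ M * S)) q‖ ≤ δ) {t : ℕ} (ht : t < T) :
    ‖iteratedDeriv t (val S) q‖ ≤
      δ / ‖q‖ ^ M * (((M + T : ℕ) : ℝ) / ‖q‖ + 1) ^ T := by
  have hδ : 0 ≤ δ := (norm_nonneg _).trans (h t ht)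
  have ha : 0 < ‖q‖ := norm_pos_iff.2 hq0
  have hF : AnalyticAt ℂ (val (PowerSeries.X ^ M * S)) q :=
    (differentiableOn_val (hS.X_pow_mul M)).analyticAt
      (isOpen_ball.mem_nhds (mem_ball_zero_iff.2 hq1))
  have hz : ContDiffAt ℂ t (fun z : ℂ => z ^ (-(M : ℤ))) q := by
    have : AnalyticAt ℂ (fun z : ℂ => z ^ (-(M : ℤ))) q := analyticAt_id.fun_zpow hq0
    exact this.contDiffAt
  rw [(val_X_pow_mul_eventuallyEq hq0).iteratedDeriv_eq t, iteratedDeriv_mul hz hF.contDiffAt]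
  set x := ((M + T : ℕ) : ℝ) / ‖q‖ with hx
  have hx0 : 0 ≤ x := by positivity
  refine (norm_sum_le _ _).trans ?_
  calc ∑ i ∈ range (t + 1), ‖(t.choose i : ℂ) * iteratedDeriv i (fun z : ℂ => z ^ (-(M : ℤ))) q *
        iteratedDeriv (t - i) (val (PowerSeries.X ^ M * S)) q‖
      ≤ ∑ i ∈ range (t + 1), δ / ‖q‖ ^ M * (x ^ i * 1 ^ (t - i) * (t.choose i : ℝ)) := by
        refine sum_le_sum fun i hi => ?_
        have hi' := Nat.lt_succ_iff.1 (mem_range.1 hi)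
        rw [norm_mul, norm_mul, Complex.norm_natCast, iteratedDeriv_eq_iterate, iter_deriv_zpow,
          norm_mul, norm_zpow, norm_prod, one_pow, mul_one]
        have hp : ∏ k ∈ range i, ‖((-(M : ℤ) : ℤ) : ℂ) - k‖ ≤ ((M + T : ℕ) : ℝ) ^ i := by
          refine (prod_le_prod (fun _ _ => norm_nonneg _)
            (g := fun _ => ((M + T : ℕ) : ℝ)) fun k hk => ?_).trans_eq (by simp)
          rw [show ((-(M : ℤ) : ℤ) : ℂ) - k = -(((M + k : ℕ) : ℂ)) by push_cast; ring, norm_neg,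
            Complex.norm_natCast]
          exact Nat.cast_le.2 (by have := mem_range.1 hk; omega)
        have he : ‖q‖ ^ (-(M : ℤ) - (i : ℤ)) = 1 / (‖q‖ ^ M * ‖q‖ ^ i) := by
          rw [zpow_sub₀ ha.ne', zpow_neg, zpow_natCast, zpow_natCast]
          field_simp
        rw [he]
        calc (t.choose i : ℝ) * ((∏ k ∈ range i, ‖((-(M : ℤ) : ℤ) : ℂ) - k‖) *
              (1 / (‖q‖ ^ M * ‖q‖ ^ i))) *
              ‖iteratedDeriv (t - i) (val (PowerSeries.X ^ M * S)) q‖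
            ≤ (t.choose i : ℝ) * (((M + T : ℕ) : ℝ) ^ i * (1 / (‖q‖ ^ M * ‖q‖ ^ i))) * δ := by
              gcongr
              exact h _ (by omega)
          _ = δ / ‖q‖ ^ M * (x ^ i * (t.choose i : ℝ)) := by
              rw [hx, div_pow]; field_simp
    _ = δ / ‖q‖ ^ M * (x + 1) ^ t := by rw [← mul_sum, add_pow]
    _ ≤ δ / ‖q‖ ^ M * (x + 1) ^ T :=
        mul_le_mul_of_nonneg_left (pow_le_pow_right₀ (by linarith) ht.le) (by positivity)

/-- **Some derivative is not too small.** -/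
theorem exists_large_deriv {S : PowerSeries ℤ} (hS : Nice S) (h0 : PowerSeries.coeff 0 S ≠ 0)
    {M T : ℕ} (hT1 : 1 ≤ T) {q : ℂ} (hq0 : q ≠ 0) {r H : ℝ} (hqr : ‖q‖ < r) (hr1 : r < 1)
    (hH : Maj S r H) (hT : (‖q‖ / r) ^ T * (H + 1) ≤ 1 / 4) :
    ∃ t < T, ‖q‖ ^ M / (4 * T * (2 * (((M + T : ℕ) : ℝ) / ‖q‖ + 1)) ^ T) <
      ‖iteratedDeriv t (val (PowerSeries.X ^ M * S)) q‖ := by
  by_contra hc
  push Not at hc
  set δ := ‖q‖ ^ M / (4 * T * (2 * (((M + T : ℕ) : ℝ) / ‖q‖ + 1)) ^ T) with hδ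
  have ha : 0 < ‖q‖ := norm_pos_iff.2 hq0
  have hTR : (1 : ℝ) ≤ T := Nat.one_le_cast.2 hT1
  set y := ((M + T : ℕ) : ℝ) / ‖q‖ + 1 with hy
  have hy0 : 0 < y := by positivity
  refine false_of_small_derivs hS h0 hqr hr1 hH
    (fun t ht => norm_iteratedDeriv_val_le hS hq0 (hqr.trans hr1) hc ht) ?_ hT
  rw [hδ]
  refine le_of_eq ?_
  rw [← hy, mul_pow]
  field_simp

theorem norm_iteratedDeriv_le_sphere {S : PowerSeries ℤ} (hS : Nice S) {M : ℕ} {q : ℂ}
    {r ρ b H : ℝ} (hρ : 0 < ρ) (hb : ‖q‖ + ρ ≤ b) (hbr : b ≤ r) (hr1 : r < 1) (hH : Maj S r H)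
    (t : ℕ) :
    ‖iteratedDeriv t (val (PowerSeries.X ^ M * S)) q‖ ≤ t ! * (b ^ M * H) / ρ ^ t := by
  refine Complex.norm_iteratedDeriv_le_of_forall_mem_sphere_norm_le t hρ ?_ fun z hz => ?_
  · refine DifferentiableOn.diffContOnCl ?_
    rw [closure_ball _ hρ.ne']
    refine (differentiableOn_val (hS.X_pow_mul M)).mono fun z hz => ?_
    rw [mem_closedBall, dist_eq_norm] at hz
    rw [mem_ball_zero_iff]
    linarith [norm_le_norm_sub_add z q]
  · rw [mem_sphere_iff_norm] at hz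
    have hzb : ‖z‖ ≤ b := by linarith [norm_le_norm_sub_add z q]
    rw [val_X_pow_mul, norm_mul, norm_pow]
    exact mul_le_mul (pow_le_pow_left₀ (norm_nonneg _) hzb _) (hH.norm_val_le (hzb.trans hbr))
      (norm_nonneg _) (pow_nonneg ((norm_nonneg _).trans hzb) _)

end FA.Nesterenko

end
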