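import Fermat.Agent.Nesterenko.Coordinates
import Fermat.Agent.GelfondCubic.Resultant
import Mathlib.RingTheory.Polynomial.Resultant.Basic
import Mathlib.LinearAlgebra.Matrix.Adjugate

/-!
# The projection of two curves to a line

`lineRes f g l` is the resultant in `y` of `f (z - l y, y)` and `g (z - l y, y)`: its degree and
length are bounded through the columns of the Sylvester matrix, and it is small at `v₀ + l v₁` when
`f` and `g` are small at `v`.
-/

set_option autoImplicit false

noncomputable section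

namespace FA.Nesterenko

open Finset Matrix
open FA.Roth (len)

/-- A subadditive and submultiplicative size of a determinant. -/
theorem size_det_le {R ι : Type*} [CommRing R] [Fintype ι] [DecidableEq ι] (S : R → ℝ)
    (hS : ∀ a, 0 ≤ S a) (hone : S 1 ≤ 1) (hzero : S 0 = 0) (hneg : ∀ a, S (-a) = S a)
    (hadd : ∀ a b, S (a + b) ≤ S a + S b) (hmul : ∀ a b, S (a * b) ≤ S a * S b)
    (M : Matrix ι ι R) : S M.det ≤ ∏ j, ∑ i, S (M i j) := by
  classical
  have hp : ∀ s : Finset ι, ∀ F : ι → R, S (∏ i ∈ s, F i) ≤ ∏ i ∈ s, S (F i) := fun s F => by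
    induction s using Finset.induction with
    | empty => simpa using hone
    | insert a s ha ih =>
      rw [prod_insert ha, prod_insert ha]
      exact (hmul _ _).trans (mul_le_mul_of_nonneg_left ih (hS _))
  rw [det_apply]
  refine (le_sum_of_subadditive S hzero.le hadd _ _).trans ?_
  refine (sum_le_sum (g := fun p : Equiv.Perm ι => ∏ j, S (M (p j) j)) fun p _ => ?_).trans ?_
  · rcases Int.units_eq_one_or (Equiv.Perm.sign p) with hs | hs <;> rw [hs]
    · simpa using hp univ _
    · simpa [hneg] using hp univ _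
  · rw [Fintype.prod_sum (fun j i => S (M i j))]
    refine (sum_image (f := fun x : ι → ι => ∏ j, S (M (x j) j)) (g := fun p : Equiv.Perm ι => ⇑p)
      fun p _ q _ h => Equiv.coe_fn_injective h).symm.trans_le ?_
    exact sum_le_sum_of_subset_of_nonneg (subset_univ _) fun x _ _ => prod_nonneg fun j _ => hS _

theorem sum_shift_le {N a d : ℕ} (h : a + d < N) (u : ℕ → ℝ) {L : ℝ}
    (hL : ∑ k ∈ range (d + 1), u k ≤ L) :
    ∑ i : Fin N, (if (i : ℕ) ∈ Set.Icc a (a + d) then u ((i : ℕ) - a) else 0) ≤ L := by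
  rw [GelfondCubic.sum_fin_shift h (fun i => u (i - a))]
  refine le_trans (le_of_eq ?_) hL
  simp

/-- A resultant of two small values is small. -/
theorem norm_resultant_le {F G : Polynomial ℂ} {m n : ℕ} (hm : F.natDegree ≤ m)
    (hn : G.natDegree ≤ n) (hmn : 0 < m + n) {LF LG : ℝ} (hLF1 : 1 ≤ LF) (hLG1 : 1 ≤ LG)
    (hLF : ∑ k ∈ range (m + 1), ‖F.coeff k‖ ≤ LF) (hLG : ∑ k ∈ range (n + 1), ‖G.coeff k‖ ≤ LG)
    (y : ℂ) :
    ‖Polynomial.resultant F G m n‖ ≤ max ‖F.eval y‖ ‖G.eval y‖ *
      (2 * (m + n : ℕ) * max 1 ‖y‖ ^ (m + n) * (LG ^ m * LF ^ n)) := by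
  classical
  set S := Polynomial.sylvester F G m n with hS
  set v : Fin (m + n) → ℂ := fun i => y ^ (i : ℕ) with hv
  set i₀ : Fin (m + n) := ⟨0, hmn⟩
  have hcol : ∀ (P : Polynomial ℂ) (a d : ℕ), a + d < m + n → P.natDegree ≤ d →
      ∑ i : Fin (m + n), y ^ (i : ℕ) *
        (if (i : ℕ) ∈ Set.Icc a (a + d) then P.coeff ((i : ℕ) - a) else 0) = y ^ a * P.eval y := by
    intro P a d h hd
    simp only [mul_ite, mul_zero]
    rw [GelfondCubic.sum_fin_shift h (fun i => y ^ i * P.coeff (i - a)),
      Polynomial.eval_eq_sum_range' (Nat.lt_succ_of_le hd), mul_sum]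
    refine sum_congr rfl fun k _ => ?_
    rw [Nat.add_sub_cancel_left, pow_add]
    ring
  set Θ := max 1 ‖y‖ with hΘ
  have hΘ1 : 1 ≤ Θ := le_max_left _ _
  set V := max ‖F.eval y‖ ‖G.eval y‖ with hV
  have hpow : ∀ a : ℕ, a ≤ m + n → ∀ x : ℂ, ‖x‖ ≤ V → ‖y ^ a * x‖ ≤ V * Θ ^ (m + n) :=
    fun a ha x hx => by
      rw [norm_mul, norm_pow, mul_comm]
      exact mul_le_mul hx ((pow_le_pow_left₀ (norm_nonneg _) (le_max_right _ _) a).trans
        (pow_le_pow_right₀ hΘ1 ha)) (by positivity) ((norm_nonneg _).trans hx)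
  have hvS : ∀ j, ‖(v ᵥ* S) j‖ ≤ V * Θ ^ (m + n) := fun j => by
    simp only [vecMul, dotProduct, hv, hS, Polynomial.sylvester, Matrix.of_apply]
    induction j using Fin.addCases with
    | left j =>
      simp only [Fin.addCases_left]
      rw [hcol G _ _ (by omega) hn]
      exact hpow _ (by omega) _ (le_max_right _ _)
    | right j =>
      simp only [Fin.addCases_right]
      rw [hcol F _ _ (by omega) hm]
      exact hpow _ (by omega) _ (le_max_left _ _)
  set ℓ : Fin (m + n) → ℝ :=
    Fin.addCases (motive := fun _ => ℝ) (fun _ => LG) (fun _ => LF) with hℓ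
  have hℓ1 : ∀ j, 1 ≤ ℓ j := fun j => by
    induction j using Fin.addCases <;> simp [hℓ, hLF1, hLG1]
  have hnorm : ∀ j, ∑ i, ‖S i j‖ ≤ ℓ j := fun j => by
    simp only [hS, hℓ, Polynomial.sylvester, Matrix.of_apply]
    induction j using Fin.addCases with
    | left j =>
      simp only [Fin.addCases_left, apply_ite norm, norm_zero]
      exact sum_shift_le (by omega) (fun k => ‖G.coeff k‖) hLG
    | right j =>
      simp only [Fin.addCases_right, apply_ite norm, norm_zero]
      exact sum_shift_le (by omega) (fun k => ‖F.coeff k‖) hLF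
  have hadj : ∀ j, ‖S.adjugate j i₀‖ ≤ 2 * ∏ l, ℓ l := fun j => by
    rw [adjugate_apply]
    refine (size_det_le (fun z : ℂ => ‖z‖) norm_nonneg norm_one.le norm_zero norm_neg norm_add_le
      norm_mul_le _).trans ?_
    have hb : ∀ l, ∑ i, ‖S.updateRow i₀ (Pi.single j 1) i l‖ ≤
        ℓ l * (if l = j then 2 else 1) := fun l => by
      refine le_trans (sum_le_sum (g := fun i => ‖S i l‖ + if i = i₀ ∧ l = j then 1 else 0)
        fun i _ => ?_) ?_
      · rcases eq_or_ne i i₀ with rfl | hi
        · by_cases hl : l = j <;> simp [hl]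
        · simp [hi]
      · rw [sum_add_distrib]
        have h1 := hnorm l
        have h2 := hℓ1 l
        by_cases hl : l = j
        · simp [hl] at h1 h2 ⊢
          linarith
        · simp [hl]
          linarith
    refine (prod_le_prod (fun l _ => sum_nonneg fun _ _ => norm_nonneg _) fun l _ => hb l).trans ?_
    rw [prod_mul_distrib, Fintype.prod_ite_eq', mul_comm]
  have hprod : ∏ l, ℓ l = LG ^ m * LF ^ n := by
    rw [Fin.prod_univ_add]
    simp [hℓ]
  have e : (v ᵥ* S) ᵥ* S.adjugate = S.det • v := by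
    rw [vecMul_vecMul, mul_adjugate, vecMul_smul, vecMul_one]
  have e0 : ‖S.det‖ = ‖∑ j, (v ᵥ* S) j * S.adjugate j i₀‖ := by
    rw [show ∑ j, (v ᵥ* S) j * S.adjugate j i₀ = ((v ᵥ* S) ᵥ* S.adjugate) i₀ from rfl, e]
    simp [hv, i₀]
  refine (e0.trans_le ((norm_sum_le _ _).trans ((sum_le_card_nsmul _ _ _ fun j _ =>
    (norm_mul_le _ _).trans (mul_le_mul (hvS j) (hadj j) (norm_nonneg _)
      ((norm_nonneg _).trans (hvS j)))).trans_eq ?_)))
  rw [card_univ, Fintype.card_fin, nsmul_eq_mul, hprod]
  ring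

/-- The resultant in `y` on the lines `x + l y = z`. -/
def lineRes (f g : MvPolynomial (Fin 2) ℤ) (l : ℤ) : Polynomial ℤ :=
  Polynomial.resultant (toXY (shear l f)) (toXY (shear l g)) f.totalDegree g.totalDegree

theorem eval_map_toXY (P : MvPolynomial (Fin 2) ℤ) (z y : ℂ) :
    ((toXY P).map (Polynomial.aeval (R := ℤ) z).toRingHom).eval y =
      MvPolynomial.aeval ![z, y] P := by
  have h : ((Polynomial.evalRingHom y).comp
      (Polynomial.mapRingHom (Polynomial.aeval (R := ℤ) z).toRingHom)).comp toXY.toRingHom =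
      (MvPolynomial.aeval ![z, y]).toRingHom := by
    refine MvPolynomial.ringHom_ext (fun c => ?_) fun i => ?_
    · simp [toXY, toXYHom]
    · fin_cases i <;> simp [toXY, toXYHom]
  exact RingHom.congr_fun h P

theorem natDegree_map_toXY_shear_le (P : MvPolynomial (Fin 2) ℤ) (l : ℤ) (z : ℂ) :
    ((toXY (shear l P)).map (Polynomial.aeval (R := ℤ) z).toRingHom).natDegree ≤ P.totalDegree :=
  Polynomial.natDegree_map_le.trans ((natDegree_toXY_le _).trans (totalDegree_shear l P).le)

theorem sum_norm_coeff_map_le (P : MvPolynomial (Fin 2) ℤ) (l : ℤ) (z : ℂ) :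
    ∑ k ∈ range (P.totalDegree + 1),
      ‖((toXY (shear l P)).map (Polynomial.aeval (R := ℤ) z).toRingHom).coeff k‖ ≤
      len P * ((1 + |(l : ℝ)|) * max 1 ‖z‖) ^ P.totalDegree := by
  rw [mul_pow, ← mul_assoc]
  refine le_trans (sum_le_sum (g := fun k => GelfondCubic.len ((toXY (shear l P)).coeff k) *
    max 1 ‖z‖ ^ P.totalDegree) fun k _ => ?_) ?_
  · rw [Polynomial.coeff_map]
    refine GelfondCubic.norm_aeval_le z _ ?_
    exact (natDegree_coeff_toXY_le _ _).trans ((Nat.sub_le _ _).trans (totalDegree_shear l P).le)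
  · rw [← sum_mul]
    exact mul_le_mul_of_nonneg_right ((sum_len_coeff_toXY_le _ _).trans (len_shear_le _ _ le_rfl))
      (by positivity)

theorem natDegree_lineRes_le (f g : MvPolynomial (Fin 2) ℤ) (l : ℤ) :
    (lineRes f g l).natDegree ≤ 2 * f.totalDegree * g.totalDegree := by
  classical
  set m := f.totalDegree
  set n := g.totalDegree
  rw [lineRes, Polynomial.resultant, det_apply]
  refine Polynomial.natDegree_sum_le_of_forall_le _ _ fun p _ => ?_
  refine (Polynomial.natDegree_smul_le _ _).trans ((Polynomial.natDegree_prod_le _ _).trans ?_)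
  refine (sum_le_sum (g := Fin.addCases (motive := fun _ => ℕ) (fun _ => n) (fun _ => m))
    fun j _ => ?_).trans (le_of_eq ?_)
  · rw [Polynomial.sylvester, Matrix.of_apply]
    induction j using Fin.addCases with
    | left j =>
      simp only [Fin.addCases_left]
      split_ifs
      · exact (natDegree_coeff_toXY_le _ _).trans
          ((Nat.sub_le _ _).trans (totalDegree_shear l g).le)
      · simp
    | right j =>
      simp only [Fin.addCases_right]
      split_ifs
      · exact (natDegree_coeff_toXY_le _ _).trans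
          ((Nat.sub_le _ _).trans (totalDegree_shear l f).le)
      · simp
  · rw [Fin.sum_univ_add]
    simp
    ring

theorem len_lineRes_le (f g : MvPolynomial (Fin 2) ℤ) (l : ℤ) :
    GelfondCubic.len (lineRes f g l) ≤
      (len g * (1 + |(l : ℝ)|) ^ g.totalDegree) ^ f.totalDegree *
        (len f * (1 + |(l : ℝ)|) ^ f.totalDegree) ^ g.totalDegree := by
  classical
  set m := f.totalDegree
  set n := g.totalDegree
  rw [lineRes, Polynomial.resultant]
  refine (size_det_le GelfondCubic.len GelfondCubic.len_nonneg GelfondCubic.len_one.le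
    GelfondCubic.len_zero GelfondCubic.len_neg GelfondCubic.len_add_le GelfondCubic.len_mul_le
    _).trans ?_
  refine (prod_le_prod (fun j _ => sum_nonneg fun i _ => GelfondCubic.len_nonneg _)
    (g := Fin.addCases (motive := fun _ => ℝ) (fun _ => len g * (1 + |(l : ℝ)|) ^ n)
      (fun _ => len f * (1 + |(l : ℝ)|) ^ m)) fun j _ => ?_).trans (le_of_eq ?_)
  · simp only [Polynomial.sylvester, Matrix.of_apply]
    induction j using Fin.addCases with
    | left j =>
      simp only [Fin.addCases_left, apply_ite GelfondCubic.len, GelfondCubic.len_zero]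
      exact sum_shift_le (by omega) (fun k => GelfondCubic.len ((toXY (shear l g)).coeff k))
        ((sum_len_coeff_toXY_le _ _).trans (len_shear_le _ _ le_rfl))
    | right j =>
      simp only [Fin.addCases_right, apply_ite GelfondCubic.len, GelfondCubic.len_zero]
      exact sum_shift_le (by omega) (fun k => GelfondCubic.len ((toXY (shear l f)).coeff k))
        ((sum_len_coeff_toXY_le _ _).trans (len_shear_le _ _ le_rfl))
  · rw [Fin.prod_univ_add]
    simp [m, n]

/-- **The resultant is small where the curves are.** -/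
theorem norm_lineRes_le {f g : MvPolynomial (Fin 2) ℤ} (hf0 : f ≠ 0) (hg0 : g ≠ 0)
    (hf : 0 < f.totalDegree) (l : ℤ) (v : Fin 2 → ℂ) :
    ‖Polynomial.aeval (v 0 + l * v 1) (lineRes f g l)‖ ≤
      max ‖MvPolynomial.aeval v f‖ ‖MvPolynomial.aeval v g‖ *
        (2 * (f.totalDegree + g.totalDegree : ℕ) *
          max 1 ‖v 1‖ ^ (f.totalDegree + g.totalDegree) *
          ((len g * ((1 + |(l : ℝ)|) * max 1 ‖v 0 + l * v 1‖) ^ g.totalDegree) ^ f.totalDegree *
          (len f * ((1 + |(l : ℝ)|) * max 1 ‖v 0 + l * v 1‖) ^ f.totalDegree) ^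
            g.totalDegree)) := by
  set z := v 0 + l * v 1 with hz
  set φ := (Polynomial.aeval (R := ℤ) z).toRingHom with hφ
  have he : ∀ P : MvPolynomial (Fin 2) ℤ, ((toXY (shear l P)).map φ).eval (v 1) =
      MvPolynomial.aeval v P := fun P => by
    rw [eval_map_toXY, aeval_shear]
    congr 2
    funext i
    fin_cases i <;> simp [hz]
  have hx : (1 : ℝ) ≤ (1 + |(l : ℝ)|) * max 1 ‖z‖ :=
    one_le_mul_of_one_le_of_one_le (le_add_of_nonneg_right (abs_nonneg _)) (le_max_left _ _)
  have h := norm_resultant_le (natDegree_map_toXY_shear_le f l z)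
    (natDegree_map_toXY_shear_le g l z) (by omega)
    (one_le_mul_of_one_le_of_one_le (FA.Roth.one_le_len hf0) (one_le_pow₀ hx))
    (one_le_mul_of_one_le_of_one_le (FA.Roth.one_le_len hg0) (one_le_pow₀ hx))
    (sum_norm_coeff_map_le f l z) (sum_norm_coeff_map_le g l z) (v 1)
  rw [he, he, Polynomial.resultant_map_map] at h
  exact h

end FA.Nesterenko

end
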