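import Fermat.Agent.Nesterenko.CuspBound
import Mathlib.NumberTheory.Chebyshev
import Mathlib.Analysis.SpecialFunctions.Pow.Asymptotics

/-!
# The multiplicity estimate

A non-zero polynomial of degree `O(N)` and length `exp (N ^ (1 + ε))` in `R, Q, P, z` vanishes at
the origin to order at most `N ^ (4 + O(ε))`: an exponent four, as the dimension is.
-/

set_option autoImplicit false

noncomputable section

namespace FA.Nesterenko

open MvPolynomial Finset Filter
open FA.Roth (len)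
open scoped Real

/-- The coefficients of the cusp polynomial are smaller than one for a large order. -/
theorem sqrt_le_of_cuspPoly {A : MvPolynomial (Fin 4) ℤ} {D M C₀ : ℕ} (hA : cuspPoly A ≠ 0)
    (hD : A.totalDegree ≤ D) (hD1 : 1 ≤ D) (hM : PowerSeries.X ^ M ∣ ser A) (S : Finset ℕ)
    (hS : S.card = 6 * D + 1) (hp : ∀ c ∈ S, c.Prime ∧ 6 * D + 1 < c ∧ c ≤ C₀) :
    Real.sqrt M ≤
      400 * C₀ * ((D : ℝ) * (1 + Real.log (M + 1)) + Real.log (len A)) := by
  by_contra hlt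
  rw [not_le] at hlt
  set n := 6 * D with hn
  set s := Real.sqrt M with hs
  set lM := Real.log ((M : ℝ) + 1) with hlM
  set lA := Real.log (len A) with hlA
  have hA0 : A ≠ 0 := fun e => hA (by simp [cuspPoly, e])
  have hL : 1 ≤ len A := FA.Roth.one_le_len hA0
  have hlA0 : 0 ≤ lA := Real.log_nonneg hL
  have hlM0 : 0 ≤ lM := Real.log_nonneg (by linarith [Nat.cast_nonneg (α := ℝ) M])
  obtain ⟨c₁, hc₁⟩ := Finset.card_pos.1 (show 0 < S.card by omega)
  have hnC : ((n + 2 : ℕ) : ℝ) ≤ C₀ := Nat.cast_le.2 (by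
    obtain ⟨_, h2, h3⟩ := hp c₁ hc₁
    omega)
  have hDR : (1 : ℝ) ≤ D := Nat.one_le_cast.2 hD1
  have hW : (1 : ℝ) ≤ (D : ℝ) * (1 + lM) + lA := by nlinarith
  have hnR : (n : ℝ) = 6 * D := by rw [hn]; push_cast; ring
  push_cast at hnC
  have hC8 : (8 : ℝ) ≤ C₀ := by linarith
  have hbig : 4 * (C₀ : ℝ) ≤ s := by nlinarith
  have hsM : s ≤ M := by
    have hsq : s ^ 2 = M := Real.sq_sqrt (Nat.cast_nonneg M)
    nlinarith
  have hCn : (C₀ : ℝ) * ((n : ℝ) + 1) ≤ s := by
    refine le_trans ?_ hlt.le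
    rw [mul_comm (400 : ℝ), mul_assoc]
    exact mul_le_mul_of_nonneg_left (by nlinarith) (by linarith)
  set T : ℝ := 10 ^ 8 * (M + 1 : ℝ) ^ 7 with hT
  have hM7 : (M : ℝ) + 1 ≤ (M + 1 : ℝ) ^ 7 :=
    le_self_pow₀ (by linarith [Nat.cast_nonneg (α := ℝ) M]) (by norm_num)
  have hT1 : 4 * ((M : ℝ) + 1) ≤ T := by rw [hT]; nlinarith [Nat.cast_nonneg (α := ℝ) M]
  have hT0 : 1 ≤ T := by linarith [Nat.cast_nonneg (α := ℝ) M]
  set E := Real.exp (-(π * s / (2 * C₀))) with hE
  set ε := len A * ((D + 1 : ℕ) * T ^ (D + 1) * E) with hε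
  set cf : ℕ → ℕ → ℕ → ℂ := fun i j k => ((coeff (triple i j k) (cuspPoly A) : ℤ) : ℂ) with hcf
  -- one point
  have hsum : ∀ c ∈ S, ∀ i₀ ≤ n, ∀ i ≤ n,
      ‖∑ j ∈ range (n + 1), (∑ k ∈ range (n + 1), cf i j k * (slope * c) ^ k) *
        (Complex.I * c * ((⌈s / c⌉₊ + i₀ : ℕ) : ℝ)) ^ j‖ ≤ 2 * ε * Real.exp 1 ^ n := by
    intro c hc i₀ hi₀ i hi
    obtain ⟨hcp, hc6, hcC⟩ := hp c hc
    set Y := ⌈s / c⌉₊ + i₀ with hY
    have hcR : (0 : ℝ) < c := Nat.cast_pos.2 hcp.pos
    have hceil := Nat.le_ceil (s / c)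
    have hceil' := Nat.ceil_lt_add_one (show 0 ≤ s / c by positivity)
    have hlo : s ≤ (c * Y : ℕ) := by
      push_cast [hY]
      rw [div_le_iff₀ hcR] at hceil
      nlinarith [Nat.cast_nonneg (α := ℝ) i₀]
    have hhi : ((c * Y : ℕ) : ℝ) ≤ 2 * s := by
      push_cast [hY]
      rw [div_add_one hcR.ne', lt_div_iff₀ hcR] at hceil'
      have h1 : (c : ℝ) * ((i₀ : ℝ) + 1) ≤ C₀ * ((n : ℝ) + 1) :=
        mul_le_mul (Nat.cast_le.2 hcC) (by exact_mod_cast Nat.add_le_add_right hi₀ 1)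
          (by positivity)
          (by linarith)
      nlinarith
    have hcY : (0 : ℝ) < (c : ℝ) ^ 2 * Y := by
      push_cast at hlo
      nlinarith
    set w := Complex.I * c * ((Y : ℝ) : ℂ) with hw
    set ρ := Real.exp (-(2 * π / ((c : ℝ) ^ 2 * Y))) with hρ
    have hx := norm_le_of_orth (n := n) (show n + 1 < c by omega)
      (fun i => (ρ : ℂ) ^ i *
        ∑ j ∈ range (n + 1), (∑ k ∈ range (n + 1), cf i j k * (slope * c) ^ k) * w ^ j)
      (ε := ε) (fun a ha0 hac => ?_) hi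
    swap
    · refine le_trans (le_of_eq ?_) (norm_cuspPoly_le hD hM (a := a) (c := c) (Y := Y)
        (Nat.coprime_of_lt_prime ha0.ne' hac hcp).symm hcp.two_le hcC hlo hhi hbig)
      rw [aeval_eq_sum_box (n := n) (totalDegree_cuspPoly_le hD)]
      congr 1
      refine sum_congr rfl fun i _ => ?_
      rw [mul_sum, sum_mul]
      refine sum_congr rfl fun j _ => ?_
      rw [sum_mul, mul_sum, sum_mul]
      refine sum_congr rfl fun k _ => ?_
      simp only [hcf, hw, hρ, Matrix.cons_val_zero, Matrix.cons_val_one, Matrix.cons_val, mul_pow]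
      ring
    have hρ0 : 0 < ρ := Real.exp_pos _
    rw [norm_mul, norm_pow, Complex.norm_real, Real.norm_of_nonneg hρ0.le] at hx
    have hρn : 1 ≤ ρ ^ i * Real.exp 1 ^ n := by
      rw [hρ, ← Real.exp_nat_mul, ← Real.exp_nat_mul, ← Real.exp_add, Real.one_le_exp_iff]
      have h1 : (i : ℝ) ≤ n := Nat.cast_le.2 hi
      have h2 : 2 * π / ((c : ℝ) ^ 2 * Y) ≤ 1 := by
        rw [div_le_one hcY]
        push_cast at hlo
        have h2c : (2 : ℝ) ≤ c := by exact_mod_cast hcp.two_le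
        nlinarith [Real.pi_le_four]
      nlinarith [show (0 : ℝ) ≤ 2 * π / ((c : ℝ) ^ 2 * Y) by positivity]
    refine le_trans ?_ (mul_le_mul_of_nonneg_right hx (pow_nonneg (Real.exp_pos 1).le n))
    rw [mul_comm (ρ ^ i), mul_assoc]
    exact le_mul_of_one_le_right (norm_nonneg _) hρn
  -- interpolation in `w`
  set ε₁ := (n + 1 : ℕ) * ((1 + 2 * s) ^ n * (2 * ε * Real.exp 1 ^ n)) with hε₁
  have hw' : ∀ c ∈ S, ∀ i ≤ n, ∀ j ≤ n,
      ‖∑ k ∈ range (n + 1), cf i j k * (slope * c) ^ k‖ ≤ ε₁ := by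
    intro c hc i hi j hj
    obtain ⟨hcp, hc6, hcC⟩ := hp c hc
    have hcR : (0 : ℝ) < c := Nat.cast_pos.2 hcp.pos
    refine norm_coeff_le_of_small (range (n + 1))
      (fun i₀ => Complex.I * c * ((⌈s / c⌉₊ + i₀ : ℕ) : ℝ)) (card_range _) (B := 2 * s)
      (by positivity) (fun i₀ hi₀ => ?_) (fun k _ l _ hkl => ?_)
      (fun j => ∑ k ∈ range (n + 1), cf i j k * (slope * c) ^ k) (fun i₀ hi₀ =>
        hsum c hc i₀ (Nat.lt_succ_iff.1 (mem_range.1 hi₀)) i hi) hj
    · rw [norm_mul, norm_mul, Complex.norm_I, one_mul, Complex.norm_natCast, Complex.norm_real,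
        Real.norm_natCast]
      have hceil' := Nat.ceil_lt_add_one (show 0 ≤ s / c by positivity)
      rw [div_add_one hcR.ne', lt_div_iff₀ hcR] at hceil'
      have h1 : (c : ℝ) * ((i₀ : ℝ) + 1) ≤ C₀ * ((n : ℝ) + 1) :=
        mul_le_mul (Nat.cast_le.2 hcC) (by exact_mod_cast mem_range.1 hi₀) (by positivity)
          (by linarith)
      push_cast
      nlinarith
    · rw [← mul_sub, norm_mul, norm_mul, Complex.norm_I, one_mul, Complex.norm_natCast]
      refine one_le_mul_of_one_le_of_one_le (by exact_mod_cast hcp.pos) ?_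
      rw [← Complex.ofReal_sub, Complex.norm_real, Real.norm_eq_abs]
      push_cast
      rw [add_sub_add_left_eq_sub]
      have : (1 : ℤ) ≤ |(k : ℤ) - l| := Int.one_le_abs (by omega)
      exact_mod_cast this
  -- interpolation in `u`
  have hlast : ∀ i ≤ n, ∀ j ≤ n, ∀ k ≤ n,
      ‖cf i j k‖ ≤ (n + 1 : ℕ) * ((1 + 2 * C₀) ^ n * ε₁) := by
    intro i hi j hj k hk
    refine norm_coeff_le_of_small S (fun c => slope * c) (by rw [hS]) (B := 2 * C₀)
      (by positivity) (fun c hc => ?_) (fun a ha b hb hab => ?_) (fun k => cf i j k)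
      (fun c hc => hw' c hc i hi j hj) hk
    · rw [norm_mul, Complex.norm_natCast]
      exact mul_le_mul norm_slope_le.1 (Nat.cast_le.2 (hp c hc).2.2) (Nat.cast_nonneg _) zero_le_two
    · rw [← mul_sub, norm_mul]
      refine one_le_mul_of_one_le_of_one_le norm_slope_le.2 ?_
      have : (1 : ℤ) ≤ |(a : ℤ) - b| := Int.one_le_abs (by omega)
      rw [show ((a : ℂ) - b) = (((a : ℤ) - b : ℤ) : ℂ) by push_cast; rfl, Complex.norm_intCast]
      exact_mod_cast this
  have hsmall : ((n + 1 : ℕ) : ℝ) * ((1 + 2 * C₀) ^ n * ε₁) < 1 := by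
    have e1 : Real.exp 1 ≤ T := by
      linarith [Real.exp_one_lt_d9, Nat.cast_nonneg (α := ℝ) M]
    have e2 : ((n + 1 : ℕ) : ℝ) ≤ T := by push_cast; linarith
    have e3 : 1 + 2 * (C₀ : ℝ) ≤ T := by linarith
    have e4 : 1 + 2 * s ≤ T := by linarith
    have e5 : ((D + 1 : ℕ) : ℝ) ≤ T := by push_cast; linarith
    have hle : ((n + 1 : ℕ) : ℝ) * ((1 + 2 * C₀) ^ n * ε₁) ≤ T ^ (24 * D) * (len A * E) := by
      have h0 : 0 ≤ len A * E := mul_nonneg (FA.Roth.len_nonneg _) (Real.exp_pos _).le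
      calc ((n + 1 : ℕ) : ℝ) * ((1 + 2 * C₀) ^ n * ε₁)
          = ((n + 1 : ℕ) : ℝ) * ((1 + 2 * C₀) ^ n * (((n + 1 : ℕ) : ℝ) * ((1 + 2 * s) ^ n *
              (2 * ((D + 1 : ℕ) * T ^ (D + 1)) * Real.exp 1 ^ n)))) * (len A * E) := by
            rw [hε₁, hε]; ring
        _ ≤ T * (T ^ n * (T * (T ^ n * (T * (T * T ^ (D + 1)) * T ^ n)))) * (len A * E) := by
            gcongr
            linarith
        _ ≤ T ^ (24 * D) * (len A * E) := by
            refine mul_le_mul_of_nonneg_right ?_ h0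
            calc T * (T ^ n * (T * (T ^ n * (T * (T * T ^ (D + 1)) * T ^ n))))
                = T ^ (4 + 3 * n + (D + 1)) := by
                  simp only [pow_add, pow_mul, pow_succ]; ring
              _ ≤ T ^ (24 * D) := pow_le_pow_right₀ hT0 (by omega)
    refine hle.trans_lt ?_
    have hlogT : Real.log T ≤ 19 * (1 + lM) := by
      rw [hT, Real.log_mul (by norm_num) (by positivity), Real.log_pow, Real.log_pow, ← hlM]
      have h10 : Real.log 10 ≤ 2.375 := by
        rw [Real.log_le_iff_le_exp (by norm_num)]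
        refine le_trans ?_ (Real.sum_le_exp_of_nonneg (by norm_num) 9)
        norm_num [Finset.sum_range_succ, Nat.factorial]
      push_cast
      linarith
    rw [hE, ← Real.exp_log (show (0 : ℝ) < len A by linarith), ← hlA, ← Real.exp_add,
      ← Real.exp_log (show (0 : ℝ) < T by linarith), ← Real.exp_nat_mul, ← Real.exp_add,
      Real.exp_lt_one_iff]
    have hgoal : 600 * ((D : ℝ) * (1 + lM) + lA) < π * s / (2 * C₀) := by
      rw [lt_div_iff₀ (by linarith)]
      nlinarith [Real.pi_gt_three]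
    push_cast
    nlinarith [mul_le_mul_of_nonneg_left hlogT (show (0 : ℝ) ≤ 24 * D by positivity)]
  refine hA (MvPolynomial.ext _ _ fun d => ?_)
  rw [coeff_zero]
  by_contra hd
  have hle : ∀ l, d l ≤ n := fun l => ((Finsupp.le_degree l d).trans_eq (Finsupp.degree_apply d)
    ).trans ((le_totalDegree (mem_support_iff.2 hd)).trans (totalDegree_cuspPoly_le hD))
  have he : triple (d 0) (d 1) (d 2) = d := by
    ext l
    fin_cases l <;> simp [triple_apply]
  have h1 := (hlast _ (hle 0) _ (hle 1) _ (hle 2)).trans_lt hsmall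
  simp only [hcf] at h1
  rw [he, Complex.norm_intCast] at h1
  exact absurd h1 (not_lt.2 (by exact_mod_cast Int.one_le_abs hd))

/-- Enough primes below `N ^ (1 + ε)`. -/
theorem eventually_exists_primes {ε : ℝ} (hε : 0 < ε) :
    ∀ᶠ N : ℕ in atTop, ∃ S : Finset ℕ, S.card = 6 * (4 * N) + 1 ∧
      ∀ c ∈ S, c.Prime ∧ 6 * (4 * N) + 1 < c ∧ (c : ℝ) ≤ (N : ℝ) ^ (1 + ε) := by
  have h1 := ((tendsto_rpow_atTop (show 0 < ε / 2 by linarith)).comp
    tendsto_natCast_atTop_atTop).eventually_ge_atTop ((1 + ε) * 208 * (2 / ε) + 10)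
  filter_upwards [h1, eventually_ge_atTop 1] with N hN hN1
  simp only [Function.comp_apply] at hN
  have hNR : (1 : ℝ) ≤ N := Nat.one_le_cast.2 hN1
  set x := (N : ℝ) ^ (1 + ε) with hx
  set p := (N : ℝ) ^ (ε / 2) with hp
  have hεd : 0 ≤ 2 / ε := by positivity
  have hp10 : 10 ≤ p := le_trans (le_add_of_nonneg_left (by positivity)) hN
  have hxe : x = N * (p * p) := by
    rw [hx, hp, ← Real.rpow_add (by linarith), Real.rpow_add (by linarith), Real.rpow_one]
    ring_nf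
  set X := ⌊x⌋₊ with hX
  have hX1 : x - 1 ≤ X := (Nat.sub_one_lt_floor _).le
  have hXle : (X : ℝ) ≤ x := Nat.floor_le (by positivity)
  have hx100 : 100 * (N : ℝ) ≤ x := by
    rw [hxe, mul_comm]
    exact mul_le_mul_of_nonneg_left (by nlinarith) (by linarith)
  have hlog : Real.log x ≤ (1 + ε) * (2 / ε * p) := by
    rw [hx, Real.log_rpow (by linarith)]
    refine mul_le_mul_of_nonneg_left ?_ (by linarith)
    refine (Real.log_le_rpow_div (by linarith) (show 0 < ε / 2 by linarith)).trans_eq ?_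
    rw [← hp]
    field_simp
  have hXpos : (1 : ℝ) < X := by linarith
  have hpi := Chebyshev.pi_ge X
  have hcard : 48 * N + 3 ≤ Nat.primeCounting X := by
    have h2 : ((48 * N + 3 : ℕ) : ℝ) ≤
        ((X : ℝ) * Real.log 2 - Real.log (X + 1)) / Real.log X := by
      rw [le_div_iff₀ (Real.log_pos hXpos)]
      have hlX : Real.log X ≤ Real.log x := Real.log_le_log (by linarith) hXle
      have hlX1 : Real.log ((X : ℝ) + 1) ≤ Real.log 2 + Real.log x := by
        rw [← Real.log_mul two_ne_zero (by linarith)]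
        exact Real.log_le_log (by linarith) (by linarith)
      push_cast
      have h3 : (51 * (N : ℝ) + 1) * Real.log x ≤ x / 4 := by
        have h4 : (52 * (N : ℝ)) * ((1 + ε) * (2 / ε * p)) ≤ x / 4 := by
          rw [hxe]
          have h5 : 208 * ((1 + ε) * (2 / ε)) ≤ p := by linarith
          have : (0 : ℝ) ≤ (1 + ε) * (2 / ε) := by positivity
          have h6 : 0 ≤ N * p := by positivity
          nlinarith
        refine le_trans ?_ h4
        exact mul_le_mul (by linarith) hlog (Real.log_nonneg (by linarith)) (by positivity)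
      nlinarith [Real.log_two_gt_d9, Real.log_two_lt_d9,
        Real.log_nonneg (show (1 : ℝ) ≤ X by linarith)]
    exact_mod_cast h2.trans hpi
  set T := ((range (X + 1)).filter Nat.Prime).filter (6 * (4 * N) + 1 < ·) with hT
  have hTcard : 6 * (4 * N) + 1 ≤ T.card := by
    have h2 : ((range (X + 1)).filter Nat.Prime).card = Nat.primeCounting X := by
      rw [Nat.primeCounting, Nat.primeCounting', Nat.count_eq_card_filter_range]
    have h3 := card_filter_add_card_filter_not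
      (s := (range (X + 1)).filter Nat.Prime) (6 * (4 * N) + 1 < ·)
    have h4 : (((range (X + 1)).filter Nat.Prime).filter fun a => ¬6 * (4 * N) + 1 < a).card ≤
        6 * (4 * N) + 2 := by
      refine (card_le_card (t := range (6 * (4 * N) + 2)) fun a ha => ?_).trans (card_range _).le
      simp only [mem_filter, not_lt] at ha
      exact mem_range.2 (by omega)
    rw [← hT] at h3
    omega
  obtain ⟨S, hS, hScard⟩ := exists_subset_card_eq hTcard
  refine ⟨S, hScard, fun c hc => ?_⟩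
  have h := hS hc
  simp only [hT, mem_filter, mem_range] at h
  exact ⟨h.1.2, h.2, le_trans (Nat.cast_le.2 (by omega)) hXle⟩

/-- From `√M ≤ C N ^ (2 + 2ε) (1 + log (M + 1))` to `M + 1 ≤ N ^ (4 + 17 ε)`. -/
theorem eventually_le_of_sqrt_le {ε : ℝ} (hε : 0 < ε) (hε1 : ε ≤ 1) (C : ℝ) :
    ∀ᶠ N : ℕ in atTop, ∀ M : ℕ,
      Real.sqrt M ≤ C * (N : ℝ) ^ (2 + 2 * ε) * (1 + Real.log (M + 1)) →
      (M : ℝ) + 1 ≤ (N : ℝ) ^ (4 + 17 * ε) := by
  set t := ε / 8 with ht
  have h1 := ((tendsto_rpow_atTop hε).comp tendsto_natCast_atTop_atTop).eventually_ge_atTop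
    (((2 * |C| + 2) * (1 + 1 / t)) ^ (4 : ℝ))
  filter_upwards [h1, eventually_ge_atTop 1] with N hN hN1 M hM
  simp only [Function.comp_apply] at hN
  have hNR : (1 : ℝ) ≤ N := Nat.one_le_cast.2 hN1
  have hMR : (1 : ℝ) ≤ (M : ℝ) + 1 := by linarith [Nat.cast_nonneg (α := ℝ) M]
  set m := (M : ℝ) + 1 with hm
  have ht0 : 0 < t := by positivity
  set K := (2 * |C| + 2) * (1 + 1 / t) with hK
  have hK1 : 1 ≤ K := by
    have h2 : (0 : ℝ) ≤ 1 / t := by positivity
    rw [hK]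
    nlinarith [abs_nonneg C]
  have hlog : 1 + Real.log m ≤ (1 + 1 / t) * m ^ t := by
    have h2 := Real.log_le_rpow_div (x := m) (by linarith) ht0
    have h3 : 1 ≤ m ^ t := Real.one_le_rpow hMR ht0.le
    have e : (1 + 1 / t) * m ^ t = m ^ t + m ^ t / t := by ring
    linarith
  have hNe : 1 ≤ (N : ℝ) ^ (2 + 2 * ε) := Real.one_le_rpow hNR (by linarith)
  have hsqrt : m ^ (1 / 2 : ℝ) ≤ Real.sqrt M + 1 := by
    rw [← Real.sqrt_eq_rpow, hm]
    refine Real.sqrt_le_iff.2 ⟨by positivity, ?_⟩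
    nlinarith [Real.sq_sqrt (Nat.cast_nonneg (α := ℝ) M), Real.sqrt_nonneg (M : ℝ)]
  have hmain : m ^ (1 / 2 - t) ≤ K * (N : ℝ) ^ (2 + 2 * ε) := by
    rw [Real.rpow_sub (by linarith), div_le_iff₀ (by positivity)]
    refine hsqrt.trans ?_
    have hW : 1 ≤ (1 + 1 / t) * m ^ t := le_trans (by linarith [Real.log_nonneg hMR]) hlog
    have h4 : Real.sqrt M ≤ |C| * (N : ℝ) ^ (2 + 2 * ε) * ((1 + 1 / t) * m ^ t) := by
      refine hM.trans (mul_le_mul (mul_le_mul_of_nonneg_right (le_abs_self C) (by linarith)) hlog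
        (by linarith [Real.log_nonneg hMR]) (by positivity))
    have h5 : (1 : ℝ) ≤ (N : ℝ) ^ (2 + 2 * ε) * ((1 + 1 / t) * m ^ t) :=
      one_le_mul_of_one_le_of_one_le hNe hW
    have e : K * (N : ℝ) ^ (2 + 2 * ε) * m ^ t =
        (2 * |C| + 2) * ((N : ℝ) ^ (2 + 2 * ε) * ((1 + 1 / t) * m ^ t)) := by rw [hK]; ring
    rw [e]
    nlinarith [abs_nonneg C]
  have hexp : 0 < 1 / 2 - t := by rw [ht]; linarith
  have h6 : m ≤ (K * (N : ℝ) ^ (2 + 2 * ε)) ^ (1 / (1 / 2 - t)) := by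
    have h7 := Real.rpow_le_rpow (by positivity) hmain (le_of_lt (one_div_pos.2 hexp))
    rwa [← Real.rpow_mul (by linarith), mul_one_div_cancel hexp.ne', Real.rpow_one] at h7
  refine h6.trans ?_
  rw [Real.mul_rpow (by linarith) (by positivity), ← Real.rpow_mul (by linarith)]
  have hinv : 1 / (1 / 2 - t) ≤ 2 + ε := by
    rw [div_le_iff₀ hexp, ht]
    nlinarith
  calc K ^ (1 / (1 / 2 - t)) * (N : ℝ) ^ ((2 + 2 * ε) * (1 / (1 / 2 - t)))
      ≤ K ^ (4 : ℝ) * (N : ℝ) ^ ((2 + 2 * ε) * (2 + ε)) := by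
        refine mul_le_mul (Real.rpow_le_rpow_of_exponent_le hK1 (by linarith))
          (Real.rpow_le_rpow_of_exponent_le hNR ?_) (by positivity) (by positivity)
        exact mul_le_mul_of_nonneg_left hinv (by linarith)
    _ ≤ (N : ℝ) ^ ε * (N : ℝ) ^ ((2 + 2 * ε) * (2 + ε)) :=
        mul_le_mul_of_nonneg_right hN (by positivity)
    _ ≤ (N : ℝ) ^ (4 + 17 * ε) := by
        rw [← Real.rpow_add (by linarith)]
        exact Real.rpow_le_rpow_of_exponent_le hNR (by nlinarith)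

/-- **The multiplicity estimate.** -/
theorem eventually_order_le {ε : ℝ} (hε : 0 < ε) (hε1 : ε ≤ 1) :
    ∀ᶠ N : ℕ in atTop, ∀ (A : MvPolynomial (Fin 4) ℤ) (M : ℕ), A ≠ 0 → A.totalDegree ≤ 4 * N →
      Real.log (len A) ≤ (N : ℝ) ^ (1 + ε) → PowerSeries.X ^ M ∣ ser A →
      (M : ℝ) ≤ (N : ℝ) ^ (4 + 20 * ε) := by
  have h2 := ((tendsto_rpow_atTop (show 0 < ε / 2 by linarith)).comp
    tendsto_natCast_atTop_atTop).eventually_ge_atTop (100 * (2 / ε) + 2000)
  filter_upwards [eventually_exists_primes hε, eventually_le_of_sqrt_le hε hε1 4000, h2,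
    eventually_ge_atTop 1] with N hprimes hbound hN hN1 A M hA hdeg hlen hM
  simp only [Function.comp_apply] at hN
  obtain ⟨S, hScard, hS⟩ := hprimes
  have hNR : (1 : ℝ) ≤ N := Nat.one_le_cast.2 hN1
  set p := (N : ℝ) ^ (ε / 2) with hp
  have hεd : 0 ≤ 2 / ε := by positivity
  have hp1 : 2000 ≤ p := le_trans (le_add_of_nonneg_left (by positivity)) hN
  have hx : (N : ℝ) ^ (1 + ε) = N * (p * p) := by
    rw [hp, ← Real.rpow_add (by linarith), Real.rpow_add (by linarith), Real.rpow_one]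
    ring_nf
  obtain ⟨j, A₁, hA₁, hc, hj, hdeg₁, hlen₁⟩ := exists_reduction hA hdeg
  have hM₁ : PowerSeries.X ^ (M - j) ∣ ser A₁ := X_pow_dvd_of_mul (hA₁ ▸ hM)
  have hlog5 : Real.log (((4 * N + 1 : ℕ) : ℝ) ^ 5) ≤ 5 * (2 / ε * p + 4) := by
    rw [Real.log_pow]
    push_cast
    refine mul_le_mul_of_nonneg_left ?_ (by norm_num)
    refine (Real.log_le_log (by linarith) (show 4 * (N : ℝ) + 1 ≤ 5 * N by linarith)).trans ?_
    rw [Real.log_mul (by norm_num) (by linarith)]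
    have h5 : Real.log 5 ≤ 4 := (Real.log_le_sub_one_of_pos (by norm_num)).trans (by norm_num)
    have h6 : Real.log N ≤ 2 / ε * p := by
      refine (Real.log_le_rpow_div (by linarith) (show 0 < ε / 2 by linarith)).trans_eq ?_
      rw [← hp]
      field_simp
    linarith
  have hlA₁ : Real.log (len A₁) ≤ 2 * ((N : ℝ) * (p * p)) := by
    have h1 : 0 < len A := zero_lt_one.trans_le (FA.Roth.one_le_len hA)
    have hA₁0 : A₁ ≠ 0 := fun e => hc (by simp [cuspPoly, e])
    refine (Real.log_le_log (zero_lt_one.trans_le (FA.Roth.one_le_len hA₁0)) hlen₁).trans ?_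
    rw [Real.log_mul (by positivity) h1.ne', Real.log_pow]
    have hjR : (j : ℝ) ≤ 4 * N := by exact_mod_cast hj
    have h3 : (j : ℝ) * Real.log (((4 * N + 1 : ℕ) : ℝ) ^ 5) ≤
        4 * N * (5 * (2 / ε * p + 4)) :=
      mul_le_mul hjR hlog5 (Real.log_nonneg (one_le_pow₀ (by simp))) (by positivity)
    rw [hx] at hlen
    have h4 : 4 * (5 * (2 / ε * p + 4)) ≤ p * p := by nlinarith
    nlinarith [mul_le_mul_of_nonneg_left h4 (show (0 : ℝ) ≤ N by linarith)]
  have hS' : ∀ c ∈ S, c.Prime ∧ 6 * (4 * N) + 1 < c ∧ c ≤ ⌊(N : ℝ) ^ (1 + ε)⌋₊ := fun c hc =>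
    ⟨(hS c hc).1, (hS c hc).2.1, Nat.le_floor (hS c hc).2.2⟩
  have hmain := sqrt_le_of_cuspPoly hc hdeg₁ (by omega) hM₁ S hScard hS'
  have hM1 : ((M - j : ℕ) : ℝ) + 1 ≤ (N : ℝ) ^ (4 + 17 * ε) := by
    refine hbound (M - j) (hmain.trans ?_)
    set l := Real.log (((M - j : ℕ) : ℝ) + 1)
    have hl : 0 ≤ l := Real.log_nonneg (by simp)
    have hC : ((⌊(N : ℝ) ^ (1 + ε)⌋₊ : ℕ) : ℝ) ≤ N * (p * p) :=
      (Nat.floor_le (by positivity)).trans hx.le
    have hW : ((4 * N : ℕ) : ℝ) * (1 + l) + Real.log (len A₁) ≤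
        6 * ((N : ℝ) * (p * p)) * (1 + l) := by
      have h1 : (N : ℝ) ≤ N * (p * p) := le_mul_of_one_le_right (by linarith) (by nlinarith)
      push_cast
      nlinarith
    have hsq : (N : ℝ) ^ (2 + 2 * ε) = (N * (p * p)) * (N * (p * p)) := by
      rw [← hx, ← Real.rpow_add (by linarith)]
      ring_nf
    rw [hsq]
    refine (mul_le_mul (mul_le_mul_of_nonneg_left hC (by norm_num)) hW ?_ (by positivity)).trans ?_
    · have hA₁0 : A₁ ≠ 0 := fun e => hc (by simp [cuspPoly, e])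
      exact add_nonneg (by positivity) (Real.log_nonneg (FA.Roth.one_le_len hA₁0))
    · have : (0 : ℝ) ≤ N * (p * p) * (N * (p * p)) * (1 + l) := by positivity
      linarith
  have hjR : (j : ℝ) ≤ 4 * N := by exact_mod_cast hj
  have hMj : (M : ℝ) ≤ ((M - j : ℕ) : ℝ) + j := by
    exact_mod_cast (show M ≤ M - j + j by omega)
  have hfin : (N : ℝ) ^ (4 + 17 * ε) * 5 ≤ (N : ℝ) ^ (4 + 20 * ε) := by
    rw [show 4 + 20 * ε = (4 + 17 * ε) + 3 * ε by ring,
      Real.rpow_add (by linarith) (4 + 17 * ε) (3 * ε)]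
    refine mul_le_mul_of_nonneg_left ?_ (by positivity)
    exact le_trans (by linarith : (5 : ℝ) ≤ p)
      (Real.rpow_le_rpow_of_exponent_le hNR (by linarith))
  have hN4 : (N : ℝ) ≤ (N : ℝ) ^ (4 + 17 * ε) :=
    le_trans (Real.rpow_one _).ge (Real.rpow_le_rpow_of_exponent_le hNR (by linarith))
  linarith

end FA.Nesterenko

end
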