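import Fermat.Agent.Nesterenko.Construction
import Fermat.Agent.Nesterenko.Estimates
import Fermat.Agent.Nesterenko.LargeDerivative
import Fermat.Agent.Nesterenko.ZeroEstimate

/-!
# The sequence of small values

For `0 < |q| < 1` there are polynomials of degree and logarithmic length `N ^ (1 + ε)` whose value
at `R (q), Q (q), P (q), q` lies between `exp (-N ^ (4 + ε))` and `exp (-N ^ (4 - ε))`.
-/

set_option autoImplicit false

noncomputable section

namespace FA.Nesterenko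

open MvPolynomial Finset Filter
open FA.Roth (len)

theorem rpow_eq_mul_pow {N : ℕ} (hN : 1 ≤ N) (e : ℝ) (k : ℕ) :
    (N : ℝ) ^ (1 + (k : ℝ) * e) = N * ((N : ℝ) ^ e) ^ k := by
  have hNR : (0 : ℝ) < N := Nat.cast_pos.2 hN
  rw [Real.rpow_add hNR, Real.rpow_one, ← Real.rpow_natCast _ k, ← Real.rpow_mul hNR.le,
    mul_comm e]

theorem sq_le_of_small {N : ℕ} (hN : 1 ≤ N) {e : ℝ} (he : e ≤ 1 / 40) {k : ℕ} (hk : k ≤ 5) :
    (N : ℝ) * ((N : ℝ) ^ e) ^ k ≤ (N : ℝ) ^ 2 := by
  rw [← rpow_eq_mul_pow hN, ← Real.rpow_natCast _ 2]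
  refine Real.rpow_le_rpow_of_exponent_le (Nat.one_le_cast.2 hN) ?_
  have hk' : (k : ℝ) ≤ 5 := by exact_mod_cast hk
  push_cast
  nlinarith [Nat.cast_nonneg (α := ℝ) k]

theorem cast_half_ge {N M : ℕ} (hN : 1 ≤ N) (h : (N + 1) ^ 4 / 2 ≤ M) :
    (N : ℝ) ^ 4 / 2 ≤ M := by
  have h2 : N ^ 4 + 1 ≤ (N + 1) ^ 4 := by ring_nf; omega
  have h3 : ((N ^ 4 : ℕ) : ℝ) ≤ ((2 * M : ℕ) : ℝ) := Nat.cast_le.2 (by omega)
  push_cast at h3
  linarith

/-- The data of one step. -/
theorem exists_parameters {A : MvPolynomial (Fin 4) ℤ} {N : ℕ} {a e p lam : ℝ} (hA : A ≠ 0)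
    (hN : 4 ≤ N) (he : 0 < e) (he1 : e ≤ 1 / 40) (hp : p = (N : ℝ) ^ e)
    (hdeg : A.totalDegree ≤ 4 * N)
    (hlen : Real.log (len A) ≤ N * p)
    (hord : ∀ k : ℕ, PowerSeries.X ^ k ∣ ser A → (k : ℝ) ≤ (N : ℝ) ^ (4 + 20 * e))
    (hdvd : PowerSeries.X ^ ((N + 1) ^ 4 / 2) ∣ ser A) (ha : 0 < a) (ha1 : a < 1)
    (hlam : lam = Real.log ((1 + a) / 2 / a)) (hp1 : 20 ≤ p) (hp2 : 2 / (1 - a) ≤ p)
    (hp4 : 83 + 140 / e ≤ p)
    (hp3 : (86 + 140 / e) / lam + 2 ≤ p) :
    ∃ (M : ℕ) (A' : PowerSeries ℤ) (r H : ℝ) (T : ℕ),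
      ser A = PowerSeries.X ^ M * A' ∧ PowerSeries.coeff 0 A' ≠ 0 ∧ (1 + a) / 2 ≤ r ∧ r < 1 ∧
      1 ≤ H ∧ Maj A' r H ∧ 1 ≤ T ∧ T ≤ M ∧ (T : ℝ) ≤ N * p ^ 2 ∧
      Real.log H ≤ N * p ^ 2 ∧ (a / r) ^ T * (H + 1) ≤ 1 / 4 ∧
      (N : ℝ) ^ 4 / 2 ≤ M ∧ (M : ℝ) ≤ (N : ℝ) ^ (4 + 20 * e) := by
  obtain ⟨M, A', hmM, hMbd, hA', hA'0⟩ :=
    exists_exact_order (bd := ⌊(N : ℝ) ^ (4 + 20 * e)⌋₊) (fun k hk => Nat.le_floor (hord k hk)) hdvd
  have hNR : (4 : ℝ) ≤ N := by exact_mod_cast hN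
  have hMlo := cast_half_ge (by omega) hmM
  have hMhi : (M : ℝ) ≤ (N : ℝ) ^ (4 + 20 * e) :=
    (Nat.cast_le.2 hMbd).trans (Nat.floor_le (by positivity))
  have hN2M : 4 * (N : ℝ) ^ 2 ≤ M := by
    refine le_trans ?_ hMlo
    nlinarith [mul_le_mul hNR hNR (by norm_num) (by linarith)]
  have hM4 : (4 : ℝ) ≤ M := by nlinarith
  have hlogN : Real.log N ≤ p / e := hp ▸ Real.log_le_rpow_div (by linarith) he
  have hlogM : Real.log M ≤ 5 * (p / e) := by
    refine (Real.log_le_log (by linarith) hMhi).trans ?_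
    rw [Real.log_rpow (by linarith)]
    exact mul_le_mul (by linarith) hlogN (Real.log_nonneg (by linarith)) (by norm_num)
  set H := len A * (362880 * (M : ℝ) ^ 7) ^ (4 * N) * 6 with hH
  have hlA := FA.Roth.one_le_len hA
  have hH1 : 1 ≤ H := by
    have h2 : (1 : ℝ) ≤ (362880 * (M : ℝ) ^ 7) ^ (4 * N) :=
      one_le_pow₀ (one_le_mul_of_one_le_of_one_le (by norm_num) (one_le_pow₀ (by linarith)))
    rw [hH]
    nlinarith [mul_le_mul hlA h2 zero_le_one (by linarith)]
  have hlogH : Real.log H ≤ N * p * (83 + 140 / e) := by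
    refine (log_majorant_le hM4 hlA rfl hlen hlogM).trans ?_
    have h3 : 4 * (N : ℝ) * (20 + 35 * (p / e)) = 80 * N + N * p * (140 / e) := by ring
    nlinarith
  set T := ⌈(Real.log H + 3) / lam⌉₊ + 1 with hT
  have hlam0 : 0 < lam := by
    rw [hlam]
    exact Real.log_pos (by rw [one_lt_div ha]; linarith)
  have hquot : 0 ≤ (Real.log H + 3) / lam :=
    div_nonneg (by linarith [Real.log_nonneg hH1]) hlam0.le
  have hTlam : Real.log H + 3 ≤ T * lam := by
    rw [← div_le_iff₀ hlam0, hT]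
    push_cast
    linarith [Nat.le_ceil ((Real.log H + 3) / lam)]
  have hTle : (T : ℝ) ≤ N * p ^ 2 := by
    rw [hT]
    push_cast
    have h2 := Nat.ceil_lt_add_one hquot
    have h3 : (Real.log H + 3) / lam ≤ N * p * ((86 + 140 / e) / lam) := by
      rw [mul_div_assoc', div_le_div_iff_of_pos_right hlam0]
      nlinarith
    have h6 : (1 : ℝ) ≤ N * p := by nlinarith
    nlinarith [mul_le_mul_of_nonneg_left hp3 (show (0 : ℝ) ≤ N * p by positivity)]
  have hN2 := sq_le_of_small (show 1 ≤ N by omega) he1 (show 2 ≤ 5 by norm_num)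
  rw [← hp] at hN2
  have hMinv : 1 / (M : ℝ) ≤ (1 - a) / 2 := by
    have hpN : p ≤ (N : ℝ) ^ 2 := by
      refine le_trans ?_ hN2
      rw [sq, ← mul_assoc]
      exact le_mul_of_one_le_left (by linarith) (by nlinarith)
    have h2 : 2 / (1 - a) ≤ M := by nlinarith
    rw [div_le_iff₀ (by linarith)] at h2
    rw [div_le_div_iff₀ (by linarith) two_pos]
    linarith
  refine ⟨M, A', 1 - 1 / (M : ℝ), H, T, hA', hA'0, by linarith, ?_, hH1,
    maj_quotient hdeg hA' hM4, by omega, ?_, hTle, ?_, ?_, hMlo, hMhi⟩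
  · have : 0 < 1 / (M : ℝ) := by positivity
    linarith
  · exact Nat.cast_le.1 (hTle.trans (hN2.trans (by linarith)) : (T : ℝ) ≤ M)
  · refine hlogH.trans ?_
    rw [sq, ← mul_assoc]
    exact mul_le_mul_of_nonneg_left hp4 (mul_nonneg (by linarith) (by linarith))
  · exact geometric_le ha (by linarith) (by linarith) hlam hH1 hTlam

/-- **Nesterenko's sequence.** -/
theorem eventually_exists_small_value {q : ℂ} (hq0 : q ≠ 0) (hq1 : ‖q‖ < 1) {ε : ℝ} (hε : 0 < ε)
    (hε1 : ε ≤ 1) :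
    ∀ᶠ N : ℕ in atTop, ∃ B : MvPolynomial (Fin 4) ℤ,
      (B.totalDegree : ℝ) ≤ (N : ℝ) ^ (1 + ε) ∧ Real.log (len B) ≤ (N : ℝ) ^ (1 + ε) ∧
      Real.exp (-(N : ℝ) ^ (4 + ε)) ≤ ‖aeval (fun i => fn i q) B‖ ∧
      ‖aeval (fun i => fn i q) B‖ ≤ Real.exp (-(N : ℝ) ^ (4 - ε)) := by
  set e := ε / 40 with he
  have he0 : 0 < e := by positivity
  have he1 : e ≤ 1 / 40 := by linarith
  set a := ‖q‖ with ha
  have ha0 : 0 < a := norm_pos_iff.2 hq0
  set b := (1 + a) / 2 with hb
  set R := (1 - a) / 2 with hR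
  set L := -Real.log a with hL
  have hL0 : 0 ≤ L := neg_nonneg.2 (Real.log_nonpos ha0.le hq1.le)
  set L' := -Real.log R with hL'
  have hL'0 : 0 ≤ L' := neg_nonneg.2 (Real.log_nonpos (by linarith) (by linarith))
  set lam := Real.log (b / a) with hlam
  have hlam0 : 0 < lam := Real.log_pos (by rw [one_lt_div ha0]; linarith)
  set lam' := -Real.log b with hlam'
  have hlam'0 : 0 < lam' := neg_pos.2 (Real.log_neg (by linarith) (by linarith))
  set C₀ : ℝ := 20 + 2 * L + L' + 10 / e + (83 + 140 / e) + ((86 + 140 / e) / lam + 2) +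
    4 / lam' + 2 / (1 - a) with hC₀
  have hpieces : 0 ≤ 10 / e ∧ 0 ≤ 140 / e ∧ 0 ≤ (86 + 140 / e) / lam ∧ 0 ≤ 4 / lam' ∧
      0 ≤ 2 / (1 - a) := by
    have : 0 < 1 - a := by linarith
    refine ⟨by positivity, by positivity, by positivity, by positivity, by positivity⟩
  filter_upwards [eventually_exists_auxiliary he0,
    eventually_order_le he0 (by linarith : e ≤ 1),
    ((tendsto_rpow_atTop he0).comp tendsto_natCast_atTop_atTop).eventually_ge_atTop C₀,
    eventually_ge_atTop 4] with N hA hord hp hN4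
  simp only [Function.comp_apply] at hp
  obtain ⟨A, hA0, hdeg, hlen, hdvd⟩ := hA
  have hN1 : 1 ≤ N := by omega
  have hx : (N : ℝ) ^ (1 + e) = N * (N : ℝ) ^ e := by simpa using rpow_eq_mul_pow hN1 e 1
  set p := (N : ℝ) ^ e with hpdef
  obtain ⟨hq2, hq3, hq4, hq5, hq6⟩ := hpieces
  obtain ⟨M, A', r, H, T, hA', hA'0, hrb, hr1, hH1, hmaj, hT1, hTM, hTle, hlogH, hgeo, hMlo,
      hMhi⟩ :=
    exists_parameters hA0 hN4 he0 he1 hpdef hdeg (hx ▸ hlen)
      (fun k hk => hord A k hA0 hdeg hlen hk) hdvd ha0 hq1 (lam := lam) hlam (by linarith)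
      (by linarith) (by linarith) (by linarith)
  obtain ⟨t, htT, hlarge⟩ := exists_large_deriv (nice_of_eq hA') hA'0 (M := M) hT1 hq0
    (show a < r by linarith) hr1 hmaj hgeo
  have hsmall := norm_iteratedDeriv_le_sphere (nice_of_eq hA') (M := M) (show 0 < R by linarith)
    (show a + R ≤ b by linarith) hrb hr1 hmaj t
  have htR : (t : ℝ) ≤ T := Nat.cast_le.2 htT.le
  have hNR : (4 : ℝ) ≤ N := by exact_mod_cast hN4
  have hp20 : 20 ≤ p := by linarith
  have hmono : ∀ j k : ℕ, j ≤ k → (N : ℝ) * p ^ j ≤ N * p ^ k := fun j k h =>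
    mul_le_mul_of_nonneg_left (pow_le_pow_right₀ (by linarith) h) (by linarith)
  have hsq : ∀ k, k ≤ 5 → (N : ℝ) * p ^ k ≤ (N : ℝ) ^ 2 := fun k hk => sq_le_of_small hN1 he1 hk
  have hlogN : Real.log N ≤ p / e := Real.log_le_rpow_div (by linarith) he0
  have hfour : (N : ℝ) * p ^ 4 ≤ (N : ℝ) ^ (1 + ε) :=
    (rpow_eq_mul_pow hN1 e 4).ge.trans
      (Real.rpow_le_rpow_of_exponent_le (by linarith) (by push_cast; linarith))
  have hdegB : ((dStep A t).totalDegree : ℝ) ≤ N * p ^ 3 := by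
    refine le_trans (Nat.cast_le.2 (totalDegree_dStep_le hdeg t)) ?_
    push_cast
    nlinarith [mul_le_mul_of_nonneg_left hp20 (show (0 : ℝ) ≤ N * p ^ 2 by positivity),
      one_le_pow₀ (show (1 : ℝ) ≤ p by linarith) (n := 2)]
  refine ⟨dStep A t, hdegB.trans ((hmono 3 4 (by norm_num)).trans hfour), ?_, ?_, ?_⟩
  · rcases eq_or_ne (dStep A t) 0 with h0 | h0
    · simp only [h0, FA.Roth.len_zero, Real.log_zero]
      positivity
    refine le_trans ?_ hfour
    refine (Real.log_le_log (zero_lt_one.trans_le (FA.Roth.one_le_len h0))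
      (len_dStep_le hdeg htT.le)).trans ?_
    have hlA := FA.Roth.one_le_len hA0
    have hT0 : (0 : ℝ) ≤ T := Nat.cast_nonneg T
    rw [Real.log_mul (by positivity) (by positivity), Real.log_pow]
    push_cast
    have h2 : Real.log (60 * (4 * (N : ℝ) + T)) ≤ p * (6 + 2 / e) := by
      have h3 : 60 * (4 * (N : ℝ) + T) ≤ 300 * (N * N) := by nlinarith [hsq 2 (by norm_num)]
      refine (Real.log_le_log (by linarith) h3).trans ?_
      rw [Real.log_mul (by norm_num) (by positivity), Real.log_mul (by positivity) (by positivity)]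
      have h5 : p * (6 + 2 / e) = 6 * p + 2 * (p / e) := by ring
      linarith [log_three_hundred_le]
    have h5 : (t : ℝ) * Real.log (60 * (4 * (N : ℝ) + T)) ≤ N * p ^ 2 * (p * (6 + 2 / e)) :=
      mul_le_mul (htR.trans hTle) h2 (Real.log_nonneg (by linarith)) (by positivity)
    have h10 : 2 / e ≤ 10 / e := div_le_div_of_nonneg_right (by norm_num) he0.le
    have h6 : 6 + 2 / e + 1 ≤ p := by linarith
    have h7 : (N : ℝ) * p ≤ N * p ^ 3 := by simpa using hmono 1 3 (by norm_num)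
    rw [hx] at hlen
    nlinarith [mul_le_mul_of_nonneg_left h6 (show (0 : ℝ) ≤ N * p ^ 3 by positivity)]
  · rw [aeval_dStep A t hq1, hA', norm_mul, norm_mul, norm_pow, norm_pow, ← ha,
      Complex.norm_ofNat]
    refine le_trans ?_ (mul_le_mul_of_nonneg_left hlarge.le (by positivity))
    set Y := 2 * (((M + T : ℕ) : ℝ) / a + 1) with hY
    have hY1 : (1 : ℝ) ≤ Y := by
      have : (0 : ℝ) ≤ ((M + T : ℕ) : ℝ) / a := by positivity
      linarith
    have hM1 : (1 : ℝ) ≤ M := by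
      refine le_trans ?_ hMlo
      nlinarith [mul_le_mul hNR hNR (by norm_num) (by linarith)]
    have hlY : Real.log Y ≤ p ^ 2 := by
      have hy : Y ≤ 6 * M / a := by
        rw [hY, mul_add, mul_one, ← mul_div_assoc, div_add' _ _ _ ha0.ne',
          div_le_div_iff_of_pos_right ha0]
        push_cast
        linarith [show (T : ℝ) ≤ M from Nat.cast_le.2 hTM]
      refine (Real.log_le_log (by linarith) hy).trans ?_
      rw [Real.log_div (by positivity) ha0.ne', Real.log_mul (by norm_num) (by positivity)]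
      have h6 : Real.log 6 ≤ 5 := (Real.log_le_sub_one_of_pos (by norm_num)).trans (by norm_num)
      have h9 : Real.log M ≤ 5 * (p / e) := by
        refine (Real.log_le_log (by linarith) hMhi).trans ?_
        rw [Real.log_rpow (by linarith)]
        exact mul_le_mul (by linarith) hlogN (Real.log_nonneg (by linarith)) (by norm_num)
      have h7 : 5 * (p / e) = p * (5 / e) := by ring
      have h8 : 5 + 5 / e + L ≤ p := by
        have : 5 / e ≤ 10 / e := div_le_div_of_nonneg_right (by norm_num) he0.le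
        linarith
      nlinarith
    refine le_trans (Real.exp_le_exp.2 (neg_le_neg ?_))
      (lower_le ha0 hq1 hT1 htT.le hTM hY1 ?_)
    · refine (mul_le_mul hMhi (show 2 * -Real.log a + 2 ≤ p by linarith) (by linarith)
        (by positivity)).trans ?_
      rw [hpdef, ← Real.rpow_add (by linarith)]
      exact Real.rpow_le_rpow_of_exponent_le (by linarith) (by linarith)
    · have h9 : (T : ℝ) * (Real.log Y + 4) ≤ N * p ^ 2 * (2 * p ^ 2) :=
        mul_le_mul hTle (by nlinarith) (by linarith [Real.log_nonneg hY1]) (by positivity)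
      nlinarith [hsq 4 (by norm_num), mul_le_mul hNR hNR (by norm_num) (by linarith)]
  · rw [aeval_dStep A t hq1, hA', norm_mul, norm_mul, norm_pow, norm_pow, ← ha,
      Complex.norm_ofNat]
    have hb0 : 0 < b := by linarith
    have hR0 : 0 < R := by linarith
    refine le_trans ?_ (upper_le (t := t) (M := M) (U := (N : ℝ) ^ 2) hb0 hR0 hH1 hT1 ?_ ?_)
    · refine mul_le_mul (mul_le_mul_of_nonneg_left (pow_le_one₀ ha0.le hq1.le) (by positivity))
        (hsmall.trans ?_) (norm_nonneg _) (by positivity)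
      refine div_le_div_of_nonneg_right (mul_le_mul_of_nonneg_right ?_ (by positivity))
        (by positivity)
      exact le_trans (Nat.cast_le.2 (Nat.factorial_le_pow t))
        (by push_cast; exact pow_le_pow_left₀ (Nat.cast_nonneg _) htR t)
    · have hlT : Real.log T ≤ 2 * (p / e) := by
        refine (Real.log_le_log (Nat.cast_pos.2 hT1) (hTle.trans (hsq 2 (by norm_num)))).trans ?_
        rw [Real.log_pow]
        push_cast
        linarith
      have hbr : Real.log 12 + Real.log T + L' ≤ p * p := by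
        have h8 : 3 + 2 / e + L' ≤ p := by
          have : 2 / e ≤ 10 / e := div_le_div_of_nonneg_right (by norm_num) he0.le
          linarith
        have h9 : 2 * (p / e) = p * (2 / e) := by ring
        nlinarith [log_twelve_le]
      have h9 : (t : ℝ) * (Real.log 12 + Real.log T + L') ≤ N * p ^ 2 * (p * p) :=
        mul_le_mul (htR.trans hTle) hbr (add_nonneg (add_nonneg (Real.log_nonneg (by norm_num))
          (Real.log_nonneg (Nat.one_le_cast.2 hT1))) hL'0) (by positivity)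
      have h11 : 2 * ((N : ℝ) * p ^ 4) ≤ N * p ^ 5 := by
        rw [pow_succ p 4]
        nlinarith [show (0 : ℝ) ≤ N * p ^ 4 by positivity]
      nlinarith [hmono 2 4 (by norm_num), hsq 5 le_rfl]
    · have h12 : 4 / lam' ≤ p := by linarith
      have hpN : p ≤ (N : ℝ) ^ 2 := by
        refine le_trans ?_ (hsq 1 (by norm_num))
        rw [pow_one]
        exact le_mul_of_one_le_left (by linarith) (by linarith)
      have h13 : (N : ℝ) ^ 2 ≤ lam' * (N : ℝ) ^ 4 / 4 := by
        have : 4 / lam' ≤ (N : ℝ) ^ 2 := h12.trans hpN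
        rw [div_le_iff₀ hlam'0] at this
        nlinarith
      have h14 : (N : ℝ) ^ (4 - ε) ≤ lam' * (N : ℝ) ^ 4 / 4 := by
        rw [Real.rpow_sub (by linarith), div_le_iff₀ (by positivity)]
        have h15 : p ≤ (N : ℝ) ^ ε :=
          Real.rpow_le_rpow_of_exponent_le (by linarith) (by linarith)
        have h16 : 4 ≤ lam' * (N : ℝ) ^ ε := by
          rw [← div_le_iff₀' hlam'0]
          linarith
        rw [show ((4 : ℝ)) = ((4 : ℕ) : ℝ) by norm_num, Real.rpow_natCast]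
        push_cast
        nlinarith [show (0 : ℝ) ≤ (N : ℝ) ^ 4 by positivity]
      have h17 : lam' * ((N : ℝ) ^ 4 / 2) ≤ lam' * M := mul_le_mul_of_nonneg_left hMlo hlam'0.le
      linarith

end FA.Nesterenko

end
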