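import Fermat.Agent.Nesterenko.Criterion
import Fermat.Agent.Nesterenko.Sequence
import Fermat.Agent.BrownawellWaldschmidt.Main
import Fermat.Agent.Chudnovsky.Main
import Fermat.Agent.Chudnovsky.Hexagonal
import Fermat.Agent.ModularValues.AtI
import Fermat.Agent.ModularValues.AtRho
import Mathlib.Algebra.AlgebraicCard
import Mathlib.Analysis.Complex.Cardinality

/-!
# Nesterenko's theorem

For `0 < |q| < 1` three of `q, P (q), Q (q), R (q)` are algebraically independent. At `i` and `ρ`: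
`π, e ^ π, Γ (1/4)` and `π, e ^ (π √3), Γ (1/3)` are algebraically independent.
-/

set_option autoImplicit false

noncomputable section

namespace FA.Nesterenko

open Set MvPolynomial
open scoped Real IntermediateField
open FA.BrownawellWaldschmidt (algebraicIndependent_pair)

local notation "ℚ⟪" s "⟫" => IntermediateField.adjoin ℚ (s : Set ℂ)

theorem transcendental_of_le {K L : IntermediateField ℚ ℂ} (h : K ≤ L) {x : ℂ}
    (hx : Transcendental L x) : Transcendental K x := fun hK => hx <| by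
  obtain ⟨p, hp, hpx⟩ := hK
  refine ⟨p.map (IntermediateField.inclusion h).toRingHom,
    (Polynomial.map_ne_zero_iff (IntermediateField.inclusion h).toRingHom.injective).2 hp, ?_⟩
  rw [Polynomial.aeval_def, Polynomial.eval₂_map]
  exact hpx

theorem exists_transcendental_over {s : Set ℂ} (hs : s.Countable) :
    ∃ v : ℂ, Transcendental ℚ⟪s⟫ v := by
  have : Countable ℚ⟪s⟫ := by
    rw [← Cardinal.mk_le_aleph0_iff]
    refine (IntermediateField.cardinalMk_adjoin_le ℚ s).trans ?_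
    simp [Cardinal.le_aleph0_iff_set_countable.2 hs]
  by_contra hc
  simp only [Transcendental, not_exists, not_not] at hc
  refine not_countable_complex ((Algebraic.countable ℚ⟪s⟫ ℂ).mono fun x _ => hc x)

/-- A pair and one more. -/
theorem algebraicIndependent_triple {u v w : ℂ} (h : AlgebraicIndependent ℚ ![u, v])
    (hw : Transcendental ℚ⟪{u, v}⟫ w) : AlgebraicIndependent ℚ ![w, u, v] := by
  have h2 : AlgebraicIndependent ℚ (fun o : Option (Fin 2) => o.elim w ![u, v]) := by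
    rw [h.option_iff_transcendental, ← IntermediateField.transcendental_adjoin_iff,
      Matrix.range_cons_cons_empty]
    exact hw
  have h3 := h2.comp ![none, some 0, some 1] (by decide)
  convert h3 using 1
  ext i
  fin_cases i <;> rfl

/-- Four numbers with a sequence of small values: one is transcendental over the field of any
algebraically independent pair. -/
theorem exists_transcendental_over_pair {ω : Fin 4 → ℂ}
    (h : ∀ ε : ℝ, 0 < ε → ε ≤ 1 → ∀ᶠ N : ℕ in Filter.atTop, ∃ B : MvPolynomial (Fin 4) ℤ,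
      (B.totalDegree : ℝ) ≤ (N : ℝ) ^ (1 + ε) ∧
      Real.log (FA.Roth.len B) ≤ (N : ℝ) ^ (1 + ε) ∧
      Real.exp (-(N : ℝ) ^ (4 + ε)) ≤ ‖aeval ω B‖ ∧
      ‖aeval ω B‖ ≤ Real.exp (-(N : ℝ) ^ (4 - ε)))
    {u v : ℂ} (huv : AlgebraicIndependent ℚ ![u, v]) :
    ∃ i, Transcendental ℚ⟪{u, v}⟫ (ω i) := by
  obtain ⟨i, hi⟩ := not_algebraic_over_pair
    (θ := ![u, v]) (huv.restrictScalars (algebraMap ℤ ℚ).injective_int) h
  rw [Matrix.range_cons_cons_empty] at hi
  exact ⟨i, fun halg => hi halg.isIntegral⟩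

/-- If over the field of every independent pair one of four numbers is transcendental, then three
of the four are algebraically independent. -/
theorem exists_three_of_pairs {η : Fin 4 → ℂ}
    (hmain : ∀ {u v : ℂ}, AlgebraicIndependent ℚ ![u, v] →
      ∃ i, Transcendental ℚ⟪{u, v}⟫ (η i)) :
    ∃ i j k, AlgebraicIndependent ℚ ![η i, η j, η k] := by
  obtain ⟨u₀, hu₀⟩ := exists_transcendental_over (s := ∅) countable_empty
  have hu₀' : Transcendental ℚ u₀ := fun h0 => hu₀ (IsAlgebraic.tower_top _ h0)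
  obtain ⟨j, hj⟩ : ∃ j, Transcendental ℚ (η j) := by
    by_contra hc
    simp only [Transcendental, not_exists, not_not] at hc
    obtain ⟨v₀, hv₀⟩ := exists_transcendental_over (countable_singleton u₀)
    obtain ⟨i, hi⟩ := hmain (algebraicIndependent_pair hu₀' hv₀)
    exact hi (IsAlgebraic.tower_top _ (hc i))
  obtain ⟨k, hk⟩ : ∃ k, Transcendental ℚ⟮η j⟯ (η k) := by
    by_contra hc
    simp only [not_exists] at hc
    obtain ⟨v₀, hv₀⟩ := exists_transcendental_over (countable_singleton (η j))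
    obtain ⟨i, hi⟩ := hmain (algebraicIndependent_pair hj hv₀)
    exact hc i (transcendental_of_le (IntermediateField.adjoin.mono _ _ _ (by simp)) hi)
  have hjk := algebraicIndependent_pair hj hk
  obtain ⟨i, hi⟩ := hmain hjk
  exact ⟨i, j, k, algebraicIndependent_triple hjk hi⟩

/-- **Three of four numbers with a sequence of small values are algebraically independent.** -/
theorem exists_independent_three {ω : Fin 4 → ℂ}
    (h : ∀ ε : ℝ, 0 < ε → ε ≤ 1 → ∀ᶠ N : ℕ in Filter.atTop, ∃ B : MvPolynomial (Fin 4) ℤ,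
      (B.totalDegree : ℝ) ≤ (N : ℝ) ^ (1 + ε) ∧
      Real.log (FA.Roth.len B) ≤ (N : ℝ) ^ (1 + ε) ∧
      Real.exp (-(N : ℝ) ^ (4 + ε)) ≤ ‖aeval ω B‖ ∧
      ‖aeval ω B‖ ≤ Real.exp (-(N : ℝ) ^ (4 - ε))) :
    ∃ i j k, AlgebraicIndependent ℚ ![ω i, ω j, ω k] := by
  refine exists_three_of_pairs ?_
  exact exists_transcendental_over_pair h

/-- The sequence of small values, at `R, Q, P, q` in the upper half plane. -/
theorem small_values_at (τ : UpperHalfPlane) {ε : ℝ} (hε : 0 < ε) (hε1 : ε ≤ 1) :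
    ∀ᶠ N : ℕ in Filter.atTop, ∃ B : MvPolynomial (Fin 4) ℤ,
      (B.totalDegree : ℝ) ≤ (N : ℝ) ^ (1 + ε) ∧
      Real.log (FA.Roth.len B) ≤ (N : ℝ) ^ (1 + ε) ∧
      Real.exp (-(N : ℝ) ^ (4 + ε)) ≤
        ‖aeval (fun i => fn i (Function.Periodic.qParam 1 τ)) B‖ ∧
      ‖aeval (fun i => fn i (Function.Periodic.qParam 1 τ)) B‖ ≤
        Real.exp (-(N : ℝ) ^ (4 - ε)) :=
  eventually_exists_small_value (by simp [Function.Periodic.qParam])
    (Function.Periodic.norm_qParam_lt_one one_pos τ.im_pos) hε hε1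

/-- **At a point whose three Eisenstein values lie in the field of a pair, `q` is independent.** -/
theorem algebraicIndependent_of_values {τ : UpperHalfPlane} {u v w : ℂ}
    (huv : AlgebraicIndependent ℚ ![u, v]) (h6 : ModularForm.E₆ τ ∈ ℚ⟪{u, v}⟫)
    (h4 : ModularForm.E₄ τ ∈ ℚ⟪{u, v}⟫) (h2 : EisensteinSeries.E2 τ ∈ ℚ⟪{u, v}⟫)
    (hq : IsAlgebraic ℚ⟪{u, v}⟫ w → IsAlgebraic ℚ⟪{u, v}⟫ (Function.Periodic.qParam 1 (τ : ℂ))) :
    AlgebraicIndependent ℚ ![w, u, v] := by
  refine algebraicIndependent_triple huv fun hw => ?_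
  obtain ⟨i, hi⟩ := exists_transcendental_over_pair
    (ω := fun i => fn i (Function.Periodic.qParam 1 τ))
    (fun ε hε hε1 => small_values_at τ hε hε1) huv
  obtain ⟨e6, e4, e2⟩ := fn_qParam τ
  refine hi ?_
  fin_cases i
  · simpa [e6] using isAlgebraic_algebraMap (⟨_, h6⟩ : ℚ⟪{u, v}⟫) (A := ℂ)
  · simpa [e4] using isAlgebraic_algebraMap (⟨_, h4⟩ : ℚ⟪{u, v}⟫) (A := ℂ)
  · simpa [e2] using isAlgebraic_algebraMap (⟨_, h2⟩ : ℚ⟪{u, v}⟫) (A := ℂ)
  · simpa [fn_three] using hq hw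

theorem of_real_triple {a b c : ℝ} (h : AlgebraicIndependent ℚ ![(a : ℂ), (b : ℂ), (c : ℂ)]) :
    AlgebraicIndependent ℚ ![a, b, c] := by
  refine AlgebraicIndependent.of_comp (Complex.ofRealAm.restrictScalars ℚ) ?_
  convert h using 1
  ext i
  fin_cases i <;> rfl

theorem pair_ofReal {a b : ℝ} (h : AlgebraicIndependent ℚ ![a, b]) :
    AlgebraicIndependent ℚ ![(a : ℂ), (b : ℂ)] := by
  have h1 := h.map' (f := Complex.ofRealAm.restrictScalars ℚ) Complex.ofReal_injective
  convert h1 using 1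
  ext i
  fin_cases i <;> rfl

theorem coe_mem_adjoin_pair {a b : ℝ} :
    ((a : ℂ) ∈ ℚ⟪{(a : ℂ), (b : ℂ)}⟫) ∧ ((b : ℂ) ∈ ℚ⟪{(a : ℂ), (b : ℂ)}⟫) :=
  ⟨IntermediateField.subset_adjoin _ _ (by simp), IntermediateField.subset_adjoin _ _ (by simp)⟩

/-- `e ^ π`, `π`, `Γ (1/4)`. -/
theorem algebraicIndependent_exp_pi :
    AlgebraicIndependent ℚ ![Real.exp π, π, Real.Gamma (1 / 4)] := by
  refine of_real_triple ?_
  obtain ⟨hπ, hΓ⟩ := coe_mem_adjoin_pair (a := π) (b := Real.Gamma (1 / 4))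
  refine algebraicIndependent_of_values (τ := UpperHalfPlane.I)
    (pair_ofReal FA.Chudnovsky.chudnovsky_pi_gamma) ?_ ?_ ?_ fun hw => ?_
  · rw [FA.ModField.E6_I]; exact zero_mem _
  · rw [FA.ModularValues.E4_I]
    push_cast
    exact div_mem (mul_mem (ofNat_mem _ 3) (pow_mem hΓ 8))
      (mul_mem (ofNat_mem _ 64) (pow_mem hπ 6))
  · rw [FA.ModularValues.E2_I]
    push_cast
    exact div_mem (ofNat_mem _ 3) hπ
  · have e : Function.Periodic.qParam 1 (UpperHalfPlane.I : ℂ) =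
        (((Real.exp π : ℝ) : ℂ) ^ 2)⁻¹ := by
      rw [Function.Periodic.qParam, UpperHalfPlane.coe_I, Complex.ofReal_exp, ← Complex.exp_nat_mul,
        ← Complex.exp_neg]
      congr 1
      push_cast
      linear_combination (2 * (π : ℂ)) * Complex.I_mul_I
    rw [e]
    exact (hw.pow 2).inv

/-- `e ^ (π √3)`, `π`, `Γ (1/3)`. -/
theorem algebraicIndependent_exp_pi_sqrt_three :
    AlgebraicIndependent ℚ ![Real.exp (π * √3), π, Real.Gamma (1 / 3)] := by
  refine of_real_triple ?_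
  obtain ⟨hπ, hΓ⟩ := coe_mem_adjoin_pair (a := π) (b := Real.Gamma (1 / 3))
  have hpair := pair_ofReal FA.Chudnovsky.chudnovsky_pi_gamma_three
  refine algebraicIndependent_triple hpair fun hw => ?_
  set K := ℚ⟪{(π : ℂ), ((Real.Gamma (1 / 3) : ℝ) : ℂ)}⟫
  obtain ⟨i, hi⟩ := exists_transcendental_over_pair
    (ω := fun i => fn i (Function.Periodic.qParam 1 FA.ModField.rho))
    (fun ε hε hε1 => small_values_at FA.ModField.rho hε hε1) hpair
  obtain ⟨e6, e4, e2⟩ := fn_qParam FA.ModField.rho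
  have hs : IsAlgebraic K ((√3 : ℝ) : ℂ) := by
    refine IsAlgebraic.of_pow two_pos ?_
    rw [← Complex.ofReal_pow, Real.sq_sqrt (by norm_num)]
    simpa using isAlgebraic_algebraMap (⟨3, ofNat_mem _ 3⟩ : K) (A := ℂ)
  have hmem : ∀ {x : ℂ}, x ∈ K → IsAlgebraic K x := fun {x} hx =>
    isAlgebraic_algebraMap (⟨x, hx⟩ : K)
  refine hi ?_
  fin_cases i
  · simp only [Fin.zero_eta, e6, FA.ModularValues.E6_rho]
    push_cast
    exact hmem (div_mem (mul_mem (ofNat_mem _ 27) (pow_mem hΓ 18))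
      (mul_mem (ofNat_mem _ 512) (pow_mem hπ 12)))
  · simp only [Fin.mk_one, e4, FA.ModField.E4_rho]
    exact isAlgebraic_zero
  · simp only [Fin.reduceFinMk, e2, FA.ModularValues.E2_rho]
    push_cast
    rw [div_eq_mul_inv]
    exact ((hmem (ofNat_mem _ 2)).mul hs).mul (hmem hπ).inv
  · have e : Function.Periodic.qParam 1 (FA.ModField.rho : ℂ) =
        -(((Real.exp (π * √3) : ℝ) : ℂ))⁻¹ := by
      have e0 : 2 * (π : ℂ) * Complex.I *
          (((-1 / 2 : ℝ) : ℂ) + ((√3 / 2 : ℝ) : ℂ) * Complex.I) / ((1 : ℝ) : ℂ) =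
          (π : ℂ) * Complex.I + -((π * √3 : ℝ) : ℂ) - (1 : ℤ) * (2 * π * Complex.I) := by
        push_cast
        linear_combination ((π : ℂ) * ((√3 : ℝ) : ℂ)) * Complex.I_mul_I
      rw [Function.Periodic.qParam, FA.ModularValues.rho_eq, e0, Complex.exp_sub,
        Complex.exp_int_mul_two_pi_mul_I, div_one, Complex.exp_add, Complex.exp_pi_mul_I,
        Complex.exp_neg, Complex.ofReal_exp, neg_one_mul]
    simp only [Fin.reduceFinMk, fn_three, e]
    exact hw.inv.neg

/-- The series in Ramanujan's form. -/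
theorem fn_eq_series {q : ℂ} (hq : ‖q‖ < 1) :
    fn 2 q = 1 - 24 * ∑' n : ℕ, (ArithmeticFunction.sigma 1 n : ℂ) * q ^ n ∧
      fn 1 q = 1 + 240 * ∑' n : ℕ, (ArithmeticFunction.sigma 3 n : ℂ) * q ^ n ∧
      fn 0 q = 1 - 504 * ∑' n : ℕ, (ArithmeticFunction.sigma 5 n : ℂ) * q ^ n := by
  have key : ∀ (i : Fin 4) (k : ℕ) (c : ℤ), (∀ n, PowerSeries.coeff n (eis i) =
      if n = 0 then 1 else c * (ArithmeticFunction.sigma k n : ℤ)) →
      fn i q = 1 + (c : ℂ) * ∑' n : ℕ, (ArithmeticFunction.sigma k n : ℂ) * q ^ n := by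
    intro i k c hc
    have h := ((maj_eis i (norm_nonneg q) hq).hasSum le_rfl).sub
      (hasSum_ite_eq 0 (1 : ℂ))
    have h' : HasSum (fun n : ℕ => (c : ℂ) * ((ArithmeticFunction.sigma k n : ℂ) * q ^ n))
        (fn i q - 1) := by
      refine h.congr_fun fun n => ?_
      rcases eq_or_ne n 0 with rfl | hn
      · simp [hc]
      · simp [hc, hn]
        ring
    rw [← tsum_mul_left, h'.tsum_eq]
    ring
  refine ⟨?_, ?_, ?_⟩
  · rw [key 2 1 (-24) fun n => by simp [eis, FA.Tau.eTwoInt]]; push_cast; ring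
  · rw [key 1 3 240 fun n => by simp [eis, FA.Tau.eFourInt]]; push_cast; ring
  · rw [key 0 5 (-504) fun n => by simp [eis, FA.Tau.eSixInt]]; push_cast; ring

end FA.Nesterenko

end
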