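import Fermat.Agent.Nesterenko.Basic
import Fermat.Agent.Tau.QuasiModular
import Mathlib.Analysis.SpecificLimits.Normed

/-!
# The series of `R = E₆`, `Q = E₄`, `P = E₂` and their polynomials

For an integral series `A` the value `val A z` is `∑ a_n z ^ n`; `Maj A r B` says that
`∑ |a_n| r ^ n ≤ B`. The polynomials in `R, Q, P, z` are majorised by the length times a power of
`growth r`, and their values are those of the polynomial at the values of the four series.
-/

set_option autoImplicit false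

noncomputable section

namespace FA.Nesterenko

open Finset
open FA.Roth (len)
open scoped ArithmeticFunction.sigma

/-- The value of an integral series. -/
def val (A : PowerSeries ℤ) (z : ℂ) : ℂ := ∑' n, ((PowerSeries.coeff n A : ℤ) : ℂ) * z ^ n

/-- `∑ |a_n| r ^ n ≤ B`. -/
def Maj (A : PowerSeries ℤ) (r B : ℝ) : Prop :=
  Summable (fun n => |((PowerSeries.coeff n A : ℤ) : ℝ)| * r ^ n) ∧
    ∑' n, |((PowerSeries.coeff n A : ℤ) : ℝ)| * r ^ n ≤ B

variable {A B : PowerSeries ℤ} {r a b : ℝ} {z : ℂ}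

theorem Maj.nonneg (h : Maj A r a) (hr : 0 ≤ r) : 0 ≤ a :=
  (tsum_nonneg fun n => by positivity).trans h.2

theorem Maj.mono (h : Maj A r a) (hab : a ≤ b) : Maj A r b := ⟨h.1, h.2.trans hab⟩

theorem norm_term_le (hz : ‖z‖ ≤ r) (n : ℕ) :
    ‖((PowerSeries.coeff n A : ℤ) : ℂ) * z ^ n‖ ≤ |((PowerSeries.coeff n A : ℤ) : ℝ)| * r ^ n := by
  rw [norm_mul, Complex.norm_intCast, norm_pow]
  exact mul_le_mul_of_nonneg_left (pow_le_pow_left₀ (norm_nonneg _) hz n) (abs_nonneg _)

theorem Maj.summable_norm (h : Maj A r a) (hz : ‖z‖ ≤ r) :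
    Summable fun n => ‖((PowerSeries.coeff n A : ℤ) : ℂ) * z ^ n‖ :=
  h.1.of_nonneg_of_le (fun _ => norm_nonneg _) (norm_term_le hz)

theorem Maj.hasSum (h : Maj A r a) (hz : ‖z‖ ≤ r) :
    HasSum (fun n => ((PowerSeries.coeff n A : ℤ) : ℂ) * z ^ n) (val A z) :=
  (h.summable_norm hz).of_norm.hasSum

theorem Maj.norm_val_le (h : Maj A r a) (hz : ‖z‖ ≤ r) : ‖val A z‖ ≤ a :=
  ((norm_tsum_le_tsum_norm (h.summable_norm hz)).trans
    ((h.summable_norm hz).tsum_le_tsum (norm_term_le hz) h.1)).trans h.2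

theorem maj_C (c : ℤ) (r : ℝ) : Maj (PowerSeries.C c) r |(c : ℝ)| := by
  have h : HasSum (fun n => |((PowerSeries.coeff n (PowerSeries.C c) : ℤ) : ℝ)| * r ^ n)
      |(c : ℝ)| := by
    convert hasSum_ite_eq 0 |(c : ℝ)| using 2 with n
    rw [PowerSeries.coeff_C]
    split_ifs with hn <;> simp [hn]
  exact ⟨h.summable, h.tsum_eq.le⟩

theorem val_C (c : ℤ) (z : ℂ) : val (PowerSeries.C c) z = c := by
  rw [val, tsum_eq_single 0 fun n hn => by rw [PowerSeries.coeff_C, if_neg hn]; simp]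
  simp

theorem maj_one (r : ℝ) : Maj 1 r 1 := by simpa using maj_C 1 r

theorem val_one (z : ℂ) : val 1 z = 1 := by simpa using val_C 1 z

theorem Maj.add (hA : Maj A r a) (hB : Maj B r b) (hr : 0 ≤ r) : Maj (A + B) r (a + b) := by
  have hle : ∀ n, |((PowerSeries.coeff n (A + B) : ℤ) : ℝ)| * r ^ n ≤
      |((PowerSeries.coeff n A : ℤ) : ℝ)| * r ^ n +
        |((PowerSeries.coeff n B : ℤ) : ℝ)| * r ^ n := fun n => by
    rw [map_add, Int.cast_add, ← add_mul]
    exact mul_le_mul_of_nonneg_right (abs_add_le _ _) (by positivity)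
  have hs := (hA.1.add hB.1).of_nonneg_of_le (fun n => by positivity) hle
  exact ⟨hs, (hs.tsum_le_tsum hle (hA.1.add hB.1)).trans
    ((hA.1.tsum_add hB.1).trans_le (add_le_add hA.2 hB.2))⟩

theorem Maj.val_add (hA : Maj A r a) (hB : Maj B r b) (hz : ‖z‖ ≤ r) :
    val (A + B) z = val A z + val B z := by
  refine HasSum.tsum_eq ?_
  simpa [add_mul] using (hA.hasSum hz).add (hB.hasSum hz)

theorem Maj.neg (hA : Maj A r a) : Maj (-A) r a := by simpa [Maj] using hA

theorem val_neg (A : PowerSeries ℤ) (z : ℂ) : val (-A) z = -val A z := by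
  simp [val, tsum_neg]

theorem Maj.mul (hA : Maj A r a) (hB : Maj B r b) (hr : 0 ≤ r) : Maj (A * B) r (a * b) := by
  have hsA : Summable fun n => ‖|((PowerSeries.coeff n A : ℤ) : ℝ)| * r ^ n‖ := hA.1.norm
  have hsB : Summable fun n => ‖|((PowerSeries.coeff n B : ℤ) : ℝ)| * r ^ n‖ := hB.1.norm
  have hs := (summable_norm_sum_mul_antidiagonal_of_summable_norm hsA hsB).of_norm
  have he := tsum_mul_tsum_eq_tsum_sum_antidiagonal_of_summable_norm hsA hsB
  have hle : ∀ n, |((PowerSeries.coeff n (A * B) : ℤ) : ℝ)| * r ^ n ≤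
      ∑ ij ∈ antidiagonal n, (|((PowerSeries.coeff ij.1 A : ℤ) : ℝ)| * r ^ ij.1) *
        (|((PowerSeries.coeff ij.2 B : ℤ) : ℝ)| * r ^ ij.2) := fun n => by
    rw [PowerSeries.coeff_mul, Int.cast_sum]
    refine (mul_le_mul_of_nonneg_right (abs_sum_le_sum_abs _ _) (by positivity)).trans_eq ?_
    rw [sum_mul]
    refine sum_congr rfl fun ij hij => ?_
    rw [Int.cast_mul, abs_mul, ← mem_antidiagonal.1 hij, pow_add]
    ring
  have hs' := hs.of_nonneg_of_le (fun n => by positivity) hle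
  refine ⟨hs', (hs'.tsum_le_tsum hle hs).trans ?_⟩
  rw [← he]
  exact mul_le_mul hA.2 hB.2 (tsum_nonneg fun n => by positivity) (hA.nonneg hr)

theorem Maj.val_mul (hA : Maj A r a) (hB : Maj B r b) (hz : ‖z‖ ≤ r) :
    val (A * B) z = val A z * val B z := by
  rw [val, val, val, tsum_mul_tsum_eq_tsum_sum_antidiagonal_of_summable_norm
    (hA.summable_norm hz) (hB.summable_norm hz)]
  refine tsum_congr fun n => ?_
  rw [PowerSeries.coeff_mul, Int.cast_sum, sum_mul]
  refine sum_congr rfl fun ij hij => ?_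
  rw [Int.cast_mul, ← mem_antidiagonal.1 hij, pow_add]
  ring

theorem Maj.pow (hA : Maj A r a) (hr : 0 ≤ r) (n : ℕ) : Maj (A ^ n) r (a ^ n) := by
  induction n with
  | zero => simpa using maj_one r
  | succ n ih => simpa [pow_succ] using ih.mul hA hr

theorem Maj.val_pow (hA : Maj A r a) (hz : ‖z‖ ≤ r) (n : ℕ) : val (A ^ n) z = val A z ^ n := by
  induction n with
  | zero => simpa using val_one z
  | succ n ih =>
    rw [pow_succ, (hA.pow ((norm_nonneg z).trans hz) n).val_mul hA hz, ih, pow_succ]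

theorem maj_prod {ι : Type*} {s : Finset ι} {F : ι → PowerSeries ℤ} {c : ι → ℝ} (hr : 0 ≤ r)
    (h : ∀ i ∈ s, Maj (F i) r (c i)) : Maj (∏ i ∈ s, F i) r (∏ i ∈ s, c i) := by
  classical
  induction s using Finset.induction with
  | empty => simpa using maj_one r
  | insert i s hi ih =>
    rw [prod_insert hi, prod_insert hi]
    exact (h i (mem_insert_self i s)).mul (ih fun j hj => h j (mem_insert_of_mem hj)) hr

theorem val_prod {ι : Type*} {s : Finset ι} {F : ι → PowerSeries ℤ} {c : ι → ℝ} (hz : ‖z‖ ≤ r)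
    (h : ∀ i ∈ s, Maj (F i) r (c i)) : val (∏ i ∈ s, F i) z = ∏ i ∈ s, val (F i) z := by
  classical
  induction s using Finset.induction with
  | empty => simpa using val_one z
  | insert i s hi ih =>
    have h' : ∀ j ∈ s, Maj (F j) r (c j) := fun j hj => h j (mem_insert_of_mem hj)
    rw [prod_insert hi, prod_insert hi,
      (h i (mem_insert_self i s)).val_mul (maj_prod ((norm_nonneg z).trans hz) h') hz, ih h']

theorem maj_sum {ι : Type*} {s : Finset ι} {F : ι → PowerSeries ℤ} {c : ι → ℝ} (hr : 0 ≤ r)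
    (h : ∀ i ∈ s, Maj (F i) r (c i)) : Maj (∑ i ∈ s, F i) r (∑ i ∈ s, c i) := by
  classical
  induction s using Finset.induction with
  | empty => simp [Maj, summable_zero]
  | insert i s hi ih =>
    rw [sum_insert hi, sum_insert hi]
    exact (h i (mem_insert_self i s)).add (ih fun j hj => h j (mem_insert_of_mem hj)) hr

theorem val_sum {ι : Type*} {s : Finset ι} {F : ι → PowerSeries ℤ} {c : ι → ℝ} (hz : ‖z‖ ≤ r)
    (h : ∀ i ∈ s, Maj (F i) r (c i)) : val (∑ i ∈ s, F i) z = ∑ i ∈ s, val (F i) z := by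
  classical
  induction s using Finset.induction with
  | empty => simp [val]
  | insert i s hi ih =>
    have h' : ∀ j ∈ s, Maj (F j) r (c j) := fun j hj => h j (mem_insert_of_mem hj)
    rw [sum_insert hi, sum_insert hi,
      (h i (mem_insert_self i s)).val_add (maj_sum ((norm_nonneg z).trans hz) h') hz, ih h']

/-- A factor `X ^ M` of a series. -/
theorem Maj.shift {A' : PowerSeries ℤ} {M : ℕ} (h : Maj (PowerSeries.X ^ M * A') r a)
    (hr : 0 < r) : Maj A' r (a / r ^ M) := by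
  have e : (fun n => |((PowerSeries.coeff n A' : ℤ) : ℝ)| * r ^ n) =
      fun n => |((PowerSeries.coeff (n + M) (PowerSeries.X ^ M * A') : ℤ) : ℝ)| * r ^ (n + M) /
        r ^ M := by
    funext n
    rw [PowerSeries.coeff_X_pow_mul, pow_add]
    field_simp
  have hs : Summable fun n => |((PowerSeries.coeff (n + M) (PowerSeries.X ^ M * A') : ℤ) : ℝ)| *
      r ^ (n + M) := h.1.comp_injective (add_left_injective M)
  refine ⟨by rw [e]; exact hs.div_const _, ?_⟩
  rw [e, tsum_div_const]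
  refine div_le_div_of_nonneg_right (le_trans ?_ h.2) (by positivity)
  exact tsum_comp_le_tsum_of_inj h.1 (fun n => by positivity) (add_left_injective M)

theorem val_X_pow_mul (M : ℕ) (A : PowerSeries ℤ) (z : ℂ) :
    val (PowerSeries.X ^ M * A) z = z ^ M * val A z := by
  have hinj : Function.Injective fun n => n + M := add_left_injective M
  have hzero : ∀ n, n ∉ Set.range (fun n => n + M) →
      ((PowerSeries.coeff n (PowerSeries.X ^ M * A) : ℤ) : ℂ) * z ^ n = 0 := fun n hn => by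
    rw [PowerSeries.coeff_X_pow_mul', if_neg fun h => hn ⟨n - M, Nat.sub_add_cancel h⟩]
    simp
  rw [val, val, ← hinj.tsum_eq fun n hn => ?_, ← tsum_mul_left]
  · refine tsum_congr fun n => ?_
    rw [PowerSeries.coeff_X_pow_mul, pow_add]
    ring
  · by_contra h
    exact hn (hzero n h)

/-- The series of `R`, `Q`, `P` and `z`. -/
def eis : Fin 4 → PowerSeries ℤ :=
  ![FA.Tau.eSixInt, FA.Tau.eFourInt, FA.Tau.eTwoInt, PowerSeries.X]

/-- The four functions. -/
def fn (i : Fin 4) (z : ℂ) : ℂ := val (eis i) z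

/-- The series of a polynomial in the four. -/
def ser (A : MvPolynomial (Fin 4) ℤ) : PowerSeries ℤ := MvPolynomial.aeval eis A

/-- The majorant of the four series. -/
def growth (r : ℝ) : ℝ := 362880 / (1 - r) ^ 7

theorem abs_coeff_eis_le (i : Fin 4) (n : ℕ) :
    |((PowerSeries.coeff n (eis i) : ℤ) : ℝ)| ≤ 504 * ((n : ℝ) + 1) ^ 6 := by
  have h1 : (1 : ℝ) ≤ (n : ℝ) + 1 := by linarith [Nat.cast_nonneg (α := ℝ) n]
  have hone : (1 : ℝ) ≤ 504 * ((n : ℝ) + 1) ^ 6 := by nlinarith [one_le_pow₀ h1 (n := 6)]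
  have hσ : ∀ k c : ℕ, k + 1 ≤ 6 → c ≤ 504 →
      (c : ℝ) * (σ k n : ℕ) ≤ 504 * ((n : ℝ) + 1) ^ 6 := fun k c hk hc => by
    refine mul_le_mul (by exact_mod_cast hc) ?_ (Nat.cast_nonneg _) (by norm_num)
    refine le_trans (Nat.cast_le.2 (ArithmeticFunction.sigma_le_pow_succ k n)) ?_
    push_cast
    exact (pow_le_pow_left₀ (Nat.cast_nonneg _) (by linarith) _).trans (pow_le_pow_right₀ h1 hk)
  fin_cases i
  · simp only [eis, FA.Tau.eSixInt, Matrix.cons_val_zero, PowerSeries.coeff_mk, Fin.zero_eta]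
    split_ifs
    · simpa using hone
    · simpa [abs_mul] using hσ 5 504 le_rfl le_rfl
  · simp only [eis, FA.Tau.eFourInt, Fin.mk_one, Matrix.cons_val_one, Matrix.cons_val_zero,
      PowerSeries.coeff_mk]
    split_ifs
    · simpa using hone
    · simpa [abs_mul] using hσ 3 240 (by norm_num) (by norm_num)
  · simp only [eis, FA.Tau.eTwoInt, Fin.reduceFinMk, Matrix.cons_val, PowerSeries.coeff_mk]
    split_ifs
    · simpa using hone
    · simpa [abs_mul] using hσ 1 24 (by norm_num) (by norm_num)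
  · simp only [eis, Fin.reduceFinMk, Matrix.cons_val, PowerSeries.coeff_X]
    split_ifs
    · simpa using hone
    · simp only [Int.cast_zero, abs_zero]
      positivity

theorem maj_eis (i : Fin 4) (hr : 0 ≤ r) (hr1 : r < 1) : Maj (eis i) r (growth r) := by
  have hs := hasSum_choose_mul_geometric_of_norm_lt_one 6
    (show ‖r‖ < 1 by rwa [Real.norm_of_nonneg hr])
  have hle : ∀ n, |((PowerSeries.coeff n (eis i) : ℤ) : ℝ)| * r ^ n ≤
      362880 * (((n + 6).choose 6 : ℝ) * r ^ n) := fun n => by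
    have h6 : ((n : ℝ) + 1) ^ 6 ≤ 720 * ((n + 6).choose 6 : ℝ) := by
      have h : (n + 1) ^ 6 ≤ (n + 1).ascFactorial 6 := by
        simpa using Nat.pow_succ_le_ascFactorial (n + 1) 6
      rw [Nat.ascFactorial_eq_factorial_mul_choose,
        show (Nat.factorial 6) = 720 from rfl] at h
      exact_mod_cast h
    rw [← mul_assoc]
    exact mul_le_mul_of_nonneg_right ((abs_coeff_eis_le i n).trans (by linarith)) (by positivity)
  have h2 := hs.summable.mul_left (362880 : ℝ)
  have h3 := h2.of_nonneg_of_le (fun n => by positivity) hle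
  refine ⟨h3, (h3.tsum_le_tsum hle h2).trans (le_of_eq ?_)⟩
  rw [tsum_mul_left, hs.tsum_eq, growth]
  ring

theorem one_le_growth (hr : 0 ≤ r) (hr1 : r < 1) : 1 ≤ growth r := by
  rw [growth, le_div_iff₀ (by positivity [show (0 : ℝ) < 1 - r by linarith]), one_mul]
  exact (pow_le_one₀ (by linarith) (by linarith)).trans (by norm_num)

theorem ser_eq_sum (A : MvPolynomial (Fin 4) ℤ) :
    ser A = ∑ d ∈ A.support,
      PowerSeries.C (MvPolynomial.coeff d A) * ∏ i ∈ d.support, eis i ^ d i := by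
  rw [ser, MvPolynomial.aeval_def, MvPolynomial.eval₂_eq]
  refine sum_congr rfl fun d _ => ?_
  simp

theorem maj_ser (A : MvPolynomial (Fin 4) ℤ) {D : ℕ} (hD : A.totalDegree ≤ D) (hr : 0 ≤ r)
    (hr1 : r < 1) : Maj (ser A) r (len A * growth r ^ D) := by
  have hG := one_le_growth hr hr1
  rw [ser_eq_sum, FA.Roth.len, sum_mul]
  refine maj_sum hr fun d hd => ?_
  refine ((maj_C _ _).mul (maj_prod hr fun i _ => (maj_eis i hr hr1).pow hr (d i)) hr).mono ?_
  refine mul_le_mul_of_nonneg_left ?_ (abs_nonneg _)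
  rw [prod_pow_eq_pow_sum]
  exact pow_le_pow_right₀ hG (sum_exponents_le hD hd)

theorem val_ser (A : MvPolynomial (Fin 4) ℤ) (hz : ‖z‖ < 1) :
    val (ser A) z = MvPolynomial.aeval (fun i => fn i z) A := by
  have hr := norm_nonneg z
  have hm : ∀ (i : Fin 4) (n : ℕ), Maj (eis i ^ n) ‖z‖ (growth ‖z‖ ^ n) := fun i n =>
    (maj_eis i hr hz).pow hr n
  rw [ser_eq_sum, MvPolynomial.aeval_def, MvPolynomial.eval₂_eq,
    val_sum (c := fun d => |((MvPolynomial.coeff d A : ℤ) : ℝ)| *
      ∏ i ∈ d.support, growth ‖z‖ ^ d i) le_rfl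
      fun d _ => (maj_C _ _).mul (maj_prod hr fun i _ => hm i (d i)) hr]
  refine sum_congr rfl fun d _ => ?_
  rw [(maj_C _ _).val_mul (maj_prod hr fun i _ => hm i (d i)) le_rfl,
    val_C, val_prod le_rfl fun i _ => hm i (d i), algebraMap_int_eq, eq_intCast]
  congr 1
  refine prod_congr rfl fun i _ => ?_
  rw [(maj_eis i hr hz).val_pow le_rfl, fn]

theorem fn_three (z : ℂ) : fn 3 z = z := by
  rw [fn, show eis 3 = PowerSeries.X ^ 1 * 1 by simp [eis], val_X_pow_mul, val_one]
  simp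

theorem norm_fn_le (i : Fin 4) (hz : ‖z‖ ≤ r) (hr1 : r < 1) : ‖fn i z‖ ≤ growth r :=
  (maj_eis i ((norm_nonneg z).trans hz) hr1).norm_val_le hz

/-- Near the origin `R`, `Q`, `P` are `1`. -/
theorem norm_fn_sub_one_le (i : Fin 4) (hi : i ≠ 3) (hz : ‖z‖ ≤ 1 / 2) :
    ‖fn i z - 1‖ ≤ 2 * (growth (1 / 2) + 1) * ‖z‖ := by
  have h0 : PowerSeries.constantCoeff (eis i) = 1 := by
    rw [← PowerSeries.coeff_zero_eq_constantCoeff]
    fin_cases i <;> simp [eis, FA.Tau.eSixInt, FA.Tau.eFourInt, FA.Tau.eTwoInt] at hi ⊢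
  obtain ⟨A', hA'⟩ : PowerSeries.X ∣ eis i - 1 := by
    rw [PowerSeries.X_dvd_iff, map_sub, h0]
    simp
  have hm := maj_eis i (show (0 : ℝ) ≤ 1 / 2 by norm_num) (by norm_num)
  have h1 : Maj (PowerSeries.X ^ 1 * A') (1 / 2) (growth (1 / 2) + 1) := by
    rw [pow_one, ← hA', sub_eq_add_neg]
    exact hm.add (maj_one _).neg (by norm_num)
  have e : fn i z - 1 = z ^ 1 * val A' z := by
    rw [← val_X_pow_mul, pow_one, ← hA', sub_eq_add_neg (eis i),
      hm.val_add (maj_one _).neg hz, val_neg, val_one, fn]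
    ring
  rw [e, norm_mul, pow_one, mul_comm]
  refine mul_le_mul_of_nonneg_right (((h1.shift (by norm_num)).norm_val_le hz).trans ?_)
    (norm_nonneg _)
  exact le_of_eq (by ring)

end FA.Nesterenko

end
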