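import Fermat.Agent.Nesterenko.Derivative
import Mathlib.Analysis.Analytic.Order
import Mathlib.Analysis.Complex.AbsMax
import Mathlib.Analysis.Calculus.IteratedDeriv.Lemmas

/-!
# Many small derivatives make the constant term small

A series bounded on the disc of radius `r` whose first `T` derivatives at `q` are tiny has a value
at the origin of size about `(|q| / r) ^ T`, by division with a Blaschke factor.
-/

set_option autoImplicit false

noncomputable section

namespace FA.Nesterenko

open Finset Metric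
open scoped Nat Topology ComplexConjugate

/-- Division by a multiple zero in the disc. -/
theorem exists_factor_ball {f : ℂ → ℂ} {s : Set ℂ} (hs : IsOpen s) (hf : DifferentiableOn ℂ f s)
    {a : ℂ} (ha : a ∈ s) {T : ℕ} (h : ∀ i < T, iteratedDeriv i f a = 0) :
    ∃ G : ℂ → ℂ, DifferentiableOn ℂ G s ∧ ∀ z, f z = (z - a) ^ T * G z := by
  classical
  have hfa : AnalyticAt ℂ f a := hf.analyticAt (hs.mem_nhds ha)
  obtain ⟨g, hg, hfg⟩ := (natCast_le_analyticOrderAt hfa).1
    ((natCast_le_analyticOrderAt_iff_iteratedDeriv_eq_zero hfa).2 h)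
  refine ⟨fun z => if z = a then g a else f z / (z - a) ^ T, fun z hz => ?_, fun z => ?_⟩
  · refine DifferentiableAt.differentiableWithinAt ?_
    by_cases hza : z = a
    · subst hza
      refine hg.differentiableAt.congr_of_eventuallyEq ?_
      filter_upwards [hfg] with w hw
      by_cases hwa : w = z
      · simp [hwa]
      · rw [if_neg hwa, hw, smul_eq_mul, mul_div_cancel_left₀ _
          (pow_ne_zero _ (sub_ne_zero.2 hwa))]
    · have hd : DifferentiableAt ℂ (fun w => f w / (w - a) ^ T) z :=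
        ((hf z hz).differentiableAt (hs.mem_nhds hz)).div (by fun_prop)
          (pow_ne_zero _ (sub_ne_zero.2 hza))
      refine hd.congr_of_eventuallyEq ?_
      filter_upwards [isOpen_ne.mem_nhds hza] with w hw
      exact if_neg hw
  · by_cases hz : z = a
    · subst hz
      simp only [if_pos]
      simpa using hfg.self_of_nhds
    · simp only [if_neg hz]
      rw [mul_div_cancel₀ _ (pow_ne_zero _ (sub_ne_zero.2 hz))]

/-- The Taylor polynomial. -/
def taylorPart (f : ℂ → ℂ) (q : ℂ) (T : ℕ) (z : ℂ) : ℂ :=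
  ∑ t ∈ range T, iteratedDeriv t f q / (t ! : ℂ) * (z - q) ^ t

theorem iteratedDeriv_taylorPart (f : ℂ → ℂ) (q : ℂ) {T s : ℕ} (hs : s < T) :
    iteratedDeriv s (taylorPart f q T) q = iteratedDeriv s f q := by
  unfold taylorPart
  rw [iteratedDeriv_fun_sum fun i _ => by fun_prop,
    sum_eq_single s (fun t _ ht => ?_) (fun h => absurd (mem_range.2 hs) h)]
  · rw [iteratedDeriv_const_mul_field, iteratedDeriv_comp_sub_const (f := (· ^ s))]
    simp only [sub_self, iteratedDeriv_fun_pow_zero, if_pos]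
    rw [div_mul_cancel₀ _ (Nat.cast_ne_zero.2 (Nat.factorial_ne_zero s))]
  · rw [iteratedDeriv_const_mul_field, iteratedDeriv_comp_sub_const (f := (· ^ t))]
    simp only [sub_self, iteratedDeriv_fun_pow_zero, if_neg ht.symm, Nat.cast_zero,
      mul_zero]

theorem norm_taylorPart_le {f : ℂ → ℂ} {q : ℂ} {T : ℕ} {δ : ℝ} (hq : ‖q‖ < 1)
    (h : ∀ t < T, ‖iteratedDeriv t f q‖ ≤ δ) {z : ℂ} (hz : ‖z‖ ≤ 1) :
    ‖taylorPart f q T z‖ ≤ T * (δ * 2 ^ T) := by
  refine (norm_sum_le _ _).trans ((sum_le_card_nsmul _ _ (δ * 2 ^ T) fun t ht => ?_).trans_eq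
    (by simp))
  have ht' := mem_range.1 ht
  have hδ : 0 ≤ δ := (norm_nonneg _).trans (h t ht')
  rw [norm_mul, norm_div, Complex.norm_natCast, norm_pow]
  refine mul_le_mul ((div_le_self (norm_nonneg _) ?_).trans (h t ht')) ?_ (by positivity) hδ
  · exact_mod_cast Nat.factorial_pos t
  · exact (pow_le_pow_left₀ (norm_nonneg _) ((norm_sub_le _ _).trans (by linarith)) t).trans
      (pow_le_pow_right₀ one_le_two ht'.le)

/-- **Few tiny derivatives**, for an integral series with non-zero constant term. -/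
theorem false_of_small_derivs {S : PowerSeries ℤ} (hS : Nice S)
    (h0 : PowerSeries.coeff 0 S ≠ 0) {q : ℂ} {r H δ : ℝ} {T : ℕ} (hqr : ‖q‖ < r) (hr1 : r < 1)
    (hH : Maj S r H) (h : ∀ t < T, ‖iteratedDeriv t (val S) q‖ ≤ δ)
    (hδ : (T : ℝ) * (δ * 2 ^ T) ≤ 1 / 4) (hT : (‖q‖ / r) ^ T * (H + 1) ≤ 1 / 4) : False := by
  have hq1 : ‖q‖ < 1 := hqr.trans hr1
  have hr0 : 0 < r := (norm_nonneg q).trans_lt hqr
  set p := taylorPart (val S) q T with hp
  have hpd : Differentiable ℂ p := by
    rw [hp]; unfold taylorPart; fun_prop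
  have hdiff : DifferentiableOn ℂ (fun z => val S z - p z) (ball (0 : ℂ) 1) :=
    (differentiableOn_val hS).sub hpd.differentiableOn
  have hzero : ∀ i < T, iteratedDeriv i (fun z => val S z - p z) q = 0 := fun i hi => by
    have hA : AnalyticAt ℂ (val S) q :=
      (differentiableOn_val hS).analyticAt (isOpen_ball.mem_nhds (mem_ball_zero_iff.2 hq1))
    rw [iteratedDeriv_fun_sub hA.contDiffAt (hpd.analyticAt q).contDiffAt, hp,
      iteratedDeriv_taylorPart _ _ hi, sub_self]
  obtain ⟨G, hG, hfac⟩ := exists_factor_ball isOpen_ball hdiff (mem_ball_zero_iff.2 hq1) hzero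
  set K : ℂ → ℂ := fun z => G z * (((r : ℂ) ^ 2 - conj q * z) / r) ^ T with hK
  have hKd : DiffContOnCl ℂ K (ball (0 : ℂ) r) := by
    refine DifferentiableOn.diffContOnCl ?_
    rw [closure_ball _ hr0.ne']
    exact (hG.mono (closedBall_subset_ball hr1)).mul (by fun_prop)
  have hbound : ∀ z ∈ frontier (ball (0 : ℂ) r), ‖K z‖ ≤ H + 1 := fun z hz => by
    rw [frontier_ball _ hr0.ne', mem_sphere_zero_iff_norm] at hz
    have he : ‖((r : ℂ) ^ 2 - conj q * z) / r‖ = ‖z - q‖ := by
      have e : (r : ℂ) ^ 2 - conj q * z = z * conj (z - q) := by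
        have h2 : z * conj z = ((r ^ 2 : ℝ) : ℂ) := by
          rw [Complex.mul_conj, Complex.normSq_eq_norm_sq, hz]
        push_cast at h2
        rw [map_sub, mul_sub, h2]
        ring
      rw [e, norm_div, norm_mul, Complex.norm_conj, hz, Complex.norm_real,
        Real.norm_of_nonneg hr0.le, mul_div_cancel_left₀ _ hr0.ne']
    rw [hK, norm_mul, norm_pow, he, ← norm_pow, ← norm_mul, mul_comm, ← hfac z]
    refine (norm_sub_le _ _).trans (add_le_add (hH.norm_val_le hz.le) ?_)
    exact (norm_taylorPart_le hq1 h (by linarith)).trans (by linarith)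
  have hK0 : ‖K 0‖ ≤ H + 1 := Complex.norm_le_of_forall_mem_frontier_norm_le isBounded_ball hKd
    hbound (subset_closure (mem_ball_self hr0))
  have hG0 : ‖G 0‖ * r ^ T ≤ H + 1 := by
    refine le_trans (le_of_eq ?_) hK0
    simp only [hK, mul_zero, sub_zero, norm_mul, norm_pow, norm_div, Complex.norm_real,
      Real.norm_of_nonneg hr0.le]
    rw [sq, mul_div_assoc, div_self hr0.ne', mul_one]
  have hval : val S 0 = ((PowerSeries.coeff 0 S : ℤ) : ℂ) := by
    rw [val, tsum_eq_single 0 fun n hn => by simp [zero_pow hn]]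
    simp
  have h1 : (1 : ℝ) ≤ ‖val S 0‖ := by
    rw [hval, Complex.norm_intCast]
    exact_mod_cast Int.one_le_abs h0
  have h2 : ‖val S 0 - p 0‖ ≤ 1 / 4 := by
    rw [hfac 0, norm_mul, norm_pow, zero_sub, norm_neg]
    refine le_trans ?_ hT
    rw [div_pow, div_mul_eq_mul_div, le_div_iff₀ (by positivity), mul_assoc]
    exact mul_le_mul_of_nonneg_left hG0 (by positivity)
  have h3 : ‖p 0‖ ≤ 1 / 4 :=
    (norm_taylorPart_le hq1 h (by simp)).trans hδ
  linarith [norm_le_norm_sub_add (val S 0) (p 0)]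

end FA.Nesterenko

end
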